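/-
Curves with isomorphic `p`-torsion have congruent traces of Frobenius at common good primes, given
that the trace of Frobenius on torsion is `aₗ`.
-/
import Fermat.Agent.Galois.Frobenius
import Fermat.Prelude.Def_EllipticCurve_FrobeniusTrace
import Fermat.Prelude.Def_FLTPrelim_Modularity
import Mathlib.LinearAlgebra.Trace

set_option autoImplicit false

namespace Fermat.Agent.Switch

open WeierstrassCurve.Affine (Point)
open WeierstrassCurve.Affine.Point (galoisRepModuleEnd galoisTrace)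
open scoped WeierstrassCurve.Affine

local notation "Qb" => AlgebraicClosure ℚ

/-- The statement that the trace of Frobenius on `p`-torsion is `aₗ`. -/
def TraceIsAp (p : ℕ) : Prop :=
  ∀ (V : WeierstrassCurve ℤ) (ℓ : ℕ) (A : ValuationSubring Qb) (σ : Qb ≃ₐ[ℚ] Qb),
    ℓ.Prime → ℓ ≠ p → V.IsGoodPrimeFor ℓ → A.LiesOverPrime ℓ → A.IsFrobeniusAt σ ℓ →
    galoisTrace ℚ (V.map (Int.castRingHom ℚ)) p σ = (V.apOfModel ℓ : ZMod p)

theorem dvd_apOfModel_sub_of_torsion_equiv {p : ℕ} (htr : TraceIsAp p)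
    (W W' : WeierstrassCurve ℤ)
    (e : Submodule.torsionBy ℤ ((W.map (Int.castRingHom ℚ))⁄Qb).Point p ≃ₗ[ZMod p]
      Submodule.torsionBy ℤ ((W'.map (Int.castRingHom ℚ))⁄Qb).Point p)
    (he : ∀ (σ : Qb ≃ₐ[ℚ] Qb) x, e (σ • x) = σ • e x)
    {ℓ : ℕ} (hℓ : ℓ.Prime) (hℓp : ℓ ≠ p) (hg : W.IsGoodPrimeFor ℓ)
    (hg' : W'.IsGoodPrimeFor ℓ) :
    (p : ℤ) ∣ W'.apOfModel ℓ - W.apOfModel ℓ := by
  obtain ⟨A, σ, hA, hσ⟩ := Galois.exists_valuationSubring_isFrobeniusAt hℓ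
  rw [← ZMod.intCast_zmod_eq_zero_iff_dvd, Int.cast_sub, sub_eq_zero,
    ← htr W ℓ A σ hℓ hℓp hg hA hσ, ← htr W' ℓ A σ hℓ hℓp hg' hA hσ]
  simp only [WeierstrassCurve.Affine.Point.galoisTrace_def]
  rw [← LinearMap.trace_conj' (galoisRepModuleEnd (K := Qb) ℚ (W.map (Int.castRingHom ℚ)) p σ) e]
  congr 1
  refine LinearMap.ext fun y => ?_
  simp [LinearEquiv.conj_apply, he]

end Fermat.Agent.Switch
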