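import Mathlib

/-!
The quartic `Y ^ 4 - 6 c₄ Y ^ 2 - 8 c₆ Y - 3 c₄ ^ 2`, which is the third division polynomial
in the variable `Y = 12 x + b₂`.
-/

namespace Fermat.Agent.Switch

variable {R : Type*} [CommRing R]

/-- The third division polynomial in terms of `(c₄, c₆)` and `Y = 12 x + b₂`. -/
def qf (a b y : R) : R := y ^ 4 - 6 * a * y ^ 2 - 8 * b * y - 3 * a ^ 2

/-- The derivative of `qf` in the last variable. -/
def qd (a b y : R) : R := 4 * y ^ 3 - 12 * a * y - 8 * b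

theorem map_qf {S F : Type*} [CommRing S] [FunLike F R S] [RingHomClass F R S]
    (f : F) (a b y : R) : f (qf a b y) = qf (f a) (f b) (f y) := by
  simp [qf, map_ofNat]

theorem qf_weight (l a b y : R) :
    qf (l ^ 2 * a) (l ^ 3 * b) (l * y) = l ^ 4 * qf a b y := by
  simp only [qf]; ring

theorem qf_add (a b y h : R) :
    qf a b (y + h) = qf a b y + h * qd a b y
      + h ^ 2 * (6 * y ^ 2 - 6 * a + 4 * y * h + h ^ 2) := by
  simp only [qf, qd]; ring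

theorem qf_sub_qf (a b y z : R) :
    qf a b y - qf a b z =
      (y - z) * ((y ^ 3 + y ^ 2 * z + y * z ^ 2 + z ^ 3) - 6 * a * (y + z) - 8 * b) := by
  simp only [qf]; ring

/-- On the zero set of `qf`, the discriminant factors as a cube times a linear factor. -/
theorem cube_mul_eq_of_qf_eq_zero {a b y : R} (h : qf a b y = 0) :
    (y ^ 2 - a) ^ 3 * (y ^ 2 - 9 * a) = -64 * y ^ 2 * (a ^ 3 - b ^ 2) := by
  simp only [qf] at h
  linear_combination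
    (y ^ 4 - 6 * a * y ^ 2 - 3 * a ^ 2 + 8 * b * y) * h

theorem qd_ne_zero {K : Type*} [Field K] [CharZero K] {a b y : K} (hab : a ^ 3 ≠ b ^ 2)
    (h : qf a b y = 0) : qd a b y ≠ 0 := by
  intro hd
  simp only [qf, qd] at h hd
  have h2 : (y ^ 2 - a) ^ 2 = 0 := by
    have : -3 * (y ^ 2 - a) ^ 2 = 0 := by linear_combination h - y * hd
    simpa using this
  have hy : a = y ^ 2 := by
    have := pow_eq_zero_iff (n := 2) two_ne_zero |>.1 h2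
    linear_combination -this
  apply hab
  have hb : b = -y ^ 3 := by
    subst hy
    linear_combination (-1 / 8 : K) * hd
  subst hy hb
  ring

/-- The quartic has at most two real roots. -/
theorem eq_or_eq_of_qf_eq_zero {a b r₁ r₂ r₃ : ℝ} (h₁ : qf a b r₁ = 0) (h₂ : qf a b r₂ = 0)
    (h₃ : qf a b r₃ = 0) (h12 : r₁ ≠ r₂) : r₃ = r₁ ∨ r₃ = r₂ := by
  by_contra hne
  obtain ⟨h31, h32⟩ := not_or.1 hne
  simp only [qf] at h₁ h₂ h₃
  have e12 : r₁ ^ 3 + r₁ ^ 2 * r₂ + r₁ * r₂ ^ 2 + r₂ ^ 3 - 6 * a * (r₁ + r₂) - 8 * b = 0 := by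
    apply mul_left_cancel₀ (sub_ne_zero.2 h12)
    linear_combination h₁ - h₂
  have e32 : r₃ ^ 3 + r₃ ^ 2 * r₂ + r₃ * r₂ ^ 2 + r₂ ^ 3 - 6 * a * (r₃ + r₂) - 8 * b = 0 := by
    apply mul_left_cancel₀ (sub_ne_zero.2 h32)
    linear_combination h₃ - h₂
  have e2 : r₁ ^ 2 + r₂ ^ 2 + r₃ ^ 2 + r₁ * r₂ + r₁ * r₃ + r₂ * r₃ = 6 * a := by
    apply mul_left_cancel₀ (sub_ne_zero.2 h31)
    linear_combination e32 - e12
  set r₄ := -(r₁ + r₂ + r₃) with hr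
  have e4 : r₁ * r₂ * r₃ * r₄ = -3 * a ^ 2 := by
    rw [hr]
    linear_combination -h₁ + r₁ * e12 - r₁ * r₂ * e2
  have hI : ((r₁ * r₂ + r₃ * r₄) - (r₁ * r₃ + r₂ * r₄)) ^ 2
      + ((r₁ * r₃ + r₂ * r₄) - (r₁ * r₄ + r₂ * r₃)) ^ 2
      + ((r₁ * r₄ + r₂ * r₃) - (r₁ * r₂ + r₃ * r₄)) ^ 2 = 0 := by
    have : (r₁ * r₂ + r₁ * r₃ + r₁ * r₄ + r₂ * r₃ + r₂ * r₄ + r₃ * r₄) ^ 2
        + 12 * (r₁ * r₂ * r₃ * r₄) = 0 := by
      have e : r₁ * r₂ + r₁ * r₃ + r₁ * r₄ + r₂ * r₃ + r₂ * r₄ + r₃ * r₄ = -(6 * a) := by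
        rw [hr]; linear_combination -e2
      rw [e, e4]; ring
    rw [hr] at this ⊢
    linear_combination 2 * this
  have z1 : (r₁ - r₄) * (r₂ - r₃) = 0 := by
    have := sq_nonneg ((r₁ * r₃ + r₂ * r₄) - (r₁ * r₄ + r₂ * r₃))
    have := sq_nonneg ((r₁ * r₄ + r₂ * r₃) - (r₁ * r₂ + r₃ * r₄))
    nlinarith [sq_nonneg ((r₁ * r₂ + r₃ * r₄) - (r₁ * r₃ + r₂ * r₄))]
  have z2 : (r₁ - r₃) * (r₂ - r₄) = 0 := by
    have := sq_nonneg ((r₁ * r₃ + r₂ * r₄) - (r₁ * r₄ + r₂ * r₃))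
    have := sq_nonneg ((r₁ * r₂ + r₃ * r₄) - (r₁ * r₃ + r₂ * r₄))
    nlinarith [sq_nonneg ((r₁ * r₄ + r₂ * r₃) - (r₁ * r₂ + r₃ * r₄))]
  rcases mul_eq_zero.1 z1 with z | z
  · rcases mul_eq_zero.1 z2 with w | w
    · exact h31 (by linarith)
    · exact h12 (by linarith)
  · exact h32 (by linarith)

end Fermat.Agent.Switch
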