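import Fermat.Agent.Switch.Forms

set_option autoImplicit false

namespace Fermat.Agent.Switch

variable {R : Type*} [CommRing R]

/-- Partial derivative of `fiveD` in the first variable. -/
def fiveDx (a b x y : R) : R :=
  (12) * x ^ 11
    + (-660 * a) * x ^ 9 * y ^ 2
    + (-3960 * b) * x ^ 8 * y ^ 3
    + (-11880 * a ^ 2) * x ^ 7 * y ^ 4
    + (-22176 * a * b) * x ^ 6 * y ^ 5
    + (35640 * a ^ 3 - 63360 * b ^ 2) * x ^ 5 * y ^ 6
    + (-23760 * a ^ 2 * b) * x ^ 4 * y ^ 7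
    + (-267300 * a ^ 4 + 253440 * a * b ^ 2) * x ^ 3 * y ^ 8
    + (-427680 * a ^ 3 * b + 422400 * b ^ 3) * x ^ 2 * y ^ 9
    + (-267300 * a ^ 5 + 266112 * a ^ 2 * b ^ 2) * x * y ^ 10
    + (-61560 * a ^ 4 * b + 61440 * a * b ^ 3) * y ^ 11

/-- Second partial derivative of `fiveD` in the first variable. -/
def fiveDxx (a b x y : R) : R :=
  (132) * x ^ 10
    + (-5940 * a) * x ^ 8 * y ^ 2
    + (-31680 * b) * x ^ 7 * y ^ 3
    + (-83160 * a ^ 2) * x ^ 6 * y ^ 4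
    + (-133056 * a * b) * x ^ 5 * y ^ 5
    + (178200 * a ^ 3 - 316800 * b ^ 2) * x ^ 4 * y ^ 6
    + (-95040 * a ^ 2 * b) * x ^ 3 * y ^ 7
    + (-801900 * a ^ 4 + 760320 * a * b ^ 2) * x ^ 2 * y ^ 8
    + (-855360 * a ^ 3 * b + 844800 * b ^ 3) * x * y ^ 9
    + (-267300 * a ^ 5 + 266112 * a ^ 2 * b ^ 2) * y ^ 10

set_option maxRecDepth 20000 in
set_option maxHeartbeats 4000000 in
theorem fiveHess_identity (a b x y : R) :
    1584 * y ^ 2 * fiveC4 a b x y =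
      11 * fiveDx a b x y ^ 2 - 12 * fiveD a b x y * fiveDxx a b x y := by
  simp only [fiveC4, fiveC4Part0, fiveC4Part1, fiveC4Part2, fiveC4Part3, fiveD, fiveDx, fiveDxx]
  ring

end Fermat.Agent.Switch
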