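/-
The degree 12, 20, 30 forms parametrising elliptic curves with the same 5-torsion as a given
one (`a = c₄`, `b = c₆`), their syzygy, and the resultant certificate for the first two.
-/
import Mathlib.Tactic.Ring
import Mathlib.Tactic.LinearCombination

set_option autoImplicit false

namespace Fermat.Agent.Switch

variable {R : Type*} [CommRing R]

/-- The icosahedral form of degree 12. -/
def fiveD (a b x y : R) : R :=
  (1) * x ^ 12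
    + (-66 * a) * x ^ 10 * y ^ 2
    + (-440 * b) * x ^ 9 * y ^ 3
    + (-1485 * a ^ 2) * x ^ 8 * y ^ 4
    + (-3168 * a * b) * x ^ 7 * y ^ 5
    + (5940 * a ^ 3 - 10560 * b ^ 2) * x ^ 6 * y ^ 6
    + (-4752 * a ^ 2 * b) * x ^ 5 * y ^ 7
    + (-66825 * a ^ 4 + 63360 * a * b ^ 2) * x ^ 4 * y ^ 8
    + (-142560 * a ^ 3 * b + 140800 * b ^ 3) * x ^ 3 * y ^ 9
    + (-133650 * a ^ 5 + 133056 * a ^ 2 * b ^ 2) * x ^ 2 * y ^ 10
    + (-61560 * a ^ 4 * b + 61440 * a * b ^ 3) * x * y ^ 11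
    + (91125 * a ^ 6 - 193536 * a ^ 3 * b ^ 2 + 102400 * b ^ 4) * y ^ 12


/-- Part 0 of `fiveC4`. -/
def fiveC4Part0 (a b x y : R) : R :=
  (a) * x ^ 20
    + (20 * b) * x ^ 19 * y
    + (190 * a ^ 2) * x ^ 18 * y ^ 2
    + (1140 * a * b) * x ^ 17 * y ^ 3
    + (-855 * a ^ 3 + 5700 * b ^ 2) * x ^ 16 * y ^ 4
    + (15504 * a ^ 2 * b) * x ^ 15 * y ^ 5

/-- Part 1 of `fiveC4`. -/
def fiveC4Part1 (a b x y : R) : R :=
  (102600 * a ^ 4 - 63840 * a * b ^ 2) * x ^ 14 * y ^ 6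
    + (259920 * a ^ 3 * b - 182400 * b ^ 3) * x ^ 13 * y ^ 7
    + (-1000350 * a ^ 5 + 1126320 * a ^ 2 * b ^ 2) * x ^ 12 * y ^ 8
    + (-7736040 * a ^ 4 * b + 7904000 * a * b ^ 3) * x ^ 11 * y ^ 9
    + (-10003500 * a ^ 6 - 5619744 * a ^ 3 * b ^ 2 + 15808000 * b ^ 4) * x ^ 10 * y ^ 10
    + (-54685800 * a ^ 5 * b + 54853760 * a ^ 2 * b ^ 3) * x ^ 9 * y ^ 11

/-- Part 2 of `fiveC4`. -/
def fiveC4Part2 (a b x y : R) : R :=
  (-45015750 * a ^ 7 + 7202520 * a ^ 4 * b ^ 2 + 37939200 * a * b ^ 4) * x ^ 8 * y ^ 12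
    + (-35089200 * a ^ 6 * b - 23201280 * a ^ 3 * b ^ 3 + 58368000 * b ^ 5) * x ^ 7 * y ^ 13
    + (207765000 * a ^ 8 - 495188640 * a ^ 5 * b ^ 2 + 287462400 * a ^ 2 * b ^ 4) * x ^ 6 * y ^ 14
    + (415530000 * a ^ 7 * b - 882458496 * a ^ 4 * b ^ 3 + 466944000 * a * b ^ 5) * x ^ 5 * y ^ 15
    + (-77911875 * a ^ 9 + 714711600 * a ^ 6 * b ^ 2 - 1220474880 * a ^ 3 * b ^ 4 + 583680000 * b ^ 6) * x ^ 4 * y ^ 16
    + (353200500 * a ^ 8 * b - 715080960 * a ^ 5 * b ^ 3 + 361881600 * a ^ 2 * b ^ 5) * x ^ 3 * y ^ 17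

/-- Part 3 of `fiveC4`. -/
def fiveC4Part3 (a b x y : R) : R :=
  (779118750 * a ^ 10 - 2182917600 * a ^ 7 * b ^ 2 + 2026391040 * a ^ 4 * b ^ 4 - 622592000 * a * b ^ 6) * x ^ 2 * y ^ 18
    + (694372500 * a ^ 9 * b - 2044414080 * a ^ 6 * b ^ 3 + 2005401600 * a ^ 3 * b ^ 5 - 655360000 * b ^ 7) * x * y ^ 19
    + (184528125 * a ^ 11 - 549301500 * a ^ 8 * b ^ 2 + 544997376 * a ^ 5 * b ^ 4 - 180224000 * a ^ 2 * b ^ 6) * y ^ 20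

/-- The covariant of degree 20 (`c₄` of the family). -/
def fiveC4 (a b x y : R) : R :=
  fiveC4Part0 a b x y + fiveC4Part1 a b x y + fiveC4Part2 a b x y + fiveC4Part3 a b x y


/-- Part 0 of `fiveC6`. -/
def fiveC6Part0 (a b x y : R) : R :=
  (b) * x ^ 30
    + (30 * a ^ 2) * x ^ 29 * y
    + (435 * a * b) * x ^ 28 * y ^ 2
    + (1160 * a ^ 3 + 2900 * b ^ 2) * x ^ 27 * y ^ 3
    + (27405 * a ^ 2 * b) * x ^ 26 * y ^ 4
    + (95526 * a ^ 4 + 46980 * a * b ^ 2) * x ^ 25 * y ^ 5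

/-- Part 1 of `fiveC6`. -/
def fiveC6Part1 (a b x y : R) : R :=
  (437175 * a ^ 3 * b + 156600 * b ^ 3) * x ^ 24 * y ^ 6
    + (-1879200 * a ^ 5 + 3915000 * a ^ 2 * b ^ 2) * x ^ 23 * y ^ 7
    + (-8554275 * a ^ 4 * b + 14407200 * a * b ^ 3) * x ^ 22 * y ^ 8
    + (24312150 * a ^ 6 - 42021000 * a ^ 3 * b ^ 2 + 32016000 * b ^ 4) * x ^ 21 * y ^ 9
    + (246633255 * a ^ 5 * b - 216588240 * a ^ 2 * b ^ 3) * x ^ 20 * y ^ 10
    + (162081000 * a ^ 7 + 1352475900 * a ^ 4 * b ^ 2 - 1459929600 * a * b ^ 4) * x ^ 19 * y ^ 11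

/-- Part 2 of `fiveC6`. -/
def fiveC6Part2 (a b x y : R) : R :=
  (4131714825 * a ^ 6 * b - 1612005600 * a ^ 3 * b ^ 3 - 2433216000 * b ^ 5) * x ^ 18 * y ^ 12
    + (6928962750 * a ^ 8 + 5235216300 * a ^ 5 * b ^ 2 - 12044419200 * a ^ 2 * b ^ 4) * x ^ 17 * y ^ 13
    + (43190534475 * a ^ 7 * b - 43045111800 * a ^ 4 * b ^ 3) * x ^ 16 * y ^ 14
    + (79575287760 * a ^ 6 * b ^ 2 - 79420170240 * a ^ 3 * b ^ 4) * x ^ 15 * y ^ 15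
    + (-176688550125 * a ^ 8 * b + 474659611200 * a ^ 5 * b ^ 3 - 297825638400 * a ^ 2 * b ^ 5) * x ^ 14 * y ^ 16
    + (-311803323750 * a ^ 10 + 77604382800 * a ^ 7 * b ^ 2 + 935084908800 * a ^ 4 * b ^ 4 - 700766208000 * a * b ^ 6) * x ^ 13 * y ^ 17

/-- Part 3 of `fiveC6`. -/
def fiveC6Part3 (a b x y : R) : R :=
  (-1694131392375 * a ^ 9 * b + 2776512362400 * a ^ 6 * b ^ 3 - 303665356800 * a ^ 3 * b ^ 5 - 778629120000 * b ^ 7) * x ^ 12 * y ^ 18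
    + (-328214025000 * a ^ 11 - 3481840250100 * a ^ 8 * b ^ 2 + 8100765158400 * a ^ 5 * b ^ 4 - 4290656256000 * a ^ 2 * b ^ 6) * x ^ 11 * y ^ 19
    + (-2874607835625 * a ^ 10 * b + 2424887357760 * a ^ 7 * b ^ 3 + 3892110842880 * a ^ 4 * b ^ 5 - 3442360320000 * a * b ^ 7) * x ^ 10 * y ^ 20
    + (-2215444668750 * a ^ 12 + 3077188825500 * a ^ 9 * b ^ 2 - 2709129888000 * a ^ 6 * b ^ 4 + 5125838438400 * a ^ 3 * b ^ 6 - 3278438400000 * b ^ 8) * x ^ 9 * y ^ 21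
    + (-1403114956875 * a ^ 11 * b - 1724509423800 * a ^ 8 * b ^ 3 + 7701051801600 * a ^ 5 * b ^ 5 - 4573421568000 * a ^ 2 * b ^ 7) * x ^ 8 * y ^ 22
    + (7705894500000 * a ^ 13 - 33414470973000 * a ^ 10 * b ^ 2 + 49888700928000 * a ^ 7 * b ^ 4 - 30337884979200 * a ^ 4 * b ^ 6 + 6157762560000 * a * b ^ 8) * x ^ 7 * y ^ 23

/-- Part 4 of `fiveC6`. -/
def fiveC6Part4 (a b x y : R) : R :=
  (5089101159375 * a ^ 12 * b - 22687218914400 * a ^ 9 * b ^ 3 + 35246094796800 * a ^ 6 * b ^ 5 - 22779445248000 * a ^ 3 * b ^ 7 + 5131468800000 * b ^ 9) * x ^ 6 * y ^ 24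
    + (-17627233668750 * a ^ 14 + 70097953635000 * a ^ 11 * b ^ 2 - 105528606261120 * a ^ 8 * b ^ 4 + 71274600677376 * a ^ 5 * b ^ 6 - 18216714240000 * a ^ 2 * b ^ 8) * x ^ 5 * y ^ 25
    + (-40985726371875 * a ^ 13 * b + 163672057566000 * a ^ 10 * b ^ 3 - 245438120632320 * a ^ 7 * b ^ 5 + 163803539865600 * a ^ 4 * b ^ 7 - 41051750400000 * a * b ^ 9) * x ^ 4 * y ^ 26
    + (-9632368125000 * a ^ 15 + 8104032382500 * a ^ 12 * b ^ 2 + 63806176396800 * a ^ 9 * b ^ 4 - 143803576074240 * a ^ 6 * b ^ 6 + 111934439424000 * a ^ 3 * b ^ 8 - 30408704000000 * b ^ 10) * x ^ 3 * y ^ 27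
    + (-21432019078125 * a ^ 14 * b + 85719228804000 * a ^ 11 * b ^ 3 - 128580522647040 * a ^ 8 * b ^ 5 + 85731449241600 * a ^ 5 * b ^ 7 - 21438136320000 * a ^ 2 * b ^ 9) * x ^ 2 * y ^ 28
    + (-11210083593750 * a ^ 16 + 49873523512500 * a ^ 13 * b ^ 2 - 87394892457600 * a ^ 10 * b ^ 4 + 75042714746880 * a ^ 7 * b ^ 6 - 31344427008000 * a ^ 4 * b ^ 8 + 5033164800000 * a * b ^ 10) * x * y ^ 29

/-- Part 5 of `fiveC6`. -/
def fiveC6Part5 (a b x y : R) : R :=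
  (-4110363984375 * a ^ 15 * b + 19796866155000 * a ^ 12 * b ^ 3 - 38083944628224 * a ^ 9 * b ^ 5 + 36574189977600 * a ^ 6 * b ^ 7 - 17532190720000 * a ^ 3 * b ^ 9 + 3355443200000 * b ^ 11) * y ^ 30

/-- The covariant of degree 30 (`c₆` of the family). -/
def fiveC6 (a b x y : R) : R :=
  fiveC6Part0 a b x y + fiveC6Part1 a b x y + fiveC6Part2 a b x y + fiveC6Part3 a b x y + fiveC6Part4 a b x y + fiveC6Part5 a b x y


end Fermat.Agent.Switch
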