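/-
Explicit forms for the universal elliptic curve with full level five structure (Klein):
`y² = x³ - 27 c₄(u,v) x - 54 c₆(u,v)` with a rational section of order five, a cyclotomic one,
and the identities between them.
-/
import Mathlib.Algebra.Field.Basic
import Mathlib.Algebra.CharZero.Defs
import Mathlib.Tactic.Ring
import Mathlib.Tactic.LinearCombination

set_option autoImplicit false

namespace Fermat.Agent.Switch.Klein

variable {k : Type*} [Field k]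

/-- x-coordinate of the cyclotomic section, as a form in `U = u⁵`, `V = v⁵`. -/
def qXS (z U V : k) : k :=
  ((-93 - 36 * z ^ 2 - 36 * z ^ 3) / 5) * U ^ 2 +
    ((-198 - 396 * z ^ 2 - 396 * z ^ 3) / 5) * U * V +
    ((-57 + 36 * z ^ 2 + 36 * z ^ 3) / 5) * V ^ 2

/-- y-coordinate of the cyclotomic section. -/
def qYS (z U V : k) : k :=
  ((-108 - 216 * z + 108 * z ^ 2 - 324 * z ^ 3) / 5) * U ^ 3 +
    ((-972 - 1944 * z + 1512 * z ^ 2 - 3456 * z ^ 3) / 5) * U ^ 2 * V +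
    ((2484 + 4968 * z + 3456 * z ^ 2 + 1512 * z ^ 3) / 5) * U * V ^ 2 +
    ((-216 - 432 * z - 324 * z ^ 2 - 108 * z ^ 3) / 5) * V ^ 3

/-- slope of the tangent at the cyclotomic section. -/
def qLS (z U V : k) : k :=
  ((-3 - 6 * z - 24 * z ^ 2 + 18 * z ^ 3) / 5) * U +
    ((21 + 42 * z + 18 * z ^ 2 + 24 * z ^ 3) / 5) * V

/-- x-coordinate of the rational section. -/
def kXR (u v : k) : k :=
  (3) * u ^ 10 +
    (36) * u ^ 8 * v ^ 2 +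
    (-36) * u ^ 7 * v ^ 3 +
    (72) * u ^ 6 * v ^ 4 +
    (90) * u ^ 5 * v ^ 5 +
    (180) * u ^ 4 * v ^ 6 +
    (108) * u ^ 3 * v ^ 7 +
    (72) * u ^ 2 * v ^ 8 +
    (36) * u * v ^ 9 +
    (3) * v ^ 10

/-- y-coordinate of the rational section. -/
def kYR (u v : k) : k :=
  (108) * u ^ 13 * v ^ 2 +
    (108) * u ^ 12 * v ^ 3 +
    (432) * u ^ 11 * v ^ 4 +
    (540) * u ^ 9 * v ^ 6 +
    (648) * u ^ 8 * v ^ 7 +
    (2268) * u ^ 7 * v ^ 8 +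
    (3132) * u ^ 6 * v ^ 9 +
    (2700) * u ^ 5 * v ^ 10 +
    (1620) * u ^ 4 * v ^ 11 +
    (972) * u ^ 3 * v ^ 12 +
    (432) * u ^ 2 * v ^ 13 +
    (108) * u * v ^ 14

/-- slope of the tangent at the rational section. -/
def kLR (u v : k) : k :=
  (3) * u ^ 5 +
    (-6) * u ^ 4 * v +
    (18) * u ^ 3 * v ^ 2 +
    (6) * u ^ 2 * v ^ 3 +
    (12) * u * v ^ 4 +
    (3) * v ^ 5

/-- slope of the chord through the two sections. -/
def kM (z u v : k) : k :=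
  ((3 + 6 * z - 6 * z ^ 2 + 12 * z ^ 3) / 5) * u ^ 5 +
    (6 - 6 * z ^ 3) * u ^ 3 * v ^ 2 +
    (6 - 6 * z ^ 2) * u ^ 2 * v ^ 3 +
    (6 - 6 * z) * u * v ^ 4 +
    ((9 + 18 * z + 12 * z ^ 2 + 6 * z ^ 3) / 5) * v ^ 5

/-- fifth power of the first coordinate after applying `kH`. -/
def kF (z u v : k) : k :=
  ((-4 - 8 * z - 7 * z ^ 2 - z ^ 3) / 25) * u ^ 5 +
    ((3 + 6 * z + 4 * z ^ 2 + 2 * z ^ 3) / 5) * u ^ 4 * v +
    ((-2 - 4 * z - 6 * z ^ 2 + 2 * z ^ 3) / 5) * u ^ 3 * v ^ 2 +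
    ((4 + 8 * z + 2 * z ^ 2 + 6 * z ^ 3) / 5) * u ^ 2 * v ^ 3 +
    ((1 + 2 * z - 2 * z ^ 2 + 4 * z ^ 3) / 5) * u * v ^ 4 +
    ((3 + 6 * z - z ^ 2 + 7 * z ^ 3) / 25) * v ^ 5

/-- fifth power of the second coordinate after applying `kH`. -/
def kG (z u v : k) : k :=
  ((3 + 6 * z - z ^ 2 + 7 * z ^ 3) / 25) * u ^ 5 +
    ((-1 - 2 * z + 2 * z ^ 2 - 4 * z ^ 3) / 5) * u ^ 4 * v +
    ((4 + 8 * z + 2 * z ^ 2 + 6 * z ^ 3) / 5) * u ^ 3 * v ^ 2 +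
    ((2 + 4 * z + 6 * z ^ 2 - 2 * z ^ 3) / 5) * u ^ 2 * v ^ 3 +
    ((3 + 6 * z + 4 * z ^ 2 + 2 * z ^ 3) / 5) * u * v ^ 4 +
    ((4 + 8 * z + 7 * z ^ 2 + z ^ 3) / 25) * v ^ 5

/-- first entry of the icosahedral involution. -/
def kHa (z : k) : k := ((-1 - 2 * z - 3 * z ^ 2 + z ^ 3) / 5)

/-- second entry of the icosahedral involution. -/
def kHb (z : k) : k := ((2 + 4 * z + z ^ 2 + 3 * z ^ 3) / 5)

section Ring

variable {R : Type*} [CommRing R]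

def qC4 (U V : R) : R := U ^ 4 - 228 * U ^ 3 * V + 494 * U ^ 2 * V ^ 2 + 228 * U * V ^ 3 + V ^ 4

def qC6 (U V : R) : R :=
  -U ^ 6 - 522 * U ^ 5 * V + 10005 * U ^ 4 * V ^ 2 + 10005 * U ^ 2 * V ^ 4 + 522 * U * V ^ 5 - V ^ 6

def qQ (U V : R) : R := V ^ 2 - 11 * U * V - U ^ 2

def kC4 (u v : R) : R := qC4 (u ^ 5) (v ^ 5)

def kC6 (u v : R) : R := qC6 (u ^ 5) (v ^ 5)

def kD (u v : R) : R := u * v * qQ (u ^ 5) (v ^ 5)

/-- the first component of `J∇D`. -/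
def kKu (u v : R) : R := u * (11 * (v ^ 5) ^ 2 - 66 * u ^ 5 * v ^ 5 - (u ^ 5) ^ 2)

/-- the second component of `J∇D`. -/
def kKv (u v : R) : R := -(v * ((v ^ 5) ^ 2 - 66 * u ^ 5 * v ^ 5 - 11 * (u ^ 5) ^ 2))


end Ring

end Fermat.Agent.Switch.Klein
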