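/-
The form of degree twelve of the twisted family is Klein's form along `w ↦ s w + t J∇D(w)`.
-/
import Fermat.Agent.Switch.KleinDefs
import Fermat.Agent.Switch.Forms
import Mathlib.Tactic.Ring

set_option autoImplicit false
set_option maxHeartbeats 4000000

namespace Fermat.Agent.Switch.Klein

variable {k : Type*} [Field k]

theorem kD_pencil (u v s t : k) :
    kD (s * u + t * kKu u v) (s * v + t * kKv u v) =
      kD u v * fiveD (kC4 u v) (kC6 u v) s t := by
  simp only [kD, qQ, kKu, kKv, kC4, kC6, qC4, qC6, fiveD]
  ring

end Fermat.Agent.Switch.Klein
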