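/-
`c₄` as the Hessian covariant of the form of degree twelve, along `w ↦ s w + t J∇D(w)`.
-/
import Fermat.Agent.Switch.KleinDefs
import Fermat.Agent.Switch.KleinCovD
import Fermat.Agent.Switch.Hessian
import Mathlib.Tactic.LinearCombination

set_option autoImplicit false
set_option maxHeartbeats 4000000

namespace Fermat.Agent.Switch.Klein

variable {k : Type*} [Field k]

/-- first derivative of `kD` at `(p, q)` in the direction `(a, b)` -/
def kD1 (a b p q : k) : k := -a * kKv p q + b * kKu p q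

/-- second derivative of `kD` at `(p, q)` in the direction `(a, b)` -/
def kD2 (a b p q : k) : k :=
  a ^ 2 * (-330 * p ^ 4 * q ^ 6 - 110 * p ^ 9 * q)
    + 2 * a * b * (11 * q ^ 10 - 396 * p ^ 5 * q ^ 5 - 11 * p ^ 10)
    + b ^ 2 * (110 * p * q ^ 9 - 330 * p ^ 6 * q ^ 4)

theorem kD_hessian (a b p q : k) :
    11 * kD1 a b p q ^ 2 - 12 * kD p q * kD2 a b p q = 11 * (a * q - b * p) ^ 2 * kC4 p q := by
  simp only [kD1, kD2, kD, qQ, kKu, kKv, kC4, qC4]
  ring

theorem kD1_pencil (u v s t : k) :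
    kD1 u v (s * u + t * kKu u v) (s * v + t * kKv u v) =
      kD u v * fiveDx (kC4 u v) (kC6 u v) s t := by
  simp only [kD1, kD, qQ, kKu, kKv, kC4, kC6, qC4, qC6, fiveDx]
  ring

theorem kD2_pencil (u v s t : k) :
    kD2 u v (s * u + t * kKu u v) (s * v + t * kKv u v) =
      kD u v * fiveDxx (kC4 u v) (kC6 u v) s t := by
  simp only [kD2, kD, qQ, kKu, kKv, kC4, kC6, qC4, qC6, fiveDxx]
  ring

theorem kC4_pencil [CharZero k] {u v : k} (hD : kD u v ≠ 0) (s t : k) :
    kC4 (s * u + t * kKu u v) (s * v + t * kKv u v) =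
      fiveC4 (kC4 u v) (kC6 u v) s t := by
  by_cases ht : t = 0
  · subst ht
    rw [show fiveC4 (kC4 u v) (kC6 u v) s 0 = kC4 u v * s ^ 20 by
      simp [fiveC4, fiveC4Part0, fiveC4Part1, fiveC4Part2, fiveC4Part3]]
    simp only [kC4, qC4]
    ring
  · have h := kD_hessian u v (s * u + t * kKu u v) (s * v + t * kKv u v)
    rw [kD1_pencil, kD2_pencil, kD_pencil] at h
    have h' := fiveHess_identity (kC4 u v) (kC6 u v) s t
    have hw : u * (s * v + t * kKv u v) - v * (s * u + t * kKu u v) = -(12 * t * kD u v) := by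
      simp only [kKu, kKv, kD, qQ]; ring
    rw [hw] at h
    refine mul_left_cancel₀ (mul_ne_zero (mul_ne_zero (by norm_num : (1584 : k) ≠ 0)
      (pow_ne_zero 2 ht)) (pow_ne_zero 2 hD)) ?_
    linear_combination -h - kD u v ^ 2 * h'

end Fermat.Agent.Switch.Klein
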