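/-
Polynomial identities between the Klein forms and the two sections of order five.
-/
import Fermat.Agent.Switch.KleinDefs
import Mathlib.Algebra.CharZero.Defs
import Mathlib.Tactic.Ring
import Mathlib.Tactic.LinearCombination

set_option autoImplicit false
set_option maxHeartbeats 4000000

namespace Fermat.Agent.Switch.Klein

variable {k : Type*} [Field k] [CharZero k] {z : k}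

theorem qXS_sq (hz : z ^ 4 + z ^ 3 + z ^ 2 + z + 1 = 0) (U V : k) :
    qYS z U V ^ 2 = qXS z U V ^ 3 - 27 * qC4 U V * qXS z U V - 54 * qC6 U V := by
  simp only [qYS, qXS, qC4, qC6]
  linear_combination ((373248 * V ^ 6 + 559872 * V ^ 6 * z + 373248 * V ^ 6 * z ^ 2 - 93312 * V ^ 6 * z ^ 4 - 46656 * V ^ 6 * z ^ 5 - 8817984 * U * V ^ 5 - 12643776 * U * V ^ 5 * z - 8817984 * U * V ^ 5 * z ^ 2 + 3079296 * U * V ^ 5 * z ^ 4 + 1539648 * U * V ^ 5 * z ^ 5 + 58553280 * U ^ 2 * V ^ 4 + 73249920 * U ^ 2 * V ^ 4 * z + 58553280 * U ^ 2 * V ^ 4 * z ^ 2 - 33592320 * U ^ 2 * V ^ 4 * z ^ 4 - 16796160 * U ^ 2 * V ^ 4 * z ^ 5 - 81414720 * U ^ 3 * V ^ 3 - 14230080 * U ^ 3 * V ^ 3 * z - 81414720 * U ^ 3 * V ^ 3 * z ^ 2 + 118039680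 * U ^ 3 * V ^ 3 * z ^ 4 + 59019840 * U ^ 3 * V ^ 3 * z ^ 5 + 81414720 * U ^ 4 * V ^ 2 - 73249920 * U ^ 4 * V ^ 2 * z + 81414720 * U ^ 4 * V ^ 2 * z ^ 2 + 33592320 * U ^ 4 * V ^ 2 * z ^ 4 + 16796160 * U ^ 4 * V ^ 2 * z ^ 5 + 16842816 * U ^ 5 * V - 12643776 * U ^ 5 * V * z + 16842816 * U ^ 5 * V * z ^ 2 + 3079296 * U ^ 5 * V * z ^ 4 + 1539648 * U ^ 5 * V * z ^ 5 + 793152 * U ^ 6 - 559872 * U ^ 6 * z + 793152 * U ^ 6 * z ^ 2 + 93312 * U ^ 6 * z ^ 4 + 46656 * U ^ 6 * z ^ 5) / 125) * hz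

theorem qLS_spec (hz : z ^ 4 + z ^ 3 + z ^ 2 + z + 1 = 0) (U V : k) :
    3 * qXS z U V ^ 2 - 27 * qC4 U V = 2 * qYS z U V * qLS z U V := by
  simp only [qYS, qXS, qC4, qLS]
  linear_combination ((18144 * V ^ 4 + 18144 * V ^ 4 * z + 9072 * V ^ 4 * z ^ 2 - 191808 * U * V ^ 3 - 230688 * U * V ^ 3 * z - 154224 * U * V ^ 3 * z ^ 2 - 128304 * U ^ 2 * V ^ 2 + 351216 * U ^ 2 * V ^ 2 * z + 574128 * U ^ 2 * V ^ 2 * z ^ 2 + 263088 * U ^ 3 * V - 268272 * U ^ 3 * V * z + 225504 * U ^ 3 * V * z ^ 2 + 24624 * U ^ 4 - 27216 * U ^ 4 * z + 15552 * U ^ 4 * z ^ 2) / 25) * hz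

theorem qXS_double (hz : z ^ 4 + z ^ 3 + z ^ 2 + z + 1 = 0) (U V : k) :
    qXS (z ^ 2) U V = qLS z U V ^ 2 - 2 * qXS z U V := by
  simp only [qXS, qLS]
  linear_combination ((-1296 * V ^ 2 - 468 * V ^ 2 * z - 396 * V ^ 2 * z ^ 2 - 2844 * U * V + 3348 * U * V * z - 2844 * U * V * z ^ 2 - 1404 * U ^ 2 + 1368 * U ^ 2 * z - 504 * U ^ 2 * z ^ 2) / 25) * hz

theorem qYS_double (hz : z ^ 4 + z ^ 3 + z ^ 2 + z + 1 = 0) (U V : k) :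
    qYS (z ^ 2) U V = -(qYS z U V + qLS z U V * (qXS (z ^ 2) U V - qXS z U V)) := by
  simp only [qXS, qLS, qYS]
  linear_combination ((-2160 * V ^ 3 - 2376 * V ^ 3 * z ^ 2 + 1728 * V ^ 3 * z ^ 3 - 216 * V ^ 3 * z ^ 4 + 864 * V ^ 3 * z ^ 5 + 24840 * U * V ^ 2 + 25704 * U * V ^ 2 * z ^ 2 - 17712 * U * V ^ 2 * z ^ 3 + 864 * U * V ^ 2 * z ^ 4 - 8856 * U * V ^ 2 * z ^ 5 - 9720 * U ^ 2 * V + 7128 * U ^ 2 * V * z ^ 2 - 15984 * U ^ 2 * V * z ^ 3 + 16848 * U ^ 2 * V * z ^ 4 - 7992 * U ^ 2 * V * z ^ 5 - 1080 * U ^ 3 + 432 * U ^ 3 * z ^ 2 - 1296 * U ^ 3 * z ^ 3 + 1512 * U ^ 3 * z ^ 4 - 648 * U ^ 3 * z ^ 5) / 25) * hz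

theorem qXS_inv (hz : z ^ 4 + z ^ 3 + z ^ 2 + z + 1 = 0) (U V : k) :
    qXS (z ^ 4) U V = qXS z U V := by
  simp only [qXS]
  linear_combination ((-36 * V ^ 2 * z ^ 2 + 36 * V ^ 2 * z ^ 4 - 36 * V ^ 2 * z ^ 7 + 36 * V ^ 2 * z ^ 8 + 396 * U * V * z ^ 2 - 396 * U * V * z ^ 4 + 396 * U * V * z ^ 7 - 396 * U * V * z ^ 8 + 36 * U ^ 2 * z ^ 2 - 36 * U ^ 2 * z ^ 4 + 36 * U ^ 2 * z ^ 7 - 36 * U ^ 2 * z ^ 8) / 5) * hz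

theorem qYS_inv (hz : z ^ 4 + z ^ 3 + z ^ 2 + z + 1 = 0) (U V : k) :
    qYS (z ^ 4) U V = -qYS z U V := by
  simp only [qYS]
  linear_combination ((-432 * V ^ 3 + 108 * V ^ 3 * z ^ 2 + 216 * V ^ 3 * z ^ 3 - 324 * V ^ 3 * z ^ 4 + 108 * V ^ 3 * z ^ 7 - 108 * V ^ 3 * z ^ 8 + 4968 * U * V ^ 2 - 1512 * U * V ^ 2 * z ^ 2 - 1944 * U * V ^ 2 * z ^ 3 + 3456 * U * V ^ 2 * z ^ 4 - 1512 * U * V ^ 2 * z ^ 7 + 1512 * U * V ^ 2 * z ^ 8 - 1944 * U ^ 2 * V + 3456 * U ^ 2 * V * z ^ 2 - 4968 * U ^ 2 * V * z ^ 3 + 1512 * U ^ 2 * V * z ^ 4 + 3456 * U ^ 2 * V * z ^ 7 - 3456 * U ^ 2 * V * z ^ 8 - 216 * U ^ 3 + 324 * U ^ 3 * z ^ 2 - 432 * U ^ 3 * z ^ 3 + 108 * U ^ 3 * z ^ 4 + 324 * U ^ 3 * z ^ 7 - 324 * U ^ 3 * z ^ 8) / 5) * hz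

theorem qXS_W (hz : z ^ 4 + z ^ 3 + z ^ 2 + z + 1 = 0) (U V : k) :
    qXS z V (-U) = qXS (z ^ 3) U V := by
  simp only [qXS]
  linear_combination ((-36 * V ^ 2 + 36 * V ^ 2 * z - 36 * V ^ 2 * z ^ 2 + 36 * V ^ 2 * z ^ 4 - 36 * V ^ 2 * z ^ 5 + 396 * U * V - 396 * U * V * z + 396 * U * V * z ^ 2 - 396 * U * V * z ^ 4 + 396 * U * V * z ^ 5 + 36 * U ^ 2 - 36 * U ^ 2 * z + 36 * U ^ 2 * z ^ 2 - 36 * U ^ 2 * z ^ 4 + 36 * U ^ 2 * z ^ 5) / 5) * hz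

theorem qYS_W (hz : z ^ 4 + z ^ 3 + z ^ 2 + z + 1 = 0) (U V : k) :
    qYS z V (-U) = qYS (z ^ 3) U V := by
  simp only [qYS]
  linear_combination ((108 * V ^ 3 - 324 * V ^ 3 * z + 324 * V ^ 3 * z ^ 2 - 108 * V ^ 3 * z ^ 4 + 108 * V ^ 3 * z ^ 5 - 1512 * U * V ^ 2 + 3456 * U * V ^ 2 * z - 3456 * U * V ^ 2 * z ^ 2 + 1512 * U * V ^ 2 * z ^ 4 - 1512 * U * V ^ 2 * z ^ 5 + 3456 * U ^ 2 * V + 1512 * U ^ 2 * V * z - 1512 * U ^ 2 * V * z ^ 2 - 3456 * U ^ 2 * V * z ^ 4 + 3456 * U ^ 2 * V * z ^ 5 + 324 * U ^ 3 + 108 * U ^ 3 * z - 108 * U ^ 3 * z ^ 2 - 324 * U ^ 3 * z ^ 4 + 324 * U ^ 3 * z ^ 5) / 5) * hz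

theorem qYS_mul (hz : z ^ 4 + z ^ 3 + z ^ 2 + z + 1 = 0) (U V : k) :
    qYS z U V * (((4 + 8 * z + 7 * z ^ 2 + z ^ 3) / 108) * U ^ 3 + ((41 + 82 * z + 78 * z ^ 2 + 4 * z ^ 3) / 108) * U ^ 2 * V + ((-37 - 74 * z + 4 * z ^ 2 - 78 * z ^ 3) / 108) * U * V ^ 2 + ((3 + 6 * z - z ^ 2 + 7 * z ^ 3) / 108) * V ^ 3) = qQ U V ^ 3 := by
  simp only [qYS, qQ]
  linear_combination ((-11 * V ^ 6 - 13 * V ^ 6 * z - 7 * V ^ 6 * z ^ 2 + 308 * U * V ^ 5 + 264 * U * V ^ 5 * z + 176 * U * V ^ 5 * z ^ 2 - 2760 * U ^ 2 * V ^ 4 - 1080 * U ^ 2 * V ^ 4 * z - 1320 * U ^ 2 * V ^ 4 * z ^ 2 + 7590 * U ^ 3 * V ^ 3 - 2530 * U ^ 3 * V ^ 3 * z + 2530 * U ^ 3 * V ^ 3 * z ^ 2 + 1560 * U ^ 4 * V ^ 2 - 2520 * U ^ 4 * V ^ 2 * z + 120 * U ^ 4 *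 V ^ 2 * z ^ 2 + 88 * U ^ 5 * V - 396 * U ^ 5 * V * z - 44 * U ^ 5 * V * z ^ 2 + U ^ 6 - 17 * U ^ 6 * z - 3 * U ^ 6 * z ^ 2) / 5) * hz

theorem qXS_sub (hz : z ^ 4 + z ^ 3 + z ^ 2 + z + 1 = 0) (U V : k) :
    qXS z U V - qXS (z ^ 2) U V = ((36 + 72 * z ^ 2 + 72 * z ^ 3) / 5) * qQ U V := by
  simp only [qXS, qQ]
  linear_combination ((-36 * V ^ 2 + 36 * V ^ 2 * z - 36 * V ^ 2 * z ^ 2 + 396 * U * V - 396 * U * V * z + 396 * U * V * z ^ 2 + 36 * U ^ 2 - 36 * U ^ 2 * z + 36 * U ^ 2 * z ^ 2) / 5) * hz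

theorem qLS_solve_left (hz : z ^ 4 + z ^ 3 + z ^ 2 + z + 1 = 0) (U V : k) :
    U = ((1 + 2 * z + 8 * z ^ 2 - 6 * z ^ 3) / 150) * qLS z U V + ((-7 - 14 * z - 6 * z ^ 2 - 8 * z ^ 3) / 150) * qLS (z ^ 2) U V := by
  simp only [qLS]
  linear_combination ((21 * V + 14 * V * z - 10 * V * z ^ 2 + 56 * V * z ^ 3 - 8 * V * z ^ 4 + 32 * V * z ^ 5 + 122 * U - 127 * U * z + 5 * U * z ^ 2 - 8 * U * z ^ 3 - 6 * U * z ^ 4 + 24 * U * z ^ 5) / 125) * hz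

theorem qLS_solve_right (hz : z ^ 4 + z ^ 3 + z ^ 2 + z + 1 = 0) (U V : k) :
    V = ((-7 - 14 * z - 6 * z ^ 2 - 8 * z ^ 3) / 150) * qLS z U V + ((-1 - 2 * z - 8 * z ^ 2 + 6 * z ^ 3) / 150) * qLS (z ^ 2) U V := by
  simp only [qLS]
  linear_combination ((153 * V - 48 * V * z + 70 * V * z ^ 2 - 42 * V * z ^ 3 + 56 * V * z ^ 4 - 24 * V * z ^ 5 - 4 * U - 11 * U * z - 35 * U * z ^ 2 + 6 * U * z ^ 3 + 42 * U * z ^ 4 - 18 * U * z ^ 5) / 125) * hz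

theorem qC4_qC6 (U V : k) :
    qC4 U V ^ 3 - qC6 U V ^ 2 = 1728 * (U * V * qQ U V ^ 5) := by
  simp only [qC4, qC6, qQ]
  ring

theorem kXR_sq (u v : k) :
    kYR u v ^ 2 = kXR u v ^ 3 - 27 * kC4 u v * kXR u v - 54 * kC6 u v := by
  simp only [kYR, kXR, kC4, kC6, qC4, qC6]
  ring

theorem kLR_spec (u v : k) :
    3 * kXR u v ^ 2 - 27 * kC4 u v = 2 * kYR u v * kLR u v := by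
  simp only [kYR, kXR, kC4, kLR, qC4]
  ring

theorem kF_eq (hz : z ^ 4 + z ^ 3 + z ^ 2 + z + 1 = 0) (u v : k) :
    (kHa z * u + kHb z * v) ^ 5 = kF z u v := by
  simp only [kHa, kHb, kF]
  linear_combination ((-343 * v ^ 5 - 87 * v ^ 5 * z + 1915 * v ^ 5 * z ^ 2 + 1080 * v ^ 5 * z ^ 3 + 3915 * v ^ 5 * z ^ 4 + 3481 * v ^ 5 * z ^ 5 + 3169 * v ^ 5 * z ^ 6 + 3435 * v ^ 5 * z ^ 7 + 1170 * v ^ 5 * z ^ 8 + 1485 * v ^ 5 * z ^ 9 + 162 * v ^ 5 * z ^ 10 + 243 * v ^ 5 * z ^ 11 - 705 * u * v ^ 4 - 1345 * u * v ^ 4 * z - 300 * u * v ^ 4 * z ^ 2 - 10150 * u * v ^ 4 * z ^ 3 - 7300 * u * v ^ 4 * z ^ 4 - 11465 * u * v ^ 4 * z ^ 5 - 10185 * u * v ^ 4 * z ^ 6 - 3700 * u * v ^ 4 * z ^ 7 - 5475 * u * v ^ 4 * z ^ 8 + 675 * u *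 v ^ 4 * z ^ 9 - 1080 * u * v ^ 4 * z ^ 10 + 405 * u * v ^ 4 * z ^ 11 - 2420 * u ^ 2 * v ^ 3 - 1780 * u ^ 2 * v ^ 3 * z + 6750 * u ^ 2 * v ^ 3 * z ^ 2 + 5100 * u ^ 2 * v ^ 3 * z ^ 3 + 16250 * u ^ 2 * v ^ 3 * z ^ 4 + 11040 * u ^ 2 * v ^ 3 * z ^ 5 + 7010 * u ^ 2 * v ^ 3 * z ^ 6 + 7250 * u ^ 2 * v ^ 3 * z ^ 7 - 2600 * u ^ 2 * v ^ 3 * z ^ 8 + 2250 * u ^ 2 * v ^ 3 * z ^ 9 - 1620 * u ^ 2 * v ^ 3 * z ^ 10 + 270 * u ^ 2 * v ^ 3 * z ^ 11 + 1210 * u ^ 3 * v ^ 2 + 890 * u ^ 3 * v ^ 2 * z - 350 * u ^ 3 * v ^ 2 * z ^ 2 - 9400 * u ^ 3 * v ^ 2 * z ^ 3 - 6600 * u ^ 3 * v ^ 2 * z ^ 4 - 7620 * u ^ 3 * v ^ 2 * z ^ 5 - 3730 * u ^ 3 * v ^ 2 * z ^ 6 + 2100 * u ^ 3 * v ^ 2 * z ^ 7 - 1850 * u ^ 3 * v ^ 2 * z ^ 8 + 2350 * u ^ 3 * v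 ^ 2 * z ^ 9 - 840 * u ^ 3 * v ^ 2 * z ^ 10 + 90 * u ^ 3 * v ^ 2 * z ^ 11 - 1865 * u ^ 4 * v - 1785 * u ^ 4 * v * z + 1675 * u ^ 4 * v * z ^ 2 + 2500 * u ^ 4 * v * z ^ 3 + 3675 * u ^ 4 * v * z ^ 4 + 1055 * u ^ 4 * v * z ^ 5 - 355 * u ^ 4 * v * z ^ 6 + 75 * u ^ 4 * v * z ^ 7 - 1250 * u ^ 4 * v * z ^ 8 + 825 * u ^ 4 * v * z ^ 9 - 190 * u ^ 4 * v * z ^ 10 + 15 * u ^ 4 * v * z ^ 11 + 499 * u ^ 5 + 491 * u ^ 5 * z - 170 * u ^ 5 * z ^ 2 - 890 * u ^ 5 * z ^ 3 - 420 * u ^ 5 * z ^ 4 + 117 * u ^ 5 * z ^ 5 + 283 * u ^ 5 * z ^ 6 + 120 * u ^ 5 * z ^ 7 - 235 * u ^ 5 * z ^ 8 + 95 * u ^ 5 * z ^ 9 - 16 * u ^ 5 * z ^ 10 + u ^ 5 * z ^ 11) / 3125) * hz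

theorem kG_eq (hz : z ^ 4 + z ^ 3 + z ^ 2 + z + 1 = 0) (u v : k) :
    (kHb z * u - kHa z * v) ^ 5 = kG z u v := by
  simp only [kHa, kHb, kG]
  linear_combination ((-499 * v ^ 5 - 491 * v ^ 5 * z + 170 * v ^ 5 * z ^ 2 + 890 * v ^ 5 * z ^ 3 + 420 * v ^ 5 * z ^ 4 - 117 * v ^ 5 * z ^ 5 - 283 * v ^ 5 * z ^ 6 - 120 * v ^ 5 * z ^ 7 + 235 * v ^ 5 * z ^ 8 - 95 * v ^ 5 * z ^ 9 + 16 * v ^ 5 * z ^ 10 - v ^ 5 * z ^ 11 - 1865 * u * v ^ 4 - 1785 * u * v ^ 4 * z + 1675 * u * v ^ 4 * z ^ 2 + 2500 * u * v ^ 4 * z ^ 3 + 3675 * u * v ^ 4 * z ^ 4 + 1055 * u * v ^ 4 * z ^ 5 - 355 * u * v ^ 4 * z ^ 6 + 75 * u * v ^ 4 * z ^ 7 - 1250 * u * v ^ 4 * z ^ 8 + 825 * u * v ^ 4 * z ^ 9 - 190 * u * v ^ 4 * z ^ 10 + 15 * u * v ^ 4 * z ^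 11 - 1210 * u ^ 2 * v ^ 3 - 890 * u ^ 2 * v ^ 3 * z + 350 * u ^ 2 * v ^ 3 * z ^ 2 + 9400 * u ^ 2 * v ^ 3 * z ^ 3 + 6600 * u ^ 2 * v ^ 3 * z ^ 4 + 7620 * u ^ 2 * v ^ 3 * z ^ 5 + 3730 * u ^ 2 * v ^ 3 * z ^ 6 - 2100 * u ^ 2 * v ^ 3 * z ^ 7 + 1850 * u ^ 2 * v ^ 3 * z ^ 8 - 2350 * u ^ 2 * v ^ 3 * z ^ 9 + 840 * u ^ 2 * v ^ 3 * z ^ 10 - 90 * u ^ 2 * v ^ 3 * z ^ 11 - 2420 * u ^ 3 * v ^ 2 - 1780 * u ^ 3 * v ^ 2 * z + 6750 * u ^ 3 * v ^ 2 * z ^ 2 + 5100 * u ^ 3 * v ^ 2 * z ^ 3 + 16250 * u ^ 3 * v ^ 2 * z ^ 4 + 11040 * u ^ 3 * v ^ 2 * z ^ 5 + 7010 * u ^ 3 * v ^ 2 * z ^ 6 + 7250 * u ^ 3 * v ^ 2 * z ^ 7 - 2600 * u ^ 3 * v ^ 2 * z ^ 8 + 2250 * u ^ 3 * v ^ 2 * z ^ 9 - 1620 * u ^ 3 * v ^ 2 * z ^ 10 + 270 * u ^ 3 * v ^ 2 *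 z ^ 11 + 705 * u ^ 4 * v + 1345 * u ^ 4 * v * z + 300 * u ^ 4 * v * z ^ 2 + 10150 * u ^ 4 * v * z ^ 3 + 7300 * u ^ 4 * v * z ^ 4 + 11465 * u ^ 4 * v * z ^ 5 + 10185 * u ^ 4 * v * z ^ 6 + 3700 * u ^ 4 * v * z ^ 7 + 5475 * u ^ 4 * v * z ^ 8 - 675 * u ^ 4 * v * z ^ 9 + 1080 * u ^ 4 * v * z ^ 10 - 405 * u ^ 4 * v * z ^ 11 - 343 * u ^ 5 - 87 * u ^ 5 * z + 1915 * u ^ 5 * z ^ 2 + 1080 * u ^ 5 * z ^ 3 + 3915 * u ^ 5 * z ^ 4 + 3481 * u ^ 5 * z ^ 5 + 3169 * u ^ 5 * z ^ 6 + 3435 * u ^ 5 * z ^ 7 + 1170 * u ^ 5 * z ^ 8 + 1485 * u ^ 5 * z ^ 9 + 162 * u ^ 5 * z ^ 10 + 243 * u ^ 5 * z ^ 11) / 3125) * hz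

theorem qXS_H (hz : z ^ 4 + z ^ 3 + z ^ 2 + z + 1 = 0) (u v : k) :
    qXS z (kF z u v) (kG z u v) = kXR u v := by
  simp only [qXS, kF, kG, kXR]
  linear_combination ((-108 * v ^ 10 - 24 * v ^ 10 * z - 84 * v ^ 10 * z ^ 2 - 144 * v ^ 10 * z ^ 3 - 144 * v ^ 10 * z ^ 4 - 36 * v ^ 10 * z ^ 5 - 1080 * u * v ^ 9 + 360 * u * v ^ 9 * z - 360 * u * v ^ 9 * z ^ 2 - 720 * u * v ^ 9 * z ^ 3 - 720 * u * v ^ 9 * z ^ 4 - 360 * u * v ^ 9 * z ^ 5 - 2340 * u ^ 2 * v ^ 8 + 180 * u ^ 2 * v ^ 8 * z - 1260 * u ^ 2 * v ^ 8 * z ^ 2 - 2160 * u ^ 2 * v ^ 8 * z ^ 3 - 2160 * u ^ 2 * v ^ 8 * z ^ 4 - 720 * u ^ 2 * v ^ 8 * z ^ 5 - 3600 * u ^ 3 * v ^ 7 - 2160 * u ^ 3 * v ^ 7 * z ^ 2 - 4320 * u ^ 3 * v ^ 7 * z ^ 3 - 4320 * u ^ 3 * v ^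 7 * z ^ 4 - 1440 * u ^ 3 * v ^ 7 * z ^ 5 - 5400 * u ^ 4 * v ^ 6 + 1800 * u ^ 4 * v ^ 6 * z - 1800 * u ^ 4 * v ^ 6 * z ^ 2 - 2160 * u ^ 4 * v ^ 6 * z ^ 3 - 2160 * u ^ 4 * v ^ 6 * z ^ 4 - 1080 * u ^ 4 * v ^ 6 * z ^ 5 - 2952 * u ^ 5 * v ^ 5 + 144 * u ^ 5 * v ^ 5 * z - 1656 * u ^ 5 * v ^ 5 * z ^ 2 - 5616 * u ^ 5 * v ^ 5 * z ^ 3 - 5616 * u ^ 5 * v ^ 5 * z ^ 4 - 2304 * u ^ 5 * v ^ 5 * z ^ 5 - 2160 * u ^ 6 * v ^ 4 + 720 * u ^ 6 * v ^ 4 * z - 720 * u ^ 6 * v ^ 4 * z ^ 2 + 2160 * u ^ 6 * v ^ 4 * z ^ 3 + 2160 * u ^ 6 * v ^ 4 * z ^ 4 + 1080 * u ^ 6 * v ^ 4 * z ^ 5 + 720 * u ^ 7 * v ^ 3 - 1440 * u ^ 7 * v ^ 3 * z - 720 * u ^ 7 * v ^ 3 * z ^ 2 - 4320 * u ^ 7 * v ^ 3 * z ^ 3 - 4320 * u ^ 7 * v ^ 3 * z ^ 4 - 1440 * u ^ 7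 * v ^ 3 * z ^ 5 - 900 * u ^ 8 * v ^ 2 + 900 * u ^ 8 * v ^ 2 * z + 180 * u ^ 8 * v ^ 2 * z ^ 2 + 2160 * u ^ 8 * v ^ 2 * z ^ 3 + 2160 * u ^ 8 * v ^ 2 * z ^ 4 + 720 * u ^ 8 * v ^ 2 * z ^ 5 - 720 * u ^ 9 * v * z ^ 3 - 720 * u ^ 9 * v * z ^ 4 - 360 * u ^ 9 * v * z ^ 5 - 72 * u ^ 10 + 84 * u ^ 10 * z + 24 * u ^ 10 * z ^ 2 + 144 * u ^ 10 * z ^ 3 + 144 * u ^ 10 * z ^ 4 + 36 * u ^ 10 * z ^ 5) / 25) * hz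

theorem qYS_H (hz : z ^ 4 + z ^ 3 + z ^ 2 + z + 1 = 0) (u v : k) :
    qYS z (kF z u v) (kG z u v) = -kYR u v := by
  simp only [qYS, kF, kG, kYR]
  linear_combination ((108 * v ^ 15 + 756 * v ^ 15 * z + 2484 * v ^ 15 * z ^ 2 + 4752 * v ^ 15 * z ^ 3 + 4320 * v ^ 15 * z ^ 4 + 1512 * v ^ 15 * z ^ 5 + 864 * v ^ 15 * z ^ 6 - 864 * v ^ 15 * z ^ 7 - 432 * v ^ 15 * z ^ 8 + 14580 * u * v ^ 14 - 5940 * u * v ^ 14 * z + 23220 * u * v ^ 14 * z ^ 2 + 41040 * u * v ^ 14 * z ^ 3 + 35640 * u * v ^ 14 * z ^ 4 + 29160 * u * v ^ 14 * z ^ 5 + 6480 * u * v ^ 14 * z ^ 6 - 1080 * u * v ^ 14 * z ^ 7 - 5400 * u * v ^ 14 * z ^ 8 + 58320 * u ^ 2 * v ^ 13 - 23760 * u ^ 2 * v ^ 13 * z + 92880 * u ^ 2 * v ^ 13 * z ^ 2 + 164160 * u ^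 2 * v ^ 13 * z ^ 3 + 142560 * u ^ 2 * v ^ 13 * z ^ 4 + 116640 * u ^ 2 * v ^ 13 * z ^ 5 + 25920 * u ^ 2 * v ^ 13 * z ^ 6 - 4320 * u ^ 2 * v ^ 13 * z ^ 7 - 21600 * u ^ 2 * v ^ 13 * z ^ 8 + 133920 * u ^ 3 * v ^ 12 - 34560 * u ^ 3 * v ^ 12 * z + 272160 * u ^ 3 * v ^ 12 * z ^ 2 + 492480 * u ^ 3 * v ^ 12 * z ^ 3 + 432000 * u ^ 3 * v ^ 12 * z ^ 4 + 298080 * u ^ 3 * v ^ 12 * z ^ 5 + 77760 * u ^ 3 * v ^ 12 * z ^ 6 - 34560 * u ^ 3 * v ^ 12 * z ^ 7 - 60480 * u ^ 3 * v ^ 12 * z ^ 8 + 225180 * u ^ 4 * v ^ 11 - 43740 * u ^ 4 * v ^ 11 * z + 490860 * u ^ 4 * v ^ 11 * z ^ 2 + 874800 * u ^ 4 * v ^ 11 * z ^ 3 + 774360 * u ^ 4 * v ^ 11 * z ^ 4 + 541080 * u ^ 4 * v ^ 11 * z ^ 5 + 162000 * u ^ 4 * v ^ 11 * z ^ 6 - 48600 * u ^ 4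 * v ^ 11 * z ^ 7 - 100440 * u ^ 4 * v ^ 11 * z ^ 8 + 363528 * u ^ 5 * v ^ 10 - 155304 * u ^ 5 * v ^ 10 * z + 584064 * u ^ 5 * v ^ 10 * z ^ 2 + 1086912 * u ^ 5 * v ^ 10 * z ^ 3 + 929880 * u ^ 5 * v ^ 10 * z ^ 4 + 663552 * u ^ 5 * v ^ 10 * z ^ 5 + 102384 * u ^ 5 * v ^ 10 * z ^ 6 - 96984 * u ^ 5 * v ^ 10 * z ^ 7 - 157032 * u ^ 5 * v ^ 10 * z ^ 8 + 436320 * u ^ 6 * v ^ 9 - 77760 * u ^ 6 * v ^ 9 * z + 913680 * u ^ 6 * v ^ 9 * z ^ 2 + 1503360 * u ^ 6 * v ^ 9 * z ^ 3 + 1362960 * u ^ 6 * v ^ 9 * z ^ 4 + 1175040 * u ^ 6 * v ^ 9 * z ^ 5 + 436320 * u ^ 6 * v ^ 9 * z ^ 6 + 71280 * u ^ 6 * v ^ 9 * z ^ 7 - 140400 * u ^ 6 * v ^ 9 * z ^ 8 + 281880 * u ^ 7 * v ^ 8 - 294840 * u ^ 7 * v ^ 8 * z + 74520 * u ^ 7 * v ^ 8 * z ^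 2 + 375840 * u ^ 7 * v ^ 8 * z ^ 3 + 213840 * u ^ 7 * v ^ 8 * z ^ 4 - 19440 * u ^ 7 * v ^ 8 * z ^ 5 - 349920 * u ^ 7 * v ^ 8 * z ^ 6 - 265680 * u ^ 7 * v ^ 8 * z ^ 7 - 162000 * u ^ 7 * v ^ 8 * z ^ 8 + 136080 * u ^ 8 * v ^ 7 + 304560 * u ^ 8 * v ^ 7 * z + 1023840 * u ^ 8 * v ^ 7 * z ^ 2 + 1451520 * u ^ 8 * v ^ 7 * z ^ 3 + 1458000 * u ^ 8 * v ^ 7 * z ^ 4 + 1321920 * u ^ 8 * v ^ 7 * z ^ 5 + 894240 * u ^ 8 * v ^ 7 * z ^ 6 + 304560 * u ^ 8 * v ^ 7 * z ^ 7 + 6480 * u ^ 8 * v ^ 7 * z ^ 8 + 25920 * u ^ 9 * v ^ 6 - 358560 * u ^ 9 * v ^ 6 * z - 671760 * u ^ 9 * v ^ 6 * z ^ 2 - 691200 * u ^ 9 * v ^ 6 * z ^ 3 - 822960 * u ^ 9 * v ^ 6 * z ^ 4 - 1097280 * u ^ 9 * v ^ 6 * z ^ 5 - 928800 * u ^ 9 * v ^ 6 * z ^ 6 - 507600 *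 u ^ 9 * v ^ 6 * z ^ 7 - 131760 * u ^ 9 * v ^ 6 * z ^ 8 + 51516 * u ^ 10 * v ^ 5 + 360612 * u ^ 10 * v ^ 5 * z + 899748 * u ^ 10 * v ^ 5 * z ^ 2 + 1126224 * u ^ 10 * v ^ 5 * z ^ 3 + 1205280 * u ^ 10 * v ^ 5 * z ^ 4 + 1291464 * u ^ 10 * v ^ 5 * z ^ 5 + 982368 * u ^ 10 * v ^ 5 * z ^ 6 + 443232 * u ^ 10 * v ^ 5 * z ^ 7 + 79056 * u ^ 10 * v ^ 5 * z ^ 8 + 17820 * u ^ 11 * v ^ 4 - 307260 * u ^ 11 * v ^ 4 * z - 628020 * u ^ 11 * v ^ 4 * z ^ 2 - 775440 * u ^ 11 * v ^ 4 * z ^ 3 - 845640 * u ^ 11 * v ^ 4 * z ^ 4 - 871560 * u ^ 11 * v ^ 4 * z ^ 5 - 719280 * u ^ 11 * v ^ 4 * z ^ 6 - 312120 * u ^ 11 * v ^ 4 * z ^ 7 - 70200 * u ^ 11 * v ^ 4 * z ^ 8 + 33480 * u ^ 12 * v ^ 3 + 126360 * u ^ 12 * v ^ 3 * z + 344520 * u ^ 12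 * v ^ 3 * z ^ 2 + 419040 * u ^ 12 * v ^ 3 * z ^ 3 + 451440 * u ^ 12 * v ^ 3 * z ^ 4 + 520560 * u ^ 12 * v ^ 3 * z ^ 5 + 384480 * u ^ 12 * v ^ 3 * z ^ 6 + 187920 * u ^ 12 * v ^ 3 * z ^ 7 + 32400 * u ^ 12 * v ^ 3 * z ^ 8 + 6480 * u ^ 13 * v ^ 2 - 62640 * u ^ 13 * v ^ 2 * z - 120960 * u ^ 13 * v ^ 2 * z ^ 2 - 146880 * u ^ 13 * v ^ 2 * z ^ 3 - 162000 * u ^ 13 * v ^ 2 * z ^ 4 - 168480 * u ^ 13 * v ^ 2 * z ^ 5 - 142560 * u ^ 13 * v ^ 2 * z ^ 6 - 62640 * u ^ 13 * v ^ 2 * z ^ 7 - 15120 * u ^ 13 * v ^ 2 * z ^ 8 + 1620 * u ^ 14 * v + 11340 * u ^ 14 * v * z + 27540 * u ^ 14 * v * z ^ 2 + 32400 * u ^ 14 * v * z ^ 3 + 35640 * u ^ 14 * v * z ^ 4 + 42120 * u ^ 14 * v * z ^ 5 + 32400 * u ^ 14 * v * z ^ 6 + 16200 * u ^ 14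 * v * z ^ 7 + 3240 * u ^ 14 * v * z ^ 8 - 216 * u ^ 15 - 1512 * u ^ 15 * z - 3888 * u ^ 15 * z ^ 2 - 5184 * u ^ 15 * z ^ 3 - 5400 * u ^ 15 * z ^ 4 - 5184 * u ^ 15 * z ^ 5 - 3888 * u ^ 15 * z ^ 6 - 1512 * u ^ 15 * z ^ 7 - 216 * u ^ 15 * z ^ 8) / 125) * hz

theorem qLS_H (hz : z ^ 4 + z ^ 3 + z ^ 2 + z + 1 = 0) (u v : k) :
    qLS z (kF z u v) (kG z u v) = -kLR u v := by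
  simp only [qLS, kF, kG, kLR]
  linear_combination ((18 * v ^ 5 - 6 * v ^ 5 * z + 6 * v ^ 5 * z ^ 2 + 72 * u * v ^ 4 - 24 * u * v ^ 4 * z + 24 * u * v ^ 4 * z ^ 2 + 36 * u ^ 2 * v ^ 3 - 12 * u ^ 2 * v ^ 3 * z + 12 * u ^ 2 * v ^ 3 * z ^ 2 + 108 * u ^ 3 * v ^ 2 - 36 * u ^ 3 * v ^ 2 * z + 36 * u ^ 3 * v ^ 2 * z ^ 2 - 36 * u ^ 4 * v + 12 * u ^ 4 * v * z - 12 * u ^ 4 * v * z ^ 2 + 18 * u ^ 5 - 6 * u ^ 5 * z + 6 * u ^ 5 * z ^ 2) / 5) * hz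

theorem kHH (hz : z ^ 4 + z ^ 3 + z ^ 2 + z + 1 = 0)  :
    kHa z ^ 2 + kHb z ^ 2 = -1 := by
  simp only [kHa, kHb]
  linear_combination ((6 - 2 * z + 2 * z ^ 2) / 5) * hz

theorem kD_H_aux (hz : z ^ 4 + z ^ 3 + z ^ 2 + z + 1 = 0) (u v : k) :
    (kHa z * u + kHb z * v) * (kHb z * u - kHa z * v) * qQ (kF z u v) (kG z u v) = kD u v := by
  simp only [kHa, kHb, qQ, kF, kG, kD]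
  linear_combination ((-2 * v ^ 12 - 14 * v ^ 12 * z - 41 * v ^ 12 * z ^ 2 - 68 * v ^ 12 * z ^ 3 - 65 * v ^ 12 * z ^ 4 - 38 * v ^ 12 * z ^ 5 - 26 * v ^ 12 * z ^ 6 + v ^ 12 * z ^ 7 + 3 * v ^ 12 * z ^ 8 - 138 * u * v ^ 11 + 34 * u * v ^ 11 * z - 244 * u * v ^ 11 * z ^ 2 - 352 * u * v ^ 11 * z ^ 3 - 330 * u * v ^ 11 * z ^ 4 - 392 * u * v ^ 11 * z ^ 5 - 164 * u * v ^ 11 * z ^ 6 - 86 * u * v ^ 11 * z ^ 7 + 22 * u * v ^ 11 * z ^ 8 - 43 * u ^ 2 * v ^ 10 - 301 * u ^ 2 * v ^ 10 * z - 794 * u ^ 2 * v ^ 10 * z ^ 2 - 1112 * u ^ 2 * v ^ 10 * z ^ 3 - 1135 * u ^ 2 * v ^ 10 * z ^ 4 - 992 * u ^ 2 * v ^ 10 * z ^ 5 - 734 * u ^ 2 * v ^ 10 * z ^ 6 - 241 * u ^ 2 * v ^ 10 * z ^ 7 - 23 * u ^ 2 * v ^ 10 * z ^ 8 - 95 * u ^ 3 * v ^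 9 - 665 * u ^ 3 * v ^ 9 * z - 1735 * u ^ 3 * v ^ 9 * z ^ 2 - 2380 * u ^ 3 * v ^ 9 * z ^ 3 - 2450 * u ^ 3 * v ^ 9 * z ^ 4 - 2230 * u ^ 3 * v ^ 9 * z ^ 5 - 1660 * u ^ 3 * v ^ 9 * z ^ 6 - 590 * u ^ 3 * v ^ 9 * z ^ 7 - 70 * u ^ 3 * v ^ 9 * z ^ 8 - 90 * u ^ 4 * v ^ 8 - 630 * u ^ 4 * v ^ 8 * z - 1420 * u ^ 4 * v ^ 8 * z ^ 2 - 1360 * u ^ 4 * v ^ 8 * z ^ 3 - 1650 * u ^ 4 * v ^ 8 * z ^ 4 - 2560 * u ^ 4 * v ^ 8 * z ^ 5 - 2020 * u ^ 4 * v ^ 8 * z ^ 6 - 1230 * u ^ 4 * v ^ 8 * z ^ 7 - 290 * u ^ 4 * v ^ 8 * z ^ 8 - 63 * u ^ 5 * v ^ 7 - 441 * u ^ 5 * v ^ 7 * z - 1029 * u ^ 5 * v ^ 7 * z ^ 2 - 1092 * u ^ 5 * v ^ 7 * z ^ 3 - 1260 * u ^ 5 * v ^ 7 * z ^ 4 - 1722 * u ^ 5 * v ^ 7 * z ^ 5 - 1344 * u ^ 5 * v ^ 7 * z ^ 6 - 756 *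 u ^ 5 * v ^ 7 * z ^ 7 - 168 * u ^ 5 * v ^ 7 * z ^ 8 + 1318 * u ^ 6 * v ^ 6 - 1774 * u ^ 6 * v ^ 6 * z - 666 * u ^ 6 * v ^ 6 * z ^ 2 + 72 * u ^ 6 * v ^ 6 * z ^ 3 - 620 * u ^ 6 * v ^ 6 * z ^ 4 - 988 * u ^ 6 * v ^ 6 * z ^ 5 - 2296 * u ^ 6 * v ^ 6 * z ^ 6 - 1204 * u ^ 6 * v ^ 6 * z ^ 7 - 692 * u ^ 6 * v ^ 6 * z ^ 8 + 63 * u ^ 7 * v ^ 5 + 441 * u ^ 7 * v ^ 5 * z + 1029 * u ^ 7 * v ^ 5 * z ^ 2 + 1092 * u ^ 7 * v ^ 5 * z ^ 3 + 1260 * u ^ 7 * v ^ 5 * z ^ 4 + 1722 * u ^ 7 * v ^ 5 * z ^ 5 + 1344 * u ^ 7 * v ^ 5 * z ^ 6 + 756 * u ^ 7 * v ^ 5 * z ^ 7 + 168 * u ^ 7 * v ^ 5 * z ^ 8 - 90 * u ^ 8 * v ^ 4 - 630 * u ^ 8 * v ^ 4 * z - 1420 * u ^ 8 * v ^ 4 * z ^ 2 - 1360 * u ^ 8 * v ^ 4 * z ^ 3 - 1650 * u ^ 8 * v ^ 4 * z ^ 4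 - 2560 * u ^ 8 * v ^ 4 * z ^ 5 - 2020 * u ^ 8 * v ^ 4 * z ^ 6 - 1230 * u ^ 8 * v ^ 4 * z ^ 7 - 290 * u ^ 8 * v ^ 4 * z ^ 8 + 95 * u ^ 9 * v ^ 3 + 665 * u ^ 9 * v ^ 3 * z + 1735 * u ^ 9 * v ^ 3 * z ^ 2 + 2380 * u ^ 9 * v ^ 3 * z ^ 3 + 2450 * u ^ 9 * v ^ 3 * z ^ 4 + 2230 * u ^ 9 * v ^ 3 * z ^ 5 + 1660 * u ^ 9 * v ^ 3 * z ^ 6 + 590 * u ^ 9 * v ^ 3 * z ^ 7 + 70 * u ^ 9 * v ^ 3 * z ^ 8 - 43 * u ^ 10 * v ^ 2 - 301 * u ^ 10 * v ^ 2 * z - 794 * u ^ 10 * v ^ 2 * z ^ 2 - 1112 * u ^ 10 * v ^ 2 * z ^ 3 - 1135 * u ^ 10 * v ^ 2 * z ^ 4 - 992 * u ^ 10 * v ^ 2 * z ^ 5 - 734 * u ^ 10 * v ^ 2 * z ^ 6 - 241 * u ^ 10 * v ^ 2 * z ^ 7 - 23 * u ^ 10 * v ^ 2 * z ^ 8 + 138 * u ^ 11 * v - 34 * u ^ 11 * v * z + 244 * u ^ 11 * v * z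 ^ 2 + 352 * u ^ 11 * v * z ^ 3 + 330 * u ^ 11 * v * z ^ 4 + 392 * u ^ 11 * v * z ^ 5 + 164 * u ^ 11 * v * z ^ 6 + 86 * u ^ 11 * v * z ^ 7 - 22 * u ^ 11 * v * z ^ 8 - 2 * u ^ 12 - 14 * u ^ 12 * z - 41 * u ^ 12 * z ^ 2 - 68 * u ^ 12 * z ^ 3 - 65 * u ^ 12 * z ^ 4 - 38 * u ^ 12 * z ^ 5 - 26 * u ^ 12 * z ^ 6 + u ^ 12 * z ^ 7 + 3 * u ^ 12 * z ^ 8) / 125) * hz

theorem kKu_H_aux (hz : z ^ 4 + z ^ 3 + z ^ 2 + z + 1 = 0) (u v : k) :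
    (kHa z * u + kHb z * v) * (11 * kG z u v ^ 2 - 66 * kF z u v * kG z u v - kF z u v ^ 2) = kHa z * kKu u v + kHb z * kKv u v := by
  simp only [kHa, kHb, kF, kG, kKu, kKv]
  linear_combination ((-40 * v ^ 11 * z - 88 * v ^ 11 * z ^ 2 - 36 * v ^ 11 * z ^ 3 - 64 * v ^ 11 * z ^ 4 - 12 * v ^ 11 * z ^ 5 + 12 * u * v ^ 10 - 160 * u * v ^ 10 * z - 184 * u * v ^ 10 * z ^ 2 - 268 * u * v ^ 10 * z ^ 3 - 272 * u * v ^ 10 * z ^ 4 - 148 * u * v ^ 10 * z ^ 5 - 120 * u ^ 2 * v ^ 9 - 600 * u ^ 2 * v ^ 9 * z - 780 * u ^ 2 * v ^ 9 * z ^ 2 - 360 * u ^ 2 * v ^ 9 * z ^ 3 - 840 * u ^ 2 * v ^ 9 * z ^ 4 - 300 * u ^ 2 * v ^ 9 * z ^ 5 - 240 * u ^ 3 * v ^ 8 - 1200 * u ^ 3 * v ^ 8 * z - 1500 * u ^ 3 * v ^ 8 * z ^ 2 - 600 * u ^ 3 *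 v ^ 8 * z ^ 3 - 1800 * u ^ 3 * v ^ 8 * z ^ 4 - 660 * u ^ 3 * v ^ 8 * z ^ 5 + 60 * u ^ 4 * v ^ 7 + 300 * u ^ 4 * v ^ 7 * z + 1020 * u ^ 4 * v ^ 7 * z ^ 2 + 1440 * u ^ 4 * v ^ 7 * z ^ 3 - 840 * u ^ 4 * v ^ 7 * z ^ 4 - 480 * u ^ 4 * v ^ 7 * z ^ 5 - 1080 * u ^ 5 * v ^ 6 - 2760 * u ^ 5 * v ^ 6 * z - 1872 * u ^ 5 * v ^ 6 * z ^ 2 - 2184 * u ^ 5 * v ^ 6 * z ^ 3 - 2016 * u ^ 5 * v ^ 6 * z ^ 4 - 1248 * u ^ 5 * v ^ 6 * z ^ 5 + 168 * u ^ 6 * v ^ 5 + 2160 * u ^ 6 * v ^ 5 * z + 3744 * u ^ 6 * v ^ 5 * z ^ 2 + 4488 * u ^ 6 * v ^ 5 * z ^ 3 + 1152 * u ^ 6 * v ^ 5 * z ^ 4 + 408 * u ^ 6 * v ^ 5 * z ^ 5 - 540 * u ^ 7 * v ^ 4 - 2700 * u ^ 7 * v ^ 4 * z - 4260 * u ^ 7 * v ^ 4 * z ^ 2 - 3120 * u ^ 7 * v ^ 4 * z ^ 3 - 2280 * u ^ 7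 * v ^ 4 * z ^ 4 - 600 * u ^ 7 * v ^ 4 * z ^ 5 + 420 * u ^ 8 * v ^ 3 + 2100 * u ^ 8 * v ^ 3 * z + 3600 * u ^ 8 * v ^ 3 * z ^ 2 + 3000 * u ^ 8 * v ^ 3 * z ^ 3 + 1200 * u ^ 8 * v ^ 3 * z ^ 4 + 180 * u ^ 8 * v ^ 3 * z ^ 5 - 180 * u ^ 9 * v ^ 2 - 900 * u ^ 9 * v ^ 2 * z - 1560 * u ^ 9 * v ^ 2 * z ^ 2 - 1320 * u ^ 9 * v ^ 2 * z ^ 3 - 480 * u ^ 9 * v ^ 2 * z ^ 4 - 60 * u ^ 9 * v ^ 2 * z ^ 5 - 60 * u ^ 10 * v + 140 * u ^ 10 * v * z + 608 * u ^ 10 * v * z ^ 2 + 276 * u ^ 10 * v * z ^ 3 + 224 * u ^ 10 * v * z ^ 4 - 48 * u ^ 10 * v * z ^ 5 - 12 * u ^ 11 - 40 * u ^ 11 * z - 76 * u ^ 11 * z ^ 2 - 52 * u ^ 11 * z ^ 3 - 8 * u ^ 11 * z ^ 4 + 8 * u ^ 11 * z ^ 5) / 25) * hz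

theorem kKv_H_aux (hz : z ^ 4 + z ^ 3 + z ^ 2 + z + 1 = 0) (u v : k) :
    -((kHb z * u - kHa z * v) * (kG z u v ^ 2 - 66 * kF z u v * kG z u v - 11 * kF z u v ^ 2)) = kHb z * kKu u v - kHa z * kKv u v := by
  simp only [kHa, kHb, kF, kG, kKu, kKv]
  linear_combination ((12 * v ^ 11 + 40 * v ^ 11 * z + 76 * v ^ 11 * z ^ 2 + 52 * v ^ 11 * z ^ 3 + 8 * v ^ 11 * z ^ 4 - 8 * v ^ 11 * z ^ 5 - 60 * u * v ^ 10 + 140 * u * v ^ 10 * z + 608 * u * v ^ 10 * z ^ 2 + 276 * u * v ^ 10 * z ^ 3 + 224 * u * v ^ 10 * z ^ 4 - 48 * u * v ^ 10 * z ^ 5 + 180 * u ^ 2 * v ^ 9 + 900 * u ^ 2 * v ^ 9 * z + 1560 * u ^ 2 * v ^ 9 * z ^ 2 + 1320 * u ^ 2 * v ^ 9 * z ^ 3 + 480 * u ^ 2 * v ^ 9 * z ^ 4 + 60 * u ^ 2 * v ^ 9 * z ^ 5 + 420 * u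 ^ 3 * v ^ 8 + 2100 * u ^ 3 * v ^ 8 * z + 3600 * u ^ 3 * v ^ 8 * z ^ 2 + 3000 * u ^ 3 * v ^ 8 * z ^ 3 + 1200 * u ^ 3 * v ^ 8 * z ^ 4 + 180 * u ^ 3 * v ^ 8 * z ^ 5 + 540 * u ^ 4 * v ^ 7 + 2700 * u ^ 4 * v ^ 7 * z + 4260 * u ^ 4 * v ^ 7 * z ^ 2 + 3120 * u ^ 4 * v ^ 7 * z ^ 3 + 2280 * u ^ 4 * v ^ 7 * z ^ 4 + 600 * u ^ 4 * v ^ 7 * z ^ 5 + 168 * u ^ 5 * v ^ 6 + 2160 * u ^ 5 * v ^ 6 * z + 3744 * u ^ 5 * v ^ 6 * z ^ 2 + 4488 * u ^ 5 * v ^ 6 * z ^ 3 + 1152 * u ^ 5 * v ^ 6 * z ^ 4 + 408 * u ^ 5 * v ^ 6 * z ^ 5 + 1080 * u ^ 6 * v ^ 5 + 2760 * u ^ 6 * v ^ 5 * z + 1872 * u ^ 6 * v ^ 5 * z ^ 2 + 2184 * u ^ 6 * v ^ 5 * z ^ 3 + 2016 * u ^ 6 * v ^ 5 * z ^ 4 + 1248 * u ^ 6 * v ^ 5 * z ^ 5 + 60 * u ^ 7 * v ^ 4 + 300 * u ^ 7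 * v ^ 4 * z + 1020 * u ^ 7 * v ^ 4 * z ^ 2 + 1440 * u ^ 7 * v ^ 4 * z ^ 3 - 840 * u ^ 7 * v ^ 4 * z ^ 4 - 480 * u ^ 7 * v ^ 4 * z ^ 5 + 240 * u ^ 8 * v ^ 3 + 1200 * u ^ 8 * v ^ 3 * z + 1500 * u ^ 8 * v ^ 3 * z ^ 2 + 600 * u ^ 8 * v ^ 3 * z ^ 3 + 1800 * u ^ 8 * v ^ 3 * z ^ 4 + 660 * u ^ 8 * v ^ 3 * z ^ 5 - 120 * u ^ 9 * v ^ 2 - 600 * u ^ 9 * v ^ 2 * z - 780 * u ^ 9 * v ^ 2 * z ^ 2 - 360 * u ^ 9 * v ^ 2 * z ^ 3 - 840 * u ^ 9 * v ^ 2 * z ^ 4 - 300 * u ^ 9 * v ^ 2 * z ^ 5 - 12 * u ^ 10 * v + 160 * u ^ 10 * v * z + 184 * u ^ 10 * v * z ^ 2 + 268 * u ^ 10 * v * z ^ 3 + 272 * u ^ 10 * v * z ^ 4 + 148 * u ^ 10 * v * z ^ 5 - 40 * u ^ 11 * z - 88 * u ^ 11 * z ^ 2 - 36 * u ^ 11 * z ^ 3 - 64 * u ^ 11 * z ^ 4 - 12 * u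 ^ 11 * z ^ 5) / 25) * hz

theorem kM_spec (hz : z ^ 4 + z ^ 3 + z ^ 2 + z + 1 = 0) (u v : k) :
    qYS z (u ^ 5) (v ^ 5) - kYR u v = kM z u v * (qXS z (u ^ 5) (v ^ 5) - kXR u v) := by
  simp only [qYS, qXS, kYR, kXR, kM]
  linear_combination ((-432 * v ^ 15 - 432 * v ^ 15 * z - 216 * v ^ 15 * z ^ 2 + 1080 * u * v ^ 14 + 1080 * u ^ 2 * v ^ 13 * z - 1080 * u ^ 3 * v ^ 12 + 1080 * u ^ 3 * v ^ 12 * z ^ 2 + 4968 * u ^ 5 * v ^ 10 + 4968 * u ^ 5 * v ^ 10 * z + 1944 * u ^ 5 * v ^ 10 * z ^ 2 - 11880 * u ^ 6 * v ^ 9 - 11880 * u ^ 7 * v ^ 8 * z + 11880 * u ^ 8 * v ^ 7 - 11880 * u ^ 8 * v ^ 7 * z ^ 2 - 1944 * u ^ 10 * v ^ 5 - 1944 * u ^ 10 * v ^ 5 * z + 4968 * u ^ 10 * v ^ 5 * z ^ 2 - 1080 * u ^ 11 * v ^ 4 - 1080 * u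 ^ 12 * v ^ 3 * z + 1080 * u ^ 13 * v ^ 2 - 1080 * u ^ 13 * v ^ 2 * z ^ 2 - 216 * u ^ 15 - 216 * u ^ 15 * z + 432 * u ^ 15 * z ^ 2) / 25) * hz

theorem kXR_Z (hz : z ^ 4 + z ^ 3 + z ^ 2 + z + 1 = 0) (u v : k) :
    kXR (z * u) v = kM z u v ^ 2 - kXR u v - qXS z (u ^ 5) (v ^ 5) := by
  simp only [qXS, kXR, kM]
  linear_combination ((-216 * v ^ 10 - 108 * v ^ 10 * z - 36 * v ^ 10 * z ^ 2 + 360 * u * v ^ 9 + 360 * u ^ 2 * v ^ 8 + 360 * u ^ 2 * v ^ 8 * z + 360 * u ^ 3 * v ^ 7 + 360 * u ^ 3 * v ^ 7 * z + 360 * u ^ 3 * v ^ 7 * z ^ 2 + 1800 * u ^ 4 * v ^ 6 - 594 * u ^ 5 * v ^ 5 + 378 * u ^ 5 * v ^ 5 * z - 144 * u ^ 5 * v ^ 5 * z ^ 2 + 720 * u ^ 6 * v ^ 4 - 900 * u ^ 6 * v ^ 4 * z + 900 * u ^ 6 * v ^ 4 * z ^ 2 - 1080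 * u ^ 7 * v ^ 3 + 720 * u ^ 7 * v ^ 3 * z + 900 * u ^ 7 * v ^ 3 * z ^ 2 - 900 * u ^ 7 * v ^ 3 * z ^ 3 + 720 * u ^ 8 * v ^ 2 - 1080 * u ^ 8 * v ^ 2 * z + 720 * u ^ 8 * v ^ 2 * z ^ 2 - 900 * u ^ 8 * v ^ 2 * z ^ 3 + 900 * u ^ 8 * v ^ 2 * z ^ 4 - 399 * u ^ 10 + 363 * u ^ 10 * z - 144 * u ^ 10 * z ^ 2 - 75 * u ^ 10 * z ^ 5 + 75 * u ^ 10 * z ^ 6) / 25) * hz

theorem kYR_Z (hz : z ^ 4 + z ^ 3 + z ^ 2 + z + 1 = 0) (u v : k) :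
    kYR (z * u) v = -(kYR u v + kM z u v * (kXR (z * u) v - kXR u v)) := by
  simp only [kYR, kXR, kM]
  linear_combination ((216 * u * v ^ 14 + 432 * u ^ 2 * v ^ 13 + 432 * u ^ 2 * v ^ 13 * z + 648 * u ^ 3 * v ^ 12 + 648 * u ^ 3 * v ^ 12 * z + 648 * u ^ 3 * v ^ 12 * z ^ 2 + 1080 * u ^ 4 * v ^ 11 * z + 1080 * u ^ 4 * v ^ 11 * z ^ 2 + 1080 * u ^ 4 * v ^ 11 * z ^ 3 + 1890 * u ^ 5 * v ^ 10 + 1890 * u ^ 5 * v ^ 10 * z + 540 * u ^ 5 * v ^ 10 * z ^ 2 + 540 * u ^ 5 * v ^ 10 * z ^ 3 + 540 * u ^ 5 * v ^ 10 * z ^ 4 + 3564 * u ^ 6 * v ^ 9 - 2268 * u ^ 6 * v ^ 9 * z + 3672 * u ^ 6 * v ^ 9 * z ^ 2 + 432 * u ^ 6 * v ^ 9 * z ^ 3 + 432 * u ^ 6 * v ^ 9 * z ^ 4 + 432 * u ^ 6 * v ^ 9 * z ^ 5 + 1188 * u ^ 7 * v ^ 8 + 1188 * u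 ^ 7 * v ^ 8 * z + 1404 * u ^ 7 * v ^ 8 * z ^ 2 + 1404 * u ^ 7 * v ^ 8 * z ^ 3 - 216 * u ^ 7 * v ^ 8 * z ^ 4 - 216 * u ^ 7 * v ^ 8 * z ^ 5 - 216 * u ^ 7 * v ^ 8 * z ^ 6 - 1188 * u ^ 8 * v ^ 7 - 1188 * u ^ 8 * v ^ 7 * z + 4752 * u ^ 8 * v ^ 7 * z ^ 2 - 864 * u ^ 8 * v ^ 7 * z ^ 3 - 864 * u ^ 8 * v ^ 7 * z ^ 4 + 216 * u ^ 8 * v ^ 7 * z ^ 5 + 216 * u ^ 8 * v ^ 7 * z ^ 6 + 216 * u ^ 8 * v ^ 7 * z ^ 7 + 540 * u ^ 9 * v ^ 6 * z ^ 4 + 540 * u ^ 9 * v ^ 6 * z ^ 5 - 297 * u ^ 10 * v ^ 5 - 297 * u ^ 10 * v ^ 5 * z + 2178 * u ^ 10 * v ^ 5 * z ^ 2 - 3762 * u ^ 10 * v ^ 5 * z ^ 3 + 2178 * u ^ 10 * v ^ 5 * z ^ 4 - 27 * u ^ 10 * v ^ 5 * z ^ 5 - 27 * u ^ 10 * v ^ 5 * z ^ 6 + 18 * u ^ 10 * v ^ 5 * z ^ 7 + 18 * u ^ 10 * v ^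 5 * z ^ 8 + 18 * u ^ 10 * v ^ 5 * z ^ 9 + 774 * u ^ 11 * v ^ 4 - 1116 * u ^ 11 * v ^ 4 * z + 774 * u ^ 11 * v ^ 4 * z ^ 2 - 216 * u ^ 11 * v ^ 4 * z ^ 3 - 216 * u ^ 11 * v ^ 4 * z ^ 4 + 774 * u ^ 11 * v ^ 4 * z ^ 5 - 900 * u ^ 11 * v ^ 4 * z ^ 6 + 990 * u ^ 11 * v ^ 4 * z ^ 7 + 558 * u ^ 12 * v ^ 3 - 342 * u ^ 12 * v ^ 3 * z - 342 * u ^ 12 * v ^ 3 * z ^ 2 + 558 * u ^ 12 * v ^ 3 * z ^ 3 - 432 * u ^ 12 * v ^ 3 * z ^ 4 + 558 * u ^ 12 * v ^ 3 * z ^ 5 - 342 * u ^ 12 * v ^ 3 * z ^ 6 - 450 * u ^ 12 * v ^ 3 * z ^ 7 + 450 * u ^ 12 * v ^ 3 * z ^ 8 + 342 * u ^ 13 * v ^ 2 - 558 * u ^ 13 * v ^ 2 * z + 432 * u ^ 13 * v ^ 2 * z ^ 2 - 558 * u ^ 13 * v ^ 2 * z ^ 3 + 342 * u ^ 13 * v ^ 2 * z ^ 4 + 342 * u ^ 13 * v ^ 2 * z ^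 5 - 558 * u ^ 13 * v ^ 2 * z ^ 6 + 432 * u ^ 13 * v ^ 2 * z ^ 7 - 450 * u ^ 13 * v ^ 2 * z ^ 8 + 450 * u ^ 13 * v ^ 2 * z ^ 9 - 9 * u ^ 15 - 9 * u ^ 15 * z + 36 * u ^ 15 * z ^ 2 - 54 * u ^ 15 * z ^ 3 + 36 * u ^ 15 * z ^ 4 - 9 * u ^ 15 * z ^ 5 - 9 * u ^ 15 * z ^ 6 + 36 * u ^ 15 * z ^ 7 - 54 * u ^ 15 * z ^ 8 + 36 * u ^ 15 * z ^ 9) / 5) * hz

theorem kXR_sub1 (hz : z ^ 4 + z ^ 3 + z ^ 2 + z + 1 = 0) (u v : k) :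
    (kXR u v - qXS z (u ^ 5) (v ^ 5)) * (((2 - z ^ 2 - z ^ 3) / 36) * u ^ 12 * v ^ 2 + ((-5 + 5 * z ^ 2 + 5 * z ^ 3) / 36) * u ^ 10 * v ^ 4 + ((5 - 5 * z ^ 2 - 5 * z ^ 3) / 36) * u ^ 9 * v ^ 5 + ((5 - 10 * z ^ 2 - 10 * z ^ 3) / 36) * u ^ 8 * v ^ 6 + ((7 + 14 * z ^ 2 + 14 * z ^ 3) / 36) * u ^ 7 * v ^ 7 + ((-15 - 10 * z ^ 2 - 10 * z ^ 3) / 36) * u ^ 5 * v ^ 9 + ((15 + 10 * z ^ 2 + 10 * z ^ 3) / 36) * u ^ 4 * v ^ 10 + ((-10 - 5 * z ^ 2 - 5 * z ^ 3) / 36) * u ^ 3 * v ^ 11 + ((3 + z ^ 2 + z ^ 3) / 36) * u ^ 2 * v ^ 12) = kD u v ^ 2 := by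
  simp only [qXS, kXR, kD, qQ]
  linear_combination ((u ^ 2 * v ^ 22 - u ^ 2 * v ^ 22 * z - u ^ 2 * v ^ 22 * z ^ 2 - 5 * u ^ 3 * v ^ 21 + 5 * u ^ 3 * v ^ 21 * z + 5 * u ^ 3 * v ^ 21 * z ^ 2 + 10 * u ^ 4 * v ^ 20 - 10 * u ^ 4 * v ^ 20 * z - 10 * u ^ 4 * v ^ 20 * z ^ 2 - 10 * u ^ 5 * v ^ 19 + 10 * u ^ 5 * v ^ 19 * z + 10 * u ^ 5 * v ^ 19 * z ^ 2 + 3 * u ^ 7 * v ^ 17 - 3 * u ^ 7 * v ^ 17 * z - 3 * u ^ 7 * v ^ 17 * z ^ 2 + 45 * u ^ 8 * v ^ 16 - 45 * u ^ 8 * v ^ 16 * z - 45 * u ^ 8 * v ^ 16 * z ^ 2 - 115 * u ^ 9 * v ^ 15 + 115 * u ^ 9 * v ^ 15 * z + 115 * u ^ 9 * v ^ 15 * z ^ 2 + 115 * u ^ 10 * v ^ 14 - 115 * u ^ 10 * v ^ 14 * z - 115 * u ^ 10 * v ^ 14 * z ^ 2 - 156 * u ^ 12 * v ^ 12 + 156 * u ^ 12 * v ^ 12 * z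 + 156 * u ^ 12 * v ^ 12 * z ^ 2 + 115 * u ^ 13 * v ^ 11 - 115 * u ^ 13 * v ^ 11 * z - 115 * u ^ 13 * v ^ 11 * z ^ 2 + 45 * u ^ 14 * v ^ 10 - 45 * u ^ 14 * v ^ 10 * z - 45 * u ^ 14 * v ^ 10 * z ^ 2 - 45 * u ^ 15 * v ^ 9 + 45 * u ^ 15 * v ^ 9 * z + 45 * u ^ 15 * v ^ 9 * z ^ 2 - 3 * u ^ 17 * v ^ 7 + 3 * u ^ 17 * v ^ 7 * z + 3 * u ^ 17 * v ^ 7 * z ^ 2 + 10 * u ^ 18 * v ^ 6 - 10 * u ^ 18 * v ^ 6 * z - 10 * u ^ 18 * v ^ 6 * z ^ 2 + 5 * u ^ 19 * v ^ 5 - 5 * u ^ 19 * v ^ 5 * z - 5 * u ^ 19 * v ^ 5 * z ^ 2 - 5 * u ^ 20 * v ^ 4 + 5 * u ^ 20 * v ^ 4 * z + 5 * u ^ 20 * v ^ 4 * z ^ 2 + u ^ 22 * v ^ 2 - u ^ 22 * v ^ 2 * z - u ^ 22 * v ^ 2 * z ^ 2) / 5) * hz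

theorem kXR_sub2 (hz : z ^ 4 + z ^ 3 + z ^ 2 + z + 1 = 0) (u v : k) :
    (kXR u v - qXS (z ^ 2) (u ^ 5) (v ^ 5)) * (((3 + z ^ 2 + z ^ 3) / 36) * u ^ 12 * v ^ 2 + ((-10 - 5 * z ^ 2 - 5 * z ^ 3) / 36) * u ^ 10 * v ^ 4 + ((10 + 5 * z ^ 2 + 5 * z ^ 3) / 36) * u ^ 9 * v ^ 5 + ((15 + 10 * z ^ 2 + 10 * z ^ 3) / 36) * u ^ 8 * v ^ 6 + ((-7 - 14 * z ^ 2 - 14 * z ^ 3) / 36) * u ^ 7 * v ^ 7 + ((-5 + 10 * z ^ 2 + 10 * z ^ 3) / 36) * u ^ 5 * v ^ 9 + ((5 - 10 * z ^ 2 - 10 * z ^ 3) / 36) * u ^ 4 * v ^ 10 + ((-5 + 5 * z ^ 2 + 5 * z ^ 3) / 36) * u ^ 3 * v ^ 11 + ((2 - z ^ 2 - z ^ 3) / 36) * u ^ 2 * v ^ 12) = kD u v ^ 2 := by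
  simp only [qXS, kXR, kD, qQ]
  linear_combination ((-u ^ 2 * v ^ 22 + u ^ 2 * v ^ 22 * z - 2 * u ^ 2 * v ^ 22 * z ^ 2 + u ^ 2 * v ^ 22 * z ^ 5 + 5 * u ^ 3 * v ^ 21 * z ^ 2 - 5 * u ^ 3 * v ^ 21 * z ^ 5 + 5 * u ^ 4 * v ^ 20 - 5 * u ^ 4 * v ^ 20 * z - 5 * u ^ 4 * v ^ 20 * z ^ 2 + 10 * u ^ 4 * v ^ 20 * z ^ 5 - 5 * u ^ 5 * v ^ 19 + 5 * u ^ 5 * v ^ 19 * z + 5 * u ^ 5 * v ^ 19 * z ^ 2 - 10 * u ^ 5 * v ^ 19 * z ^ 5 + 32 * u ^ 7 * v ^ 17 - 32 * u ^ 7 * v ^ 17 * z + 29 * u ^ 7 * v ^ 17 * z ^ 2 + 3 * u ^ 7 * v ^ 17 * z ^ 5 - 25 * u ^ 8 * v ^ 16 + 25 * u ^ 8 * v ^ 16 * z - 70 * u ^ 8 * v ^ 16 * z ^ 2 + 45 * u ^ 8 * v ^ 16 * z ^ 5 - 70 * u ^ 9 * v ^ 15 + 70 * u ^ 9 * v ^ 15 * z + 45 * u ^ 9 * v ^ 15 * z ^ 2 - 115 * u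 ^ 9 * v ^ 15 * z ^ 5 + 70 * u ^ 10 * v ^ 14 - 70 * u ^ 10 * v ^ 14 * z - 45 * u ^ 10 * v ^ 14 * z ^ 2 + 115 * u ^ 10 * v ^ 14 * z ^ 5 - 234 * u ^ 12 * v ^ 12 + 234 * u ^ 12 * v ^ 12 * z - 78 * u ^ 12 * v ^ 12 * z ^ 2 - 156 * u ^ 12 * v ^ 12 * z ^ 5 + 275 * u ^ 13 * v ^ 11 - 275 * u ^ 13 * v ^ 11 * z + 160 * u ^ 13 * v ^ 11 * z ^ 2 + 115 * u ^ 13 * v ^ 11 * z ^ 5 + 160 * u ^ 14 * v ^ 10 - 160 * u ^ 14 * v ^ 10 * z + 115 * u ^ 14 * v ^ 10 * z ^ 2 + 45 * u ^ 14 * v ^ 10 * z ^ 5 - 160 * u ^ 15 * v ^ 9 + 160 * u ^ 15 * v ^ 9 * z - 115 * u ^ 15 * v ^ 9 * z ^ 2 - 45 * u ^ 15 * v ^ 9 * z ^ 5 + 23 * u ^ 17 * v ^ 7 - 23 * u ^ 17 * v ^ 7 * z + 26 * u ^ 17 * v ^ 7 * z ^ 2 - 3 * u ^ 17 * v ^ 7 * z ^ 5 + 25 * u ^ 18 * v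 ^ 6 - 25 * u ^ 18 * v ^ 6 * z + 15 * u ^ 18 * v ^ 6 * z ^ 2 + 10 * u ^ 18 * v ^ 6 * z ^ 5 + 15 * u ^ 19 * v ^ 5 - 15 * u ^ 19 * v ^ 5 * z + 10 * u ^ 19 * v ^ 5 * z ^ 2 + 5 * u ^ 19 * v ^ 5 * z ^ 5 - 15 * u ^ 20 * v ^ 4 + 15 * u ^ 20 * v ^ 4 * z - 10 * u ^ 20 * v ^ 4 * z ^ 2 - 5 * u ^ 20 * v ^ 4 * z ^ 5 + 4 * u ^ 22 * v ^ 2 - 4 * u ^ 22 * v ^ 2 * z + 3 * u ^ 22 * v ^ 2 * z ^ 2 + u ^ 22 * v ^ 2 * z ^ 5) / 5) * hz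

end Fermat.Agent.Switch.Klein
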