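import Fermat.Agent.Switch.Forms

set_option autoImplicit false

namespace Fermat.Agent.Switch

variable {R : Type*} [CommRing R]

/-- Part 0 of `fiveResU`. -/
def fiveResUPart0 (a b x y : R) : R :=
  (-1001 * a * b) * x ^ 19
    + (1001 * a ^ 3 - 20020 * b ^ 2) * x ^ 18 * y
    + (-171171 * a ^ 2 * b) * x ^ 17 * y ^ 2
    + (190476 * a ^ 4 - 1160445 * a * b ^ 2) * x ^ 16 * y ^ 3
    + (1811524 * a ^ 3 * b - 5691400 * b ^ 3) * x ^ 15 * y ^ 4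
    + (-800844 * a ^ 5 - 10838784 * a ^ 2 * b ^ 2) * x ^ 14 * y ^ 5

/-- Part 1 of `fiveResU`. -/
def fiveResUPart1 (a b x y : R) : R :=
  (-86178708 * a ^ 4 * b + 59019576 * a * b ^ 3) * x ^ 13 * y ^ 6
    + (102584636 * a ^ 6 - 339675644 * a ^ 3 * b ^ 2 + 186652620 * b ^ 4) * x ^ 12 * y ^ 7
    + (1164725562 * a ^ 5 * b - 1240383144 * a ^ 2 * b ^ 3) * x ^ 11 * y ^ 8
    + (-972754314 * a ^ 7 + 8653718136 * a ^ 4 * b ^ 2 - 7773434200 * a * b ^ 4) * x ^ 10 * y ^ 9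
    + (3252996062 * a ^ 6 * b + 12610217560 * a ^ 3 * b ^ 3 - 15955684000 * b ^ 5) * x ^ 9 * y ^ 10
    + (-10229642820 * a ^ 8 + 56179247346 * a ^ 5 * b ^ 2 - 46025262108 * a ^ 2 * b ^ 4) * x ^ 8 * y ^ 11

/-- Part 2 of `fiveResU`. -/
def fiveResUPart2 (a b x y : R) : R :=
  (-793770588 * a ^ 7 * b + 48948255720 * a ^ 4 * b ^ 3 - 48204923520 * a * b ^ 5) * x ^ 7 * y ^ 12
    + (-48688636140 * a ^ 9 + 96578422176 * a ^ 6 * b ^ 2 - 854781968 * a ^ 3 * b ^ 4 - 47062163200 * b ^ 6) * x ^ 6 * y ^ 13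
    + (-208178051508 * a ^ 8 * b + 449904561960 * a ^ 5 * b ^ 3 - 241738150080 * a ^ 2 * b ^ 5) * x ^ 5 * y ^ 14
    + (189493222500 * a ^ 10 - 856441118844 * a ^ 7 * b ^ 2 + 1162338768468 * a ^ 4 * b ^ 4 - 495394752000 * a * b ^ 6) * x ^ 4 * y ^ 15
    + (297047546055 * a ^ 9 * b - 1134157355320 * a ^ 6 * b ^ 3 + 1384060775296 * a ^ 3 * b ^ 5 - 546951936000 * b ^ 7) * x ^ 3 * y ^ 16
    + (-40980327975 * a ^ 11 - 2712161124 * a ^ 8 * b ^ 2 + 130167816168 * a ^ 5 * b ^ 4 - 86475498240 * a ^ 2 * b ^ 6) * x ^ 2 * y ^ 17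

/-- Part 3 of `fiveResU`. -/
def fiveResUPart3 (a b x y : R) : R :=
  (-399681776115 * a ^ 10 * b + 1163440858440 * a ^ 7 * b ^ 3 - 1127548208544 * a ^ 4 * b ^ 5 + 363789107200 * a * b ^ 7) * x * y ^ 18
    + (924073839000 * a ^ 12 - 3865005219069 * a ^ 9 * b ^ 2 + 6046201364348 * a ^ 6 * b ^ 4 - 4193661153280 * a ^ 3 * b ^ 6 + 1088391168000 * b ^ 8) * y ^ 19

/-- Cofactor of `fiveD` in the resultant certificate. -/
def fiveResU (a b x y : R) : R :=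
  fiveResUPart0 a b x y + fiveResUPart1 a b x y + fiveResUPart2 a b x y + fiveResUPart3 a b x y


/-- Cofactor of `fiveC4` in the resultant certificate. -/
def fiveResV (a b x y : R) : R :=
  (1001 * b) * x ^ 11
    + (-1001 * a ^ 2) * x ^ 10 * y
    + (-65065 * a * b) * x ^ 9 * y ^ 2
    + (65780 * a ^ 3 - 441155 * b ^ 2) * x ^ 8 * y ^ 3
    + (-1111110 * a ^ 2 * b) * x ^ 7 * y ^ 4
    + (1504690 * a ^ 4 - 3564748 * a * b ^ 2) * x ^ 6 * y ^ 5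
    + (7691134 * a ^ 3 * b - 10255696 * b ^ 3) * x ^ 5 * y ^ 6
    + (-5476020 * a ^ 5 + 3283830 * a ^ 2 * b ^ 2) * x ^ 4 * y ^ 7
    + (-56524435 * a ^ 4 * b + 55248160 * a * b ^ 3) * x ^ 3 * y ^ 8
    + (66126735 * a ^ 6 - 214985020 * a ^ 3 * b ^ 2 + 148372800 * b ^ 4) * x ^ 2 * y ^ 9
    + (-49938405 * a ^ 5 * b + 49829296 * a ^ 2 * b ^ 3) * x * y ^ 10
    + (147647016 * a ^ 7 - 306536747 * a ^ 4 * b ^ 2 + 158878720 * a * b ^ 4) * y ^ 11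


set_option maxRecDepth 20000 in
set_option maxHeartbeats 4000000 in
theorem fiveRes_identity (a b x y : R) :
    fiveResU a b x y * fiveD a b x y + fiveResV a b x y * fiveC4 a b x y =
      2 ^ 26 * 3 ^ 12 * 5 ^ 5 * (a ^ 3 - b ^ 2) ^ 6 * y ^ 31 := by
  simp only [fiveResU, fiveResUPart0, fiveResUPart1, fiveResUPart2, fiveResUPart3, fiveResV, fiveD, fiveC4, fiveC4Part0, fiveC4Part1, fiveC4Part2, fiveC4Part3]
  ring

end Fermat.Agent.Switch
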