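import Fermat.Agent.Switch.Forms

set_option autoImplicit false

namespace Fermat.Agent.Switch

variable {R : Type*} [CommRing R]

set_option maxRecDepth 20000 in
set_option maxHeartbeats 4000000 in
theorem fiveC4_cube_sub_fiveC6_sq (a b x y : R) :
    fiveC4 a b x y ^ 3 - fiveC6 a b x y ^ 2 = (a ^ 3 - b ^ 2) * fiveD a b x y ^ 5 := by
  simp only [fiveC4, fiveC4Part0, fiveC4Part1, fiveC4Part2, fiveC4Part3, fiveC6, fiveC6Part0, fiveC6Part1, fiveC6Part2, fiveC6Part3, fiveC6Part4, fiveC6Part5, fiveD]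
  ring

end Fermat.Agent.Switch
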