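/-
The integral models `fiveModel W t` of the members of the family of elliptic curves with the same
5-torsion as `W`, for parameters `t` divisible by `10368`, and their semistability.
-/
import Fermat.Agent.Switch.Forms
import Fermat.Agent.Switch.Syzygy
import Fermat.Agent.Switch.Resultant
import Fermat.Prelude.Def_FLTPrelim_Modularity
import Mathlib.AlgebraicGeometry.EllipticCurve.Weierstrass
import Mathlib.Data.ZMod.Basic
import Mathlib.Tactic.LinearCombination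
import Mathlib.RingTheory.Int.Basic

set_option autoImplicit false

namespace Fermat.Agent.Switch

open WeierstrassCurve

section Forms

variable {R S : Type*} [CommRing R] [CommRing S]

theorem map_fiveD (f : R →+* S) (a b x y : R) :
    f (fiveD a b x y) = fiveD (f a) (f b) (f x) (f y) := by
  simp only [fiveD, map_add, map_sub, map_mul, map_pow, map_neg, map_one, map_ofNat]

theorem map_fiveC4 (f : R →+* S) (a b x y : R) :
    f (fiveC4 a b x y) = fiveC4 (f a) (f b) (f x) (f y) := by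
  simp only [fiveC4, fiveC4Part0, fiveC4Part1, fiveC4Part2, fiveC4Part3, map_add, map_sub,
    map_mul, map_pow, map_neg, map_ofNat]

theorem map_fiveC6 (f : R →+* S) (a b x y : R) :
    f (fiveC6 a b x y) = fiveC6 (f a) (f b) (f x) (f y) := by
  simp only [fiveC6, fiveC6Part0, fiveC6Part1, fiveC6Part2, fiveC6Part3, fiveC6Part4, fiveC6Part5,
    map_add, map_sub, map_mul, map_pow, map_neg, map_ofNat]

@[simp]
theorem fiveD_zero (a b x : R) : fiveD a b x 0 = x ^ 12 := by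
  simp [fiveD]

@[simp]
theorem fiveC4_zero (a b x : R) : fiveC4 a b x 0 = a * x ^ 20 := by
  simp [fiveC4, fiveC4Part0, fiveC4Part1, fiveC4Part2, fiveC4Part3]

@[simp]
theorem fiveC6_zero (a b x : R) : fiveC6 a b x 0 = b * x ^ 30 := by
  simp [fiveC6, fiveC6Part0, fiveC6Part1, fiveC6Part2, fiveC6Part3, fiveC6Part4, fiveC6Part5]

theorem dvd_fiveD_sub_pow (a b x : ℤ) {n y : ℤ} (h : n ∣ y) :
    n ∣ fiveD a b x y - x ^ 12 := by
  obtain ⟨k, rfl⟩ := h
  rw [← Ideal.mem_span_singleton, ← Ideal.Quotient.eq_zero_iff_mem]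
  rw [map_sub, map_fiveD, map_mul,
    Ideal.Quotient.eq_zero_iff_mem.mpr (Ideal.mem_span_singleton_self n), zero_mul, fiveD_zero]
  simp

theorem dvd_fiveC4_sub_mul_pow (a b x : ℤ) {n y : ℤ} (h : n ∣ y) :
    n ∣ fiveC4 a b x y - a * x ^ 20 := by
  obtain ⟨k, rfl⟩ := h
  rw [← Ideal.mem_span_singleton, ← Ideal.Quotient.eq_zero_iff_mem]
  rw [map_sub, map_fiveC4, map_mul,
    Ideal.Quotient.eq_zero_iff_mem.mpr (Ideal.mem_span_singleton_self n), zero_mul, fiveC4_zero]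
  simp

theorem dvd_fiveC6_sub_mul_pow (a b x : ℤ) {n y : ℤ} (h : n ∣ y) :
    n ∣ fiveC6 a b x y - b * x ^ 30 := by
  obtain ⟨k, rfl⟩ := h
  rw [← Ideal.mem_span_singleton, ← Ideal.Quotient.eq_zero_iff_mem]
  rw [map_sub, map_fiveC6, map_mul,
    Ideal.Quotient.eq_zero_iff_mem.mpr (Ideal.mem_span_singleton_self n), zero_mul, fiveC6_zero]
  simp

theorem dvd_fiveD_sub_one (a b : ℤ) {n x y : ℤ} (hx : n ∣ x - 1) (hy : n ∣ y) :
    n ∣ fiveD a b x y - 1 := by
  have h1 := dvd_fiveD_sub_pow a b x hy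
  have h2 : n ∣ x ^ 12 - 1 ^ 12 := hx.trans (sub_dvd_pow_sub_pow x 1 12)
  simpa using h1.add h2

theorem dvd_fiveC4_sub (a b : ℤ) {n x y : ℤ} (hx : n ∣ x - 1) (hy : n ∣ y) :
    n ∣ fiveC4 a b x y - a := by
  have h1 := dvd_fiveC4_sub_mul_pow a b x hy
  have h2 : n ∣ a * (x ^ 20 - 1 ^ 20) := (hx.trans (sub_dvd_pow_sub_pow x 1 20)).mul_left a
  simpa [mul_sub] using h1.add h2

theorem dvd_fiveC6_sub (a b : ℤ) {n x y : ℤ} (hx : n ∣ x - 1) (hy : n ∣ y) :
    n ∣ fiveC6 a b x y - b := by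
  have h1 := dvd_fiveC6_sub_mul_pow a b x hy
  have h2 : n ∣ b * (x ^ 30 - 1 ^ 30) := (hx.trans (sub_dvd_pow_sub_pow x 1 30)).mul_left b
  simpa [mul_sub] using h1.add h2

end Forms

variable (W : WeierstrassCurve ℤ) (x y : ℤ)

/-- The change of `c₄`, divided by `10368`. -/
def fiveShift4 : ℤ := (fiveC4 W.c₄ W.c₆ x y - W.c₄) / 10368

/-- The change of `c₆`, divided by `10368`. -/
def fiveShift6 : ℤ := (fiveC6 W.c₄ W.c₆ x y - W.c₆) / 10368

/-- The member of parameter `(x : y)` of the family of curves with the same 5-torsion as `W`; it is the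
intended curve when `10368 ∣ x - 1` and `10368 ∣ y`. -/
def fiveModel : WeierstrassCurve ℤ where
  a₁ := W.a₁
  a₂ := W.a₂
  a₃ := W.a₃
  a₄ := W.a₄ - 216 * fiveShift4 W x y
  a₆ := W.a₆ - 18 * W.b₂ * fiveShift4 W x y - 12 * fiveShift6 W x y

variable {x y}

theorem fiveModel_c₄ (hx : (10368 : ℤ) ∣ x - 1) (hy : (10368 : ℤ) ∣ y) :
    (fiveModel W x y).c₄ = fiveC4 W.c₄ W.c₆ x y := by
  have h : 10368 * fiveShift4 W x y = fiveC4 W.c₄ W.c₆ x y - W.c₄ :=
    Int.mul_ediv_cancel' (dvd_fiveC4_sub _ _ hx hy)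
  have key : (fiveModel W x y).c₄ = W.c₄ + 10368 * fiveShift4 W x y := by
    simp only [fiveModel, WeierstrassCurve.c₄, WeierstrassCurve.b₂, WeierstrassCurve.b₄]
    ring
  linear_combination key + h

theorem fiveModel_c₆ (hx : (10368 : ℤ) ∣ x - 1) (hy : (10368 : ℤ) ∣ y) :
    (fiveModel W x y).c₆ = fiveC6 W.c₄ W.c₆ x y := by
  have h : 10368 * fiveShift6 W x y = fiveC6 W.c₄ W.c₆ x y - W.c₆ :=
    Int.mul_ediv_cancel' (dvd_fiveC6_sub _ _ hx hy)
  have key : (fiveModel W x y).c₆ = W.c₆ + 10368 * fiveShift6 W x y := by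
    simp only [fiveModel, WeierstrassCurve.c₆, WeierstrassCurve.b₂, WeierstrassCurve.b₄,
      WeierstrassCurve.b₆]
    ring
  linear_combination key + h

theorem fiveModel_Δ (hx : (10368 : ℤ) ∣ x - 1) (hy : (10368 : ℤ) ∣ y) :
    (fiveModel W x y).Δ = W.Δ * fiveD W.c₄ W.c₆ x y ^ 5 := by
  have h := (fiveModel W x y).c_relation
  rw [fiveModel_c₄ W hx hy, fiveModel_c₆ W hx hy, fiveC4_cube_sub_fiveC6_sq, ← W.c_relation] at h
  linarith

theorem fiveD_ne_zero (hx : (10368 : ℤ) ∣ x - 1) (hy : (10368 : ℤ) ∣ y) : fiveD W.c₄ W.c₆ x y ≠ 0 := by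
  intro h
  have := dvd_fiveD_sub_one W.c₄ W.c₆ hx hy
  rw [h] at this
  norm_num at this

theorem fiveModel_Δ_ne_zero (hΔ : W.Δ ≠ 0) (hx : (10368 : ℤ) ∣ x - 1) (hy : (10368 : ℤ) ∣ y) :
    (fiveModel W x y).Δ ≠ 0 := by
  rw [fiveModel_Δ W hx hy]
  exact mul_ne_zero hΔ (pow_ne_zero 5 (fiveD_ne_zero W hx hy))

theorem fiveModel_isGoodPrimeFor_iff {q : ℕ} (hq : q.Prime) (hx : (10368 : ℤ) ∣ x - 1) (hy : (10368 : ℤ) ∣ y) :
    (fiveModel W x y).IsGoodPrimeFor q ↔
      W.IsGoodPrimeFor q ∧ ¬ (q : ℤ) ∣ fiveD W.c₄ W.c₆ x y := by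
  have hq' : Prime (q : ℤ) := Nat.prime_iff_prime_int.mp hq
  unfold WeierstrassCurve.IsGoodPrimeFor
  rw [fiveModel_Δ W hx hy]
  constructor
  · exact fun h => ⟨fun hd => h (hd.mul_right _), fun hd => h ((dvd_pow hd (by norm_num)).mul_left _)⟩
  · intro h hd
    exact (hq'.dvd_or_dvd hd).elim h.1 fun hd => h.2 (hq'.dvd_of_dvd_pow hd)

/-- For the reductions modulo `2` and `3` the model does not move at all. -/
theorem fiveModel_reductionMod {p : ℕ} (hp : p ∣ 6) :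
    (fiveModel W x y).reductionMod p = W.reductionMod p := by
  have h6 : ((6 : ℤ) : ZMod p) = 0 :=
    (ZMod.intCast_zmod_eq_zero_iff_dvd _ _).mpr (by exact_mod_cast hp)
  have h216 : ((216 : ℤ) : ZMod p) = 0 := by
    rw [show (216 : ℤ) = 36 * 6 by norm_num, Int.cast_mul, h6, mul_zero]
  have h18 : ((18 : ℤ) : ZMod p) = 0 := by
    rw [show (18 : ℤ) = 3 * 6 by norm_num, Int.cast_mul, h6, mul_zero]
  have h12 : ((12 : ℤ) : ZMod p) = 0 := by
    rw [show (12 : ℤ) = 2 * 6 by norm_num, Int.cast_mul, h6, mul_zero]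
  ext <;> simp only [WeierstrassCurve.reductionMod, WeierstrassCurve.map, fiveModel,
    eq_intCast, Int.cast_sub, Int.cast_mul, h216, h18, h12, zero_mul, sub_zero]

theorem fiveModel_apOfModel {p : ℕ} (hp : p ∣ 6) :
    (fiveModel W x y).apOfModel p = W.apOfModel p := by
  simp only [WeierstrassCurve.apOfModel, fiveModel_reductionMod W hp]

/-- For coprime parameters, a prime not dividing `30 * W.Δ` and dividing the discriminant form
does not divide the new `c₄`; together with the congruences at the other primes this gives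
semistability for every admissible parameter. -/
theorem fiveModel_isSemistableModel (hW : W.IsSemistableModel) (hx : (10368 : ℤ) ∣ x - 1)
    (hy : (10368 : ℤ) ∣ y) (hy5 : (5 : ℤ) ∣ y) (hyΔ : W.Δ ∣ y) (hxy : IsCoprime x y) :
    (fiveModel W x y).IsSemistableModel := by
  intro q hq hqΔ' hqc
  have hq' : Prime (q : ℤ) := Nat.prime_iff_prime_int.mp hq
  rw [fiveModel_Δ W hx hy] at hqΔ'
  rw [fiveModel_c₄ W hx hy] at hqc
  by_cases hqy : (q : ℤ) ∣ y
  · have hqx : ¬ (q : ℤ) ∣ x := fun h => hq'.not_isUnit (hxy.isUnit_of_dvd' h hqy)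
    rcases hq'.dvd_or_dvd hqΔ' with h | h
    · refine hW q hq h ?_
      have h1 := hqc.sub (dvd_fiveC4_sub_mul_pow W.c₄ W.c₆ x hqy)
      simp only [sub_sub_cancel] at h1
      exact (hq'.dvd_or_dvd h1).resolve_right fun h2 => hqx (hq'.dvd_of_dvd_pow h2)
    · have h1 := (hq'.dvd_of_dvd_pow h).sub (dvd_fiveD_sub_pow W.c₄ W.c₆ x hqy)
      simp only [sub_sub_cancel] at h1
      exact hqx (hq'.dvd_of_dvd_pow h1)
  · have hqD : (q : ℤ) ∣ fiveD W.c₄ W.c₆ x y :=
      (hq'.dvd_or_dvd hqΔ').elim (fun h => absurd (h.trans hyΔ) hqy) hq'.dvd_of_dvd_pow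
    have key := fiveRes_identity W.c₄ W.c₆ x y
    rw [← W.c_relation] at key
    have hd : (q : ℤ) ∣ 2 ^ 26 * 3 ^ 12 * 5 ^ 5 * (1728 * W.Δ) ^ 6 * y ^ 31 :=
      key ▸ (hqD.mul_left _).add (hqc.mul_left _)
    have h2 : ¬ (q : ℤ) ∣ 2 := fun h => hqy (h.trans (dvd_trans (by norm_num) hy))
    have h3 : ¬ (q : ℤ) ∣ 3 := fun h => hqy (h.trans (dvd_trans (by norm_num) hy))
    have h1728 : ¬ (q : ℤ) ∣ 1728 := fun h => hqy (h.trans (dvd_trans (by norm_num) hy))
    rcases hq'.dvd_or_dvd hd with hd | hd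
    · rcases hq'.dvd_or_dvd hd with hd | hd
      · rcases hq'.dvd_or_dvd hd with hd | hd
        · rcases hq'.dvd_or_dvd hd with hd | hd
          · exact h2 (hq'.dvd_of_dvd_pow hd)
          · exact h3 (hq'.dvd_of_dvd_pow hd)
        · exact hqy ((hq'.dvd_of_dvd_pow hd).trans hy5)
      · exact (hq'.dvd_or_dvd (hq'.dvd_of_dvd_pow hd)).elim h1728 fun h => hqy (h.trans hyΔ)
    · exact hqy (hq'.dvd_of_dvd_pow hd)

end Fermat.Agent.Switch
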