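/-
The form of degree thirty of the twisted family is Klein's form along `w ↦ s w + t J∇D(w)`.
-/
import Fermat.Agent.Switch.KleinHessian
import Fermat.Agent.Switch.KleinIdentities
import Fermat.Agent.Switch.Syzygy
import Fermat.Agent.Switch.Model
import Mathlib.Algebra.Polynomial.Roots
import Mathlib.Algebra.CharZero.Infinite

set_option autoImplicit false

namespace Fermat.Agent.Switch.Klein

open Polynomial

variable {k : Type*} [Field k] [CharZero k]

theorem kC4_cube_sub_kC6_sq (u v : k) :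
    kC4 u v ^ 3 - kC6 u v ^ 2 = 1728 * kD u v ^ 5 := by
  simp only [kC4, kC6, kD]
  linear_combination qC4_qC6 (u ^ 5) (v ^ 5)

theorem kC6_pencil {u v : k} (hD : kD u v ≠ 0) {s : k} (hs : s ≠ 0) (hb : kC6 u v ≠ 0) (t : k) :
    kC6 (s * u + t * kKu u v) (s * v + t * kKv u v) =
      fiveC6 (kC4 u v) (kC6 u v) s t := by
  set P : k[X] := kC6 (C (s * u) + X * C (kKu u v)) (C (s * v) + X * C (kKv u v)) with hP
  set Q : k[X] := fiveC6 (C (kC4 u v)) (C (kC6 u v)) (C s) X with hQ
  have hPe : ∀ x : k, P.eval x = kC6 (s * u + x * kKu u v) (s * v + x * kKv u v) := fun x => by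
    simp [hP, kC6, qC6, mul_comm x]
  have hQe : ∀ x : k, Q.eval x = fiveC6 (kC4 u v) (kC6 u v) s x := fun x => by
    rw [hQ, ← coe_evalRingHom, map_fiveC6]
    simp
  have hzero : (P - Q) * (P + Q) = 0 := Polynomial.funext fun x => by
    simp only [eval_mul, eval_sub, eval_add, eval_zero, hPe, hQe]
    have h1 := kC4_cube_sub_kC6_sq (s * u + x * kKu u v) (s * v + x * kKv u v)
    rw [kC4_pencil hD, kD_pencil] at h1
    have h2 := fiveC4_cube_sub_fiveC6_sq (kC4 u v) (kC6 u v) s x
    have h3 := kC4_cube_sub_kC6_sq u v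
    linear_combination -h1 + h2 + fiveD (kC4 u v) (kC6 u v) s x ^ 5 * h3
  rcases mul_eq_zero.mp hzero with h | h
  · rw [← hPe, ← hQe, sub_eq_zero.mp h]
  · exfalso
    have h0 := congrArg (Polynomial.eval 0) h
    simp only [eval_add, eval_zero, hPe, hQe, zero_mul, add_zero, fiveC6_zero] at h0
    rw [show kC6 (s * u) (s * v) = kC6 u v * s ^ 30 by simp only [kC6, qC6]; ring] at h0
    exact hb ((mul_eq_zero.mp (show kC6 u v * (2 * s ^ 30) = 0 by linear_combination h0)).resolve_right
      (mul_ne_zero two_ne_zero (pow_ne_zero _ hs)))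

end Fermat.Agent.Switch.Klein
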