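/-
The two sections of order five on Klein's universal curve, the group law relations between them,
and their behaviour under the generators of the binary icosahedral group.
-/
import Fermat.Agent.Switch.KleinIdentities
import Mathlib.AlgebraicGeometry.EllipticCurve.Affine.Point
import Mathlib.Algebra.Module.LinearMap.Prod
import Mathlib.Tactic.LinearCombination
import Mathlib.Tactic.Module
import Mathlib.Tactic.IntervalCases

set_option autoImplicit false
set_option linter.unusedSectionVars false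

namespace Fermat.Agent.Switch.Klein

open WeierstrassCurve

variable {k : Type*} [Field k]

/-- `z` is a primitive fifth root of unity. -/
def IsPhi (z : k) : Prop := z ^ 4 + z ^ 3 + z ^ 2 + z + 1 = 0

theorem IsPhi.pow_five {z : k} (hz : IsPhi z) : z ^ 5 = 1 := by
  unfold IsPhi at hz
  linear_combination (z - 1) * hz

theorem IsPhi.ne_zero {z : k} (hz : IsPhi z) : z ≠ 0 := fun h => by
  simp [IsPhi, h] at hz

theorem IsPhi.sq {z : k} (hz : IsPhi z) : IsPhi (z ^ 2) := by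
  unfold IsPhi at *
  linear_combination (z ^ 4 - z ^ 3 + z ^ 2 - z + 1) * hz

theorem IsPhi.pow_four {z : k} (hz : IsPhi z) : IsPhi (z ^ 4) := by
  have := hz.sq.sq
  rwa [← pow_mul] at this

theorem IsPhi.cases {z r : k} (hz : IsPhi z) (hr : IsPhi r) :
    r = z ∨ r = z ^ 2 ∨ r = z ^ 3 ∨ r = z ^ 4 := by
  unfold IsPhi at *
  have key : (r - z) * (r - z ^ 2) * ((r - z ^ 3) * (r - z ^ 4)) = 0 := by
    linear_combination hr + (-1 + z - z ^ 5 + z ^ 6 - r + r * z - r * z ^ 5 - r ^ 2 + r ^ 2 * z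
      + r ^ 2 * z ^ 3 - r ^ 3) * hz
  rcases mul_eq_zero.mp key with h | h <;> rcases mul_eq_zero.mp h with h' | h'
  · exact .inl (sub_eq_zero.mp h')
  · exact .inr (.inl (sub_eq_zero.mp h'))
  · exact .inr (.inr (.inl (sub_eq_zero.mp h')))
  · exact .inr (.inr (.inr (sub_eq_zero.mp h')))

/-- `E` is Klein's curve at the parameter `w`. -/
structure Fib (E : WeierstrassCurve.Affine k) (w : k × k) : Prop where
  a₁ : E.a₁ = 0
  a₂ : E.a₂ = 0
  a₃ : E.a₃ = 0
  a₄ : E.a₄ = -27 * kC4 w.1 w.2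
  a₆ : E.a₆ = -54 * kC6 w.1 w.2
  hD : kD w.1 w.2 ≠ 0

variable {E : WeierstrassCurve.Affine k} {w : k × k}

theorem Fib.fst_ne_zero (h : Fib E w) : w.1 ≠ 0 := by
  rintro hu; exact h.hD (by simp [kD, hu])

theorem Fib.snd_ne_zero (h : Fib E w) : w.2 ≠ 0 := by
  rintro hu; exact h.hD (by simp [kD, hu])

theorem Fib.qQ_ne_zero (h : Fib E w) : qQ (w.1 ^ 5) (w.2 ^ 5) ≠ 0 := by
  rintro hu; exact h.hD (by simp [kD, hu])

variable [CharZero k]

theorem Fib.Δ_ne_zero (h : Fib E w) : E.Δ ≠ 0 := by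
  have e : E.Δ = 2176782336 * kD w.1 w.2 ^ 5 := by
    simp only [WeierstrassCurve.Δ, WeierstrassCurve.b₂, WeierstrassCurve.b₄, WeierstrassCurve.b₆,
      WeierstrassCurve.b₈, h.a₁, h.a₂, h.a₃, h.a₄, h.a₆]
    simp only [kC4, kC6, kD]
    linear_combination (1259712 : k) * qC4_qC6 (w.1 ^ 5) (w.2 ^ 5)
  rw [e]
  exact mul_ne_zero (by norm_num) (pow_ne_zero _ h.hD)

theorem Fib.nonsingular (h : Fib E w) {x y : k}
    (e : y ^ 2 = x ^ 3 - 27 * kC4 w.1 w.2 * x - 54 * kC6 w.1 w.2) : E.Nonsingular x y := by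
  rw [← E.equation_iff_nonsingular_of_Δ_ne_zero h.Δ_ne_zero, Affine.equation_iff, h.a₁, h.a₂, h.a₃,
    h.a₄, h.a₆]
  linear_combination e

/-- The rational section of order five. -/
def ptR (h : Fib E w) : E.Point :=
  .some (kXR w.1 w.2) (kYR w.1 w.2) (h.nonsingular (kXR_sq _ _))

/-- The cyclotomic section of order five. -/
def ptS {z : k} (hz : IsPhi z) (h : Fib E w) : E.Point :=
  .some (qXS z (w.1 ^ 5) (w.2 ^ 5)) (qYS z (w.1 ^ 5) (w.2 ^ 5))
    (h.nonsingular (qXS_sq hz _ _))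

theorem ptS_congr {z z' : k} {hz : IsPhi z} {hz' : IsPhi z'} (e : z = z') {w' : k × k}
    {h : Fib E w} {h' : Fib E w'} (ew : w = w') : ptS hz h = ptS hz' h' := by
  subst e ew; rfl

theorem qYS_ne_zero {z : k} (hz : IsPhi z) (h : Fib E w) : qYS z (w.1 ^ 5) (w.2 ^ 5) ≠ 0 :=
  fun e => h.qQ_ne_zero (by
    have := qYS_mul hz (w.1 ^ 5) (w.2 ^ 5)
    rw [e, zero_mul] at this
    exact (pow_eq_zero_iff (by norm_num)).mp this.symm)

theorem kXR_ne_qXS {z : k} (hz : IsPhi z) (h : Fib E w) :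
    kXR w.1 w.2 ≠ qXS z (w.1 ^ 5) (w.2 ^ 5) ∧
      kXR w.1 w.2 ≠ qXS (z ^ 2) (w.1 ^ 5) (w.2 ^ 5) := by
  constructor <;> intro e <;> apply h.hD <;> apply (pow_eq_zero_iff (n := 2) (by norm_num)).mp
  · rw [← kXR_sub1 hz w.1 w.2, e, sub_self, zero_mul]
  · rw [← kXR_sub2 hz w.1 w.2, e, sub_self, zero_mul]

variable [DecidableEq k]

theorem ptS_add_self {z : k} (hz : IsPhi z) (h : Fib E w) :
    ptS hz h + ptS hz h = ptS hz.sq h := by
  have hy := qYS_ne_zero hz h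
  have hne : qYS z (w.1 ^ 5) (w.2 ^ 5) ≠
      E.negY (qXS z (w.1 ^ 5) (w.2 ^ 5)) (qYS z (w.1 ^ 5) (w.2 ^ 5)) := by
    simp only [Affine.negY, h.a₁, h.a₃, zero_mul, sub_zero]
    intro e
    exact hy ((mul_eq_zero.mp (show (2 : k) * _ = 0 by linear_combination e)).resolve_left
      two_ne_zero)
  have hsl : E.slope (qXS z (w.1 ^ 5) (w.2 ^ 5)) (qXS z (w.1 ^ 5) (w.2 ^ 5))
      (qYS z (w.1 ^ 5) (w.2 ^ 5)) (qYS z (w.1 ^ 5) (w.2 ^ 5)) =
      qLS z (w.1 ^ 5) (w.2 ^ 5) := by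
    rw [Affine.slope_of_Y_ne rfl hne, div_eq_iff (sub_ne_zero.mpr hne)]
    simp only [Affine.negY, h.a₁, h.a₂, h.a₃, h.a₄, kC4]
    linear_combination qLS_spec hz (w.1 ^ 5) (w.2 ^ 5)
  rw [ptS, Affine.Point.add_self_of_Y_ne hne, ptS, Affine.Point.some.injEq, hsl]
  have e1 := qXS_double hz (w.1 ^ 5) (w.2 ^ 5)
  have e2 := qYS_double hz (w.1 ^ 5) (w.2 ^ 5)
  refine ⟨?_, ?_⟩
  · simp only [Affine.addX, h.a₁, h.a₂]
    linear_combination -e1
  · simp only [Affine.addY, Affine.negY, Affine.negAddY, Affine.addX, h.a₁, h.a₂, h.a₃]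
    linear_combination -e2 + qLS z (w.1 ^ 5) (w.2 ^ 5) * e1

theorem ptS_pow_four {z : k} (hz : IsPhi z) (h : Fib E w) :
    ptS hz.pow_four h = -ptS hz h := by
  simp only [ptS, Affine.Point.neg_some, Affine.Point.some.injEq, Affine.negY, h.a₁, h.a₃,
    zero_mul, sub_zero]
  exact ⟨qXS_inv hz _ _, qYS_inv hz _ _⟩

theorem five_zsmul_ptS {z : k} (hz : IsPhi z) (h : Fib E w) : (5 : ℤ) • ptS hz h = 0 := by
  have h4 : ptS hz.sq h + ptS hz.sq h = -ptS hz h := by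
    rw [ptS_add_self hz.sq h, ← ptS_pow_four hz h]
    exact ptS_congr (by ring) rfl
  rw [← ptS_add_self hz h] at h4
  linear_combination (norm := module) h4

theorem exists_ptS_eq {z r : k} (hz : IsPhi z) (hr : IsPhi r) (h : Fib E w) :
    ∃ m : ℤ, ptS hr h = m • ptS hz h := by
  rcases hz.cases hr with e | e | e | e
  · exact ⟨1, by rw [one_zsmul]; exact ptS_congr e rfl⟩
  · exact ⟨2, by rw [two_zsmul, ptS_add_self]; exact ptS_congr e rfl⟩
  · refine ⟨-2, ?_⟩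
    rw [neg_smul, ← smul_neg, ← ptS_pow_four hz h, two_zsmul, ptS_add_self]
    refine ptS_congr ?_ rfl
    rw [e]; linear_combination (-z ^ 3) * hz.pow_five
  · exact ⟨-1, by rw [neg_one_zsmul, ← ptS_pow_four]; exact ptS_congr e rfl⟩

theorem ptS_ne_zero {z : k} (hz : IsPhi z) (h : Fib E w) : ptS hz h ≠ 0 :=
  Affine.Point.some_ne_zero _

/-- The involution `H` of the binary icosahedral group. -/
def gH (z : k) : (k × k) →ₗ[k] (k × k) :=
  (kHa z • LinearMap.fst k k k + kHb z • LinearMap.snd k k k).prod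
    (kHb z • LinearMap.fst k k k - kHa z • LinearMap.snd k k k)

/-- The element `W` of order four. -/
def gW : (k × k) →ₗ[k] (k × k) := (LinearMap.snd k k k).prod (-LinearMap.fst k k k)

/-- The element `diag(z, 1)`. -/
def gZ (z : k) : (k × k) →ₗ[k] (k × k) :=
  (z • LinearMap.fst k k k).prod (LinearMap.snd k k k)

/-- `J∇D`. -/
def kK (w : k × k) : k × k := (kKu w.1 w.2, kKv w.1 w.2)

omit [CharZero k] [DecidableEq k] in
theorem gH_apply (z : k) (w : k × k) :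
    gH z w = (kHa z * w.1 + kHb z * w.2, kHb z * w.1 - kHa z * w.2) := rfl

omit [CharZero k] [DecidableEq k] in
theorem gW_apply (w : k × k) : gW w = (w.2, -w.1) := rfl

omit [CharZero k] [DecidableEq k] in
theorem gZ_apply (z : k) (w : k × k) : gZ z w = (z * w.1, w.2) := rfl

omit [DecidableEq k] in
theorem Fib.map_H {z : k} (hz : IsPhi z) (h : Fib E w) : Fib E (gH z w) := by
  have eF := kF_eq hz w.1 w.2
  have eG := kG_eq hz w.1 w.2
  have h4 : kC4 (gH z w).1 (gH z w).2 = kC4 w.1 w.2 := by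
    have a1 := qLS_spec hz (kF z w.1 w.2) (kG z w.1 w.2)
    rw [qXS_H hz, qYS_H hz, qLS_H hz] at a1
    have a2 := kLR_spec (k := k) w.1 w.2
    simp only [gH_apply, kC4, eF, eG] at *
    linear_combination ((-1 : k) / 27) * a1 + ((1 : k) / 27) * a2
  have h6 : kC6 (gH z w).1 (gH z w).2 = kC6 w.1 w.2 := by
    have a1 := qXS_sq hz (kF z w.1 w.2) (kG z w.1 w.2)
    rw [qXS_H hz, qYS_H hz] at a1
    have a2 := kXR_sq (k := k) w.1 w.2
    simp only [gH_apply, kC4, kC6, eF, eG] at *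
    linear_combination ((1 : k) / 54) * a1 - ((1 : k) / 54) * a2 - kXR w.1 w.2 / 2 * h4
  refine ⟨h.a₁, h.a₂, h.a₃, by rw [h4]; exact h.a₄, by rw [h6]; exact h.a₆, ?_⟩
  have hd : kD (gH z w).1 (gH z w).2 = kD w.1 w.2 := by
    conv_lhs => simp only [gH_apply, kD, eF, eG]
    exact kD_H_aux hz w.1 w.2
  rw [hd]; exact h.hD

omit [DecidableEq k] in
theorem kK_H {z : k} (hz : IsPhi z) (w : k × k) : kK (gH z w) = gH z (kK w) := by
  refine Prod.ext ?_ ?_
  · show kKu (kHa z * w.1 + kHb z * w.2) (kHb z * w.1 - kHa z * w.2) = _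
    conv_lhs => simp only [kKu, kF_eq hz, kG_eq hz]
    exact kKu_H_aux hz w.1 w.2
  · show kKv (kHa z * w.1 + kHb z * w.2) (kHb z * w.1 - kHa z * w.2) = _
    conv_lhs => simp only [kKv, kF_eq hz, kG_eq hz]
    exact kKv_H_aux hz w.1 w.2

theorem ptS_H {z : k} (hz : IsPhi z) (h : Fib E w) : ptS hz (h.map_H hz) = -ptR h := by
  simp only [ptS, ptR, Affine.Point.neg_some, Affine.Point.some.injEq, Affine.negY, h.a₁, h.a₃,
    zero_mul, sub_zero, gH_apply, kF_eq hz, kG_eq hz]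
  exact ⟨qXS_H hz _ _, qYS_H hz _ _⟩

omit [DecidableEq k] in
theorem gH_gH {z : k} (hz : IsPhi z) (w : k × k) : gH z (gH z w) = -w := by
  refine Prod.ext ?_ ?_ <;> simp only [gH_apply, Prod.fst_neg, Prod.snd_neg]
  · linear_combination w.1 * kHH hz
  · linear_combination w.2 * kHH hz

omit [DecidableEq k] in
theorem Fib.map_neg (h : Fib E w) : Fib E (-w) := by
  refine ⟨h.a₁, h.a₂, h.a₃, ?_, ?_, ?_⟩
  · rw [h.a₄]; simp only [Prod.fst_neg, Prod.snd_neg, kC4, qC4]; ring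
  · rw [h.a₆]; simp only [Prod.fst_neg, Prod.snd_neg, kC6, qC6]; ring
  · convert h.hD using 1
    simp only [Prod.fst_neg, Prod.snd_neg, kD, qQ]; ring

theorem ptS_neg {z : k} (hz : IsPhi z) (h : Fib E w) : ptS hz h.map_neg = -ptS hz h := by
  simp only [ptS, Affine.Point.neg_some, Affine.Point.some.injEq, Affine.negY, h.a₁, h.a₃,
    zero_mul, sub_zero, Prod.fst_neg, Prod.snd_neg, qXS, qYS]
  constructor <;> ring

theorem ptR_H {z : k} (hz : IsPhi z) (h : Fib E w) : ptR (h.map_H hz) = ptS hz h := by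
  have e := ptS_H hz (h.map_H hz)
  rw [ptS_congr (hz' := hz) (h' := h.map_neg) rfl (gH_gH hz w), ptS_neg hz h] at e
  exact (neg_inj.mp e).symm

theorem five_zsmul_ptR {z : k} (hz : IsPhi z) (h : Fib E w) : (5 : ℤ) • ptR h = 0 := by
  have := five_zsmul_ptS hz (h.map_H hz)
  rwa [ptS_H, smul_neg, neg_eq_zero] at this

omit [DecidableEq k] in
theorem Fib.map_W (h : Fib E w) : Fib E (gW w) := by
  refine ⟨h.a₁, h.a₂, h.a₃, ?_, ?_, ?_⟩
  · rw [h.a₄]; simp only [gW_apply, kC4, qC4]; ring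
  · rw [h.a₆]; simp only [gW_apply, kC6, qC6]; ring
  · convert h.hD using 1
    simp only [gW_apply, kD, qQ]; ring

omit [DecidableEq k] [CharZero k] in
theorem kK_W (w : k × k) : kK (gW w) = gW (kK w) := by
  refine Prod.ext ?_ ?_ <;> simp only [gW_apply, kK, kKu, kKv] <;> ring

theorem ptS_W {z : k} (hz : IsPhi z) (h : Fib E w) :
    ptS hz h.map_W = (-2 : ℤ) • ptS hz h := by
  rw [neg_smul, ← smul_neg, ← ptS_pow_four hz h, two_zsmul, ptS_add_self]
  have e3 : (z ^ 4) ^ 2 = z ^ 3 := by linear_combination (z ^ 3) * hz.pow_five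
  simp only [ptS, Affine.Point.some.injEq, gW_apply, e3]
  rw [show (-w.1) ^ 5 = -(w.1 ^ 5) by ring]
  exact ⟨qXS_W hz _ _, qYS_W hz _ _⟩

theorem ptR_W {z : k} (hz : IsPhi z) (h : Fib E w) : ptR h.map_W = (2 : ℤ) • ptR h := by
  have e : gH z (gW w) = -(gW (gH z w)) := by
    refine Prod.ext ?_ ?_ <;> simp only [gH_apply, gW_apply, Prod.fst_neg, Prod.snd_neg] <;> ring
  have e1 := ptS_H hz h.map_W
  rw [ptS_congr (hz' := hz) (h' := (h.map_H hz).map_W.map_neg) rfl e, ptS_neg hz (h.map_H hz).map_W,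
    ptS_W hz (h.map_H hz), ptS_H hz h, neg_inj] at e1
  rw [← e1, neg_smul, smul_neg, neg_neg]

omit [DecidableEq k] in
theorem Fib.map_Z {z : k} (hz : IsPhi z) (h : Fib E w) : Fib E (gZ z w) := by
  have e : (z * w.1) ^ 5 = w.1 ^ 5 := by rw [mul_pow, hz.pow_five, one_mul]
  refine ⟨h.a₁, h.a₂, h.a₃, ?_, ?_, ?_⟩
  · rw [h.a₄]; simp only [gZ_apply, kC4, e]
  · rw [h.a₆]; simp only [gZ_apply, kC6, e]
  · simp only [gZ_apply, kD, e]
    exact mul_ne_zero (mul_ne_zero (mul_ne_zero hz.ne_zero h.fst_ne_zero) h.snd_ne_zero)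
      h.qQ_ne_zero

omit [DecidableEq k] [CharZero k] in
theorem kK_Z {z : k} (hz : IsPhi z) (w : k × k) : kK (gZ z w) = gZ z (kK w) := by
  have e : (z * w.1) ^ 5 = w.1 ^ 5 := by rw [mul_pow, hz.pow_five, one_mul]
  refine Prod.ext ?_ ?_ <;> simp only [gZ_apply, kK, kKu, kKv, e]
  · ring

theorem ptS_Z {z : k} (hz : IsPhi z) (h : Fib E w) : ptS hz (h.map_Z hz) = ptS hz h := by
  simp only [ptS, gZ_apply, mul_pow, hz.pow_five, one_mul]

theorem ptR_Z {z : k} (hz : IsPhi z) (h : Fib E w) :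
    ptR (h.map_Z hz) = ptR h + ptS hz h := by
  have hx := (kXR_ne_qXS hz h).1
  have hsl : E.slope (kXR w.1 w.2) (qXS z (w.1 ^ 5) (w.2 ^ 5)) (kYR w.1 w.2)
      (qYS z (w.1 ^ 5) (w.2 ^ 5)) = kM z w.1 w.2 := by
    rw [Affine.slope_of_X_ne hx, div_eq_iff (sub_ne_zero.mpr hx)]
    linear_combination -kM_spec hz w.1 w.2
  rw [ptS, ptR, ptR, Affine.Point.add_of_X_ne hx, Affine.Point.some.injEq, hsl]
  have e1 := kXR_Z hz w.1 w.2
  have e2 := kYR_Z hz w.1 w.2
  refine ⟨?_, ?_⟩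
  · simp only [gZ_apply, Affine.addX, h.a₁, h.a₂]
    linear_combination e1
  · simp only [gZ_apply, Affine.addY, Affine.negY, Affine.negAddY, Affine.addX, h.a₁, h.a₂, h.a₃]
    linear_combination e2 - kM z w.1 w.2 * e1

end Fermat.Agent.Switch.Klein
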