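/-
The two sections form a basis of the five-torsion, and any two parameters of the same curve differ
by a linear map commuting with `J∇D` which acts on the sections by constant integer matrices.
-/
import Fermat.Agent.Switch.KleinPoints
import Fermat.Agent.EC.Torsion.Count
import Mathlib.FieldTheory.IsAlgClosed.Basic
import Mathlib.Data.ZMod.Basic
import Mathlib.Algebra.Field.ZMod
import Mathlib.Tactic.IntervalCases
import Mathlib.Tactic.Module

set_option autoImplicit false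
set_option linter.unusedSectionVars false

namespace Fermat.Agent.Switch.Klein

open WeierstrassCurve

variable {k : Type*} [Field k] [CharZero k] [DecidableEq k]
variable {E : WeierstrassCurve.Affine k} {w w' : k × k} {z : k}

omit [CharZero k] in
theorem zsmul_congr_five {A : Type*} [AddCommGroup A] {P : A} (hP : (5 : ℤ) • P = 0) {m n : ℤ}
    (h : (m : ZMod 5) = (n : ZMod 5)) : m • P = n • P := by
  obtain ⟨c, hc⟩ := (ZMod.intCast_eq_intCast_iff_dvd_sub m n 5).mp h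
  rw [show n = m + c * 5 by push_cast at hc; linarith, add_smul, mul_smul, hP, smul_zero, add_zero]

theorem ptR_ne (hz : IsPhi z) (h : Fib E w) (m : ℤ) : ptR h ≠ m • ptS hz h := by
  have hx := kXR_ne_qXS hz h
  obtain ⟨r, hr, hm⟩ : ∃ r : ℤ, (r = 0 ∨ r = 1 ∨ r = -1 ∨ r = 2 ∨ r = -2) ∧
      (m : ZMod 5) = (r : ZMod 5) := by
    generalize (m : ZMod 5) = x
    fin_cases x
    · exact ⟨0, by simp, rfl⟩
    · exact ⟨1, by simp, rfl⟩
    · exact ⟨2, by simp, rfl⟩
    · exact ⟨-2, by simp, rfl⟩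
    · exact ⟨-1, by simp, rfl⟩
  rw [zsmul_congr_five (five_zsmul_ptS hz h) hm]
  rcases hr with rfl | rfl | rfl | rfl | rfl
  · rw [zero_smul]; exact Affine.Point.some_ne_zero _
  · rw [one_smul]; intro e; exact hx.1 (Affine.Point.some.inj e).1
  · rw [neg_one_zsmul]; intro e
    rw [ptS, Affine.Point.neg_some] at e
    exact hx.1 (Affine.Point.some.inj e).1
  · rw [two_zsmul, ptS_add_self]; intro e; exact hx.2 (Affine.Point.some.inj e).1
  · rw [neg_smul, two_zsmul, ptS_add_self]; intro e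
    rw [ptS, Affine.Point.neg_some] at e
    exact hx.2 (Affine.Point.some.inj e).1

theorem dvd_of_combination_eq_zero (hz : IsPhi z) (h : Fib E w) {i j : ℤ}
    (e : i • ptR h + j • ptS hz h = 0) : (i : ZMod 5) = 0 ∧ (j : ZMod 5) = 0 := by
  have hi : (i : ZMod 5) = 0 := by
    by_contra hi
    have : Fact (Nat.Prime 5) := ⟨by decide⟩
    obtain ⟨a, ha⟩ := ZMod.intCast_surjective ((i : ZMod 5)⁻¹)
    have h1 : ((a * i : ℤ) : ZMod 5) = ((1 : ℤ) : ZMod 5) := by
      push_cast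
      rw [ha, inv_mul_cancel₀ hi]
    apply ptR_ne hz h (-(a * j))
    have e' := congrArg (fun P => a • P) e
    simp only [smul_add, smul_smul, smul_zero] at e'
    rw [zsmul_congr_five (five_zsmul_ptR hz h) h1, one_smul] at e'
    rw [neg_smul]
    exact eq_neg_of_add_eq_zero_left e'
  refine ⟨hi, ?_⟩
  by_contra hj
  have : Fact (Nat.Prime 5) := ⟨by decide⟩
  obtain ⟨a, ha⟩ := ZMod.intCast_surjective ((j : ZMod 5)⁻¹)
  have h1 : ((a * j : ℤ) : ZMod 5) = ((1 : ℤ) : ZMod 5) := by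
    push_cast
    rw [ha, inv_mul_cancel₀ hj]
  apply ptS_ne_zero hz h
  rw [zsmul_congr_five (five_zsmul_ptR hz h) (hi.trans Int.cast_zero.symm), zero_smul,
    zero_add] at e
  have e' := congrArg (fun P => a • P) e
  simp only [smul_smul, smul_zero] at e'
  rwa [zsmul_congr_five (five_zsmul_ptS hz h) h1, one_smul] at e'

/-- the five-torsion of a curve -/
abbrev Five (E : WeierstrassCurve.Affine k) : Submodule ℤ E.Point :=
  Submodule.torsionBy ℤ E.Point ((5 : ℕ) : ℤ)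

/-- `(i, j) ↦ i R + j S`. -/
noncomputable def pairHom (hz : IsPhi z) (h : Fib E w) : ZMod 5 × ZMod 5 →+ Five E :=
  (ZMod.lift 5 ⟨zmultiplesHom (Five E) ⟨ptR h, by
      rw [Submodule.mem_torsionBy_iff]; exact five_zsmul_ptR hz h⟩, by
      apply Subtype.ext
      simpa using five_zsmul_ptR hz h⟩).coprod
  (ZMod.lift 5 ⟨zmultiplesHom (Five E) ⟨ptS hz h, by
      rw [Submodule.mem_torsionBy_iff]; exact five_zsmul_ptS hz h⟩, by
      apply Subtype.ext
      simpa using five_zsmul_ptS hz h⟩)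

theorem coe_pairHom (hz : IsPhi z) (h : Fib E w) (i j : ℤ) :
    (pairHom hz h ((i : ZMod 5), (j : ZMod 5)) : E.Point) = i • ptR h + j • ptS hz h := by
  simp [pairHom]

theorem pairHom_injective (hz : IsPhi z) (h : Fib E w) : Function.Injective (pairHom hz h) := by
  rw [injective_iff_map_eq_zero]
  rintro ⟨x, y⟩ e
  obtain ⟨i, rfl⟩ := ZMod.intCast_surjective x
  obtain ⟨j, rfl⟩ := ZMod.intCast_surjective y
  have := congrArg Subtype.val e
  rw [coe_pairHom, ZeroMemClass.coe_zero] at this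
  exact Prod.ext (dvd_of_combination_eq_zero hz h this).1 (dvd_of_combination_eq_zero hz h this).2

theorem pairHom_bijective [IsAlgClosed k] (hz : IsPhi z) (h : Fib E w) :
    Function.Bijective (pairHom hz h) := by
  have : E.IsElliptic := ⟨isUnit_iff_ne_zero.mpr h.Δ_ne_zero⟩
  have hc : Nat.card (Five E) = 5 ^ 2 :=
    Fermat.Agent.EC.natCard_torsionBy E (by norm_num)
  have : Finite (Five E) := Nat.finite_of_card_ne_zero (by rw [hc]; norm_num)
  rw [Nat.bijective_iff_injective_and_card]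
  refine ⟨pairHom_injective hz h, ?_⟩
  rw [hc, Nat.card_prod, Nat.card_zmod]
  norm_num

theorem exists_combination [IsAlgClosed k] (hz : IsPhi z) (h : Fib E w) {P : E.Point}
    (hP : (5 : ℤ) • P = 0) : ∃ i j : ℤ, P = i • ptR h + j • ptS hz h := by
  obtain ⟨⟨x, y⟩, e⟩ := (pairHom_bijective hz h).2 ⟨P, by
    rw [Submodule.mem_torsionBy_iff]; exact hP⟩
  obtain ⟨i, rfl⟩ := ZMod.intCast_surjective x
  obtain ⟨j, rfl⟩ := ZMod.intCast_surjective y
  refine ⟨i, j, ?_⟩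
  rw [← coe_pairHom hz h i j, e]

/-- A linear map commuting with `J∇D` and acting on the two sections by a constant matrix. -/
def IsGood (hz : IsPhi z) (g : (k × k) →ₗ[k] (k × k)) : Prop :=
  (∀ v, kK (g v) = g (kK v)) ∧ ∃ a b c d : ℤ, ∀ (E : WeierstrassCurve.Affine k) (w : k × k)
    (h : Fib E w), ∃ h' : Fib E (g w), ptR h' = a • ptR h + c • ptS hz h ∧
      ptS hz h' = b • ptR h + d • ptS hz h

theorem IsGood.comp {hz : IsPhi z} {g g' : (k × k) →ₗ[k] (k × k)} (hg : IsGood hz g)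
    (hg' : IsGood hz g') : IsGood hz (g ∘ₗ g') := by
  obtain ⟨hK, a, b, c, d, H⟩ := hg
  obtain ⟨hK', a', b', c', d', H'⟩ := hg'
  refine ⟨fun v => by simp only [LinearMap.comp_apply, hK, hK'],
    a * a' + c * b', b * a' + d * b', a * c' + c * d', b * c' + d * d', fun E w h => ?_⟩
  obtain ⟨h', e1, e2⟩ := H' E w h
  obtain ⟨h'', f1, f2⟩ := H E (g' w) h'
  refine ⟨h'', ?_, ?_⟩
  · rw [f1, e1, e2]; module
  · rw [f2, e1, e2]; module

theorem isGood_id (hz : IsPhi z) : IsGood hz (LinearMap.id : (k × k) →ₗ[k] (k × k)) :=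
  ⟨fun _ => rfl, 1, 0, 0, 1, fun _ _ h => ⟨h, by module, by module⟩⟩

theorem isGood_H (hz : IsPhi z) : IsGood hz (gH z) :=
  ⟨kK_H hz, 0, -1, 1, 0, fun _ _ h => ⟨h.map_H hz, by rw [ptR_H hz h]; module,
    by rw [ptS_H hz h]; module⟩⟩

theorem isGood_W (hz : IsPhi z) : IsGood hz (gW : (k × k) →ₗ[k] (k × k)) :=
  ⟨kK_W, 2, 0, 0, -2, fun _ _ h => ⟨h.map_W, by rw [ptR_W hz h]; module,
    by rw [ptS_W hz h]; module⟩⟩

theorem isGood_Z (hz : IsPhi z) : IsGood hz (gZ z) :=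
  ⟨kK_Z hz, 1, 0, 1, 1, fun _ _ h => ⟨h.map_Z hz, by rw [ptR_Z hz h]; module,
    by rw [ptS_Z hz h]; module⟩⟩

theorem isGood_smul (hz : IsPhi z) {c : k} (hc : c ^ 5 = 1) :
    IsGood hz (c • (LinearMap.id : (k × k) →ₗ[k] (k × k))) := by
  have hc0 : c ≠ 0 := fun e => by simp [e] at hc
  refine ⟨fun v => ?_, 1, 0, 0, 1, fun E w h => ?_⟩
  · refine Prod.ext ?_ ?_ <;> simp only [kK, LinearMap.smul_apply, LinearMap.id_coe, id_eq,
      Prod.smul_fst, Prod.smul_snd, smul_eq_mul, kKu, kKv, mul_pow, hc, one_mul] <;> ring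
  have h' : Fib E (c • w) := by
    refine ⟨h.a₁, h.a₂, h.a₃, ?_, ?_, ?_⟩
    · rw [h.a₄]; simp only [kC4, Prod.smul_fst, Prod.smul_snd, smul_eq_mul, mul_pow, hc, one_mul]
    · rw [h.a₆]; simp only [kC6, Prod.smul_fst, Prod.smul_snd, smul_eq_mul, mul_pow, hc, one_mul]
    · simp only [kD, Prod.smul_fst, Prod.smul_snd, smul_eq_mul, mul_pow, hc, one_mul]
      exact mul_ne_zero (mul_ne_zero (mul_ne_zero hc0 h.fst_ne_zero)
        (mul_ne_zero hc0 h.snd_ne_zero)) h.qQ_ne_zero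
  refine ⟨h', ?_, ?_⟩
  · rw [one_smul, zero_smul, add_zero]
    show ptR h' = ptR h
    simp only [ptR, Affine.Point.some.injEq, Prod.smul_fst, Prod.smul_snd, smul_eq_mul]
    have e10 : c ^ 10 = 1 := by linear_combination (c ^ 5 + 1) * hc
    have e15 : c ^ 15 = 1 := by linear_combination (c ^ 10 + c ^ 5 + 1) * hc
    constructor
    · rw [show kXR (c * w.1) (c * w.2) = c ^ 10 * kXR w.1 w.2 by simp only [kXR]; ring, e10, one_mul]
    · rw [show kYR (c * w.1) (c * w.2) = c ^ 15 * kYR w.1 w.2 by simp only [kYR]; ring, e15, one_mul]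
  · rw [one_smul, zero_smul, zero_add]
    show ptS hz h' = ptS hz h
    simp only [ptS, Prod.smul_fst, Prod.smul_snd, smul_eq_mul, mul_pow, hc, one_mul]

theorem iterate_W (hz : IsPhi z) : ∀ n : ℕ, ∃ g, IsGood hz g ∧
    ∀ (E : WeierstrassCurve.Affine k) (w : k × k) (h : Fib E w), ∃ h' : Fib E (g w),
      ptR h' = (2 : ℤ) ^ n • ptR h ∧ ptS hz h' = (-2 : ℤ) ^ n • ptS hz h := by
  intro n
  induction n with
  | zero => exact ⟨_, isGood_id hz, fun _ _ h => ⟨h, by simp, by simp⟩⟩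
  | succ n ih =>
    obtain ⟨g, hg, H⟩ := ih
    refine ⟨_, (isGood_W hz).comp hg, fun E w h => ?_⟩
    obtain ⟨h', e1, e2⟩ := H E w h
    refine ⟨h'.map_W, (ptR_W hz h').trans ?_, (ptS_W hz h').trans ?_⟩
    · rw [e1, smul_smul, pow_succ']
    · rw [e2, smul_smul, pow_succ']

theorem iterate_Z (hz : IsPhi z) : ∀ n : ℕ, ∃ g, IsGood hz g ∧ (∀ v : k × k, g v = (z ^ n * v.1, v.2)) ∧
    ∀ (E : WeierstrassCurve.Affine k) (w : k × k) (h : Fib E w), ∃ h' : Fib E (g w),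
      ptR h' = ptR h + (n : ℤ) • ptS hz h ∧ ptS hz h' = ptS hz h := by
  intro n
  induction n with
  | zero => exact ⟨_, isGood_id hz, fun v => by simp, fun _ _ h => ⟨h, by simp, rfl⟩⟩
  | succ n ih =>
    obtain ⟨g, hg, hv, H⟩ := ih
    refine ⟨_, (isGood_Z hz).comp hg, fun v => ?_, fun E w h => ?_⟩
    · rw [LinearMap.comp_apply, hv, gZ_apply, ← mul_assoc, pow_succ']
    obtain ⟨h', e1, e2⟩ := H E w h
    refine ⟨h'.map_Z hz, (ptR_Z hz h').trans ?_, (ptS_Z hz h').trans e2⟩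
    rw [e1, e2, Nat.cast_succ]; module

theorem exists_good_ptS (hz : IsPhi z) (i j : ℤ) (hij : ((i : ZMod 5), (j : ZMod 5)) ≠ 0) :
    ∃ g, IsGood hz g ∧ ∀ (E : WeierstrassCurve.Affine k) (w : k × k) (h : Fib E w),
      ∃ h' : Fib E (g w), ptS hz h' = i • ptR h + j • ptS hz h := by
  have key : ∀ x y : ZMod 5, (x, y) ≠ 0 → (x = 0 ∧ ∃ e : Fin 4, (-2 : ZMod 5) ^ (e : ℕ) = y) ∨
      ∃ e : Fin 4, ∃ n : Fin 5, -((2 : ZMod 5) ^ (e : ℕ)) = x ∧
        -((2 : ZMod 5) ^ (e : ℕ) * (n : ℕ)) = y := by decide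
  rcases key _ _ hij with ⟨hi, e, he⟩ | ⟨e, n, hi, hj⟩
  · obtain ⟨g, hg, H⟩ := iterate_W hz e
    refine ⟨g, hg, fun E w h => ?_⟩
    obtain ⟨h', -, e2⟩ := H E w h
    refine ⟨h', e2.trans ?_⟩
    rw [zsmul_congr_five (five_zsmul_ptR hz h) (hi.trans Int.cast_zero.symm), zero_smul, zero_add]
    exact zsmul_congr_five (five_zsmul_ptS hz h) (by push_cast; exact he)
  · obtain ⟨g, hg, H⟩ := iterate_W hz e
    obtain ⟨g', hg', -, H'⟩ := iterate_Z hz n
    refine ⟨_, ((isGood_H hz).comp hg).comp hg', fun E w h => ?_⟩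
    obtain ⟨h', a1, a2⟩ := H' E w h
    obtain ⟨h'', b1, b2⟩ := H E (g' w) h'
    refine ⟨h''.map_H hz, (ptS_H hz h'').trans ?_⟩
    rw [b1, a1, smul_add, smul_smul, neg_add, ← neg_smul, ← neg_smul]
    congr 1
    · exact zsmul_congr_five (five_zsmul_ptR hz h) (by push_cast; exact hi)
    · exact zsmul_congr_five (five_zsmul_ptS hz h) (by push_cast; exact hj)

/-- Equal cyclotomic sections on the same curve force equal fifth powers. -/
theorem pow_five_eq_of_ptS (hz : IsPhi z) {h : Fib E w} {h' : Fib E w'}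
    (e : ptS hz h = ptS hz h') : w.1 ^ 5 = w'.1 ^ 5 ∧ w.2 ^ 5 = w'.2 ^ 5 := by
  have e2 : ptS hz.sq h = ptS hz.sq h' := by
    rw [← ptS_add_self hz h, ← ptS_add_self hz h', e]
  have hc : kC4 w.1 w.2 = kC4 w'.1 w'.2 := by
    have := h.a₄.symm.trans h'.a₄
    linear_combination ((-1 : k) / 27) * this
  have slope : ∀ {r : k} (hr : IsPhi r), ptS hr h = ptS hr h' →
      qLS r (w.1 ^ 5) (w.2 ^ 5) = qLS r (w'.1 ^ 5) (w'.2 ^ 5) := by
    intro r hr er
    obtain ⟨ex, ey⟩ := Affine.Point.some.inj er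
    refine mul_left_cancel₀ (qYS_ne_zero hr h) ?_
    have a1 := qLS_spec hr (w.1 ^ 5) (w.2 ^ 5)
    have a2 := qLS_spec hr (w'.1 ^ 5) (w'.2 ^ 5)
    rw [← ex, ← ey] at a2
    simp only [kC4] at hc
    linear_combination ((-1 : k) / 2) * a1 + ((1 : k) / 2) * a2 - ((27 : k) / 2) * hc
  have l1 := slope hz e
  have l2 := slope hz.sq e2
  constructor
  · rw [qLS_solve_left hz (w.1 ^ 5) (w.2 ^ 5), qLS_solve_left hz (w'.1 ^ 5) (w'.2 ^ 5), l1, l2]
  · rw [qLS_solve_right hz (w.1 ^ 5) (w.2 ^ 5), qLS_solve_right hz (w'.1 ^ 5) (w'.2 ^ 5), l1, l2]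

theorem exists_pow_of_pow_five (hz : IsPhi z) {r : k} (hr : r ^ 5 = 1) : ∃ n : ℕ, z ^ n = r := by
  by_cases h1 : r = 1
  · exact ⟨0, by rw [h1, pow_zero]⟩
  have : IsPhi r := by
    refine (mul_eq_zero.mp (show (r - 1) * (r ^ 4 + r ^ 3 + r ^ 2 + r + 1) = 0 by
      linear_combination hr)).resolve_left (sub_ne_zero.mpr h1)
  rcases hz.cases this with e | e | e | e
  · exact ⟨1, by rw [e, pow_one]⟩
  · exact ⟨2, e.symm⟩
  · exact ⟨3, e.symm⟩
  · exact ⟨4, e.symm⟩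

/-- Any two parameters of the same curve differ by a good map. -/
theorem exists_good_map [IsAlgClosed k] (hz : IsPhi z) (h : Fib E w) (h' : Fib E w') :
    ∃ g, IsGood hz g ∧ g w = w' := by
  obtain ⟨i, j, e⟩ := exists_combination hz h (five_zsmul_ptS hz h')
  obtain ⟨g, hg, H⟩ := exists_good_ptS hz i j (fun e0 => ptS_ne_zero hz h' (by
    obtain ⟨ei, ej⟩ := Prod.ext_iff.mp e0
    rw [e, zsmul_congr_five (five_zsmul_ptR hz h) (ei.trans Int.cast_zero.symm),
      zsmul_congr_five (five_zsmul_ptS hz h) (ej.trans Int.cast_zero.symm)]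
    simp))
  obtain ⟨h'', e''⟩ := H E w h
  obtain ⟨e1, e2⟩ := pow_five_eq_of_ptS hz (e''.trans e.symm)
  have hu := h''.fst_ne_zero
  have hv := h''.snd_ne_zero
  set c := w'.2 / (g w).2
  set d := w'.1 / (g w).1
  have hd : d ^ 5 = 1 := by rw [div_pow, e1, div_self (pow_ne_zero _ h'.fst_ne_zero)]
  have hc : c ^ 5 = 1 := by rw [div_pow, e2, div_self (pow_ne_zero _ h'.snd_ne_zero)]
  have hc0 : c ≠ 0 := div_ne_zero h'.snd_ne_zero hv
  obtain ⟨n, hn⟩ := exists_pow_of_pow_five hz (show (d / c) ^ 5 = 1 by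
    rw [div_pow, hd, hc, div_one])
  obtain ⟨g', hg', hv', -⟩ := iterate_Z hz n
  refine ⟨_, ((isGood_smul hz hc).comp hg').comp hg, ?_⟩
  simp only [LinearMap.comp_apply, hv', LinearMap.smul_apply, LinearMap.id_coe, id_eq]
  refine Prod.ext ?_ ?_
  · show c * (z ^ n * (g w).1) = w'.1
    rw [hn, ← mul_assoc, mul_div_cancel₀ _ hc0, div_mul_cancel₀ _ hu]
  · show c * (g w).2 = w'.2
    rw [div_mul_cancel₀ _ hv]

end Fermat.Agent.Switch.Klein
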