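/-
The members of the twisted family have the same five-torsion, as Galois modules, as the curve they
are built from.
-/
import Fermat.Agent.Switch.KleinFrame
import Fermat.Agent.Switch.KleinCovC6
import Fermat.Agent.EC.Det.Transport
import Fermat.Prelude.Def_FLTPrelim_GaloisRep
import Mathlib.RingTheory.Polynomial.Cyclotomic.Roots
import Mathlib.FieldTheory.IsAlgClosed.AlgebraicClosure

set_option autoImplicit false
set_option linter.unusedSectionVars false

namespace Fermat.Agent.Switch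

open WeierstrassCurve Klein Polynomial
open scoped WeierstrassCurve.Affine

section Fibre

variable {k : Type*} [Field k] [CharZero k] [IsAlgClosed k]

theorem exists_isPhi : ∃ z : k, IsPhi z := by
  obtain ⟨z, hz⟩ := IsAlgClosed.exists_root (cyclotomic 5 k)
    (degree_cyclotomic_pos 5 k (by norm_num)).ne'
  have : Fact (Nat.Prime 5) := ⟨by decide⟩
  refine ⟨z, ?_⟩
  rw [IsRoot, cyclotomic_prime, eval_finsetSum] at hz
  simp only [Finset.sum_range_succ, Finset.sum_range_zero, eval_pow, eval_X, zero_add, pow_zero,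
    pow_one] at hz
  unfold IsPhi
  linear_combination hz

/-- Every `(c₄, c₆)` of nonzero discriminant occurs on Klein's curve. -/
theorem exists_klein_param {a b : k} (hab : a ^ 3 ≠ b ^ 2) :
    ∃ u v : k, kC4 u v = a ∧ kC6 u v = b ∧ kD u v ≠ 0 := by
  set P : k[X] := C (a ^ 3) * qC6 X 1 ^ 2 - C (b ^ 2) * qC4 X 1 ^ 3 with hP
  have hPe : ∀ x : k, P.eval x = a ^ 3 * qC6 x 1 ^ 2 - b ^ 2 * qC4 x 1 ^ 3 := fun x => by
    simp [hP, qC4, qC6]
  obtain ⟨U, hU⟩ : ∃ U, P.IsRoot U := IsAlgClosed.exists_root P fun hdeg => by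
    have hc := eq_C_of_degree_le_zero hdeg.le
    have e : ∀ x : k, P.eval x = P.coeff 0 := fun x => by rw [hc]; simp
    have e0 := (hPe 0).symm.trans (e 0)
    have e1 := (hPe 1).symm.trans (e 1)
    have e2 := (hPe 2).symm.trans (e 2)
    simp only [qC4, qC6] at e0 e1 e2
    norm_num at e0 e1 e2
    have ha : a ^ 3 = 0 := by
      linear_combination ((244140624 : k) / (400320063 * 244140624 - 33994140624 * 122023935)) *
          (e1 - e0) -
        ((122023935 : k) / (400320063 * 244140624 - 33994140624 * 122023935)) * (e2 - e0)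
    have hb : b ^ 2 = 0 := by
      linear_combination ((33994140624 : k) / (400320063 * 244140624 - 33994140624 * 122023935)) *
          (e1 - e0) -
        ((400320063 : k) / (400320063 * 244140624 - 33994140624 * 122023935)) * (e2 - e0)
    exact hab (ha.trans hb.symm)
  have hU' : a ^ 3 * qC6 U 1 ^ 2 = b ^ 2 * qC4 U 1 ^ 3 := by
    have := hPe U
    rw [hU.eq_zero] at this
    linear_combination -this
  have hnot : qC4 U 1 = 0 → qC6 U 1 ≠ 0 := fun h4 h6 => by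
    have h := qC4_qC6 (k := k) U 1
    rw [h4, h6] at h
    have hq : U * qQ U 1 ^ 5 = 0 := by linear_combination ((-1 : k) / 1728) * h
    rcases mul_eq_zero.mp hq with h0 | h0
    · simp [qC4, h0] at h4
    · have hq0 : qQ U 1 = 0 := (pow_eq_zero_iff (by norm_num)).mp h0
      have : (3125 : k) * U ^ 2 = 0 := by
        have : qC4 U 1 = (-U ^ 2 + 239 * U + 1) * qQ U 1 + 3125 * U ^ 2 := by
          simp only [qC4, qQ]; ring
        rw [h4, hq0] at this
        linear_combination -this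
      have hU0 : U = 0 := by simpa using this
      simp [qC4, hU0] at h4
  obtain ⟨V, hV4, hV6⟩ : ∃ V : k, V ^ 4 * qC4 U 1 = a ∧ V ^ 6 * qC6 U 1 = b := by
    by_cases ha : a = 0
    · have hb : b ≠ 0 := fun hb => hab (by rw [ha, hb]; ring)
      have h4 : qC4 U 1 = 0 := by simpa [ha, hb] using hU'.symm
      obtain ⟨V, hV⟩ := IsAlgClosed.exists_pow_nat_eq (b / qC6 U 1) (show 0 < 6 by norm_num)
      exact ⟨V, by rw [h4, ha, mul_zero], by rw [hV, div_mul_cancel₀ _ (hnot h4)]⟩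
    have h4 : qC4 U 1 ≠ 0 := fun h4 => by
      rw [h4] at hU'
      exact hnot h4 (by simpa [ha] using hU')
    by_cases hb : b = 0
    · have h6 : qC6 U 1 = 0 := by simpa [ha, hb] using hU'
      obtain ⟨V, hV⟩ := IsAlgClosed.exists_pow_nat_eq (a / qC4 U 1) (show 0 < 4 by norm_num)
      exact ⟨V, by rw [hV, div_mul_cancel₀ _ h4], by rw [h6, hb, mul_zero]⟩
    have h6 : qC6 U 1 ≠ 0 := fun h6 => by
      rw [h6] at hU'
      exact h4 (by simpa [hb] using hU'.symm)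
    obtain ⟨V, hV⟩ := IsAlgClosed.exists_pow_nat_eq (b * qC4 U 1 / (a * qC6 U 1))
      (show 0 < 2 by norm_num)
    refine ⟨V, ?_, ?_⟩
    · rw [show V ^ 4 = (V ^ 2) ^ 2 by ring, hV]
      field_simp
      linear_combination -hU'
    · rw [show V ^ 6 = (V ^ 2) ^ 3 by ring, hV]
      field_simp
      linear_combination -hU'
  obtain ⟨v, hv⟩ := IsAlgClosed.exists_pow_nat_eq V (show 0 < 5 by norm_num)
  obtain ⟨u, hu⟩ := IsAlgClosed.exists_pow_nat_eq (U * V) (show 0 < 5 by norm_num)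
  have k4 : kC4 u v = a := by
    rw [kC4, hu, hv, ← hV4]; simp only [qC4]; ring
  have k6 : kC6 u v = b := by
    rw [kC6, hu, hv, ← hV6]; simp only [qC6]; ring
  refine ⟨u, v, k4, k6, fun hD => hab ?_⟩
  have := kC4_cube_sub_kC6_sq u v
  rw [k4, k6, hD] at this
  linear_combination this

end Fibre

/-- `y² = x³ - 27 a x - 54 b`. -/
def shortCurve (a b : ℚ) : WeierstrassCurve ℚ := ⟨0, 0, 0, -27 * a, -54 * b⟩

theorem exists_smul_eq_shortCurve (E : WeierstrassCurve ℚ) :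
    ∃ C : VariableChange ℚ, C • E = shortCurve E.c₄ E.c₆ := by
  refine ⟨⟨Units.mk0 (1 / 6) (by norm_num), -E.b₂ / 12, -E.a₁ / 2,
    -(E.a₁ * (-E.b₂ / 12) + E.a₃) / 2⟩, ?_⟩
  ext <;>
    simp [shortCurve, variableChange_def, WeierstrassCurve.c₄, WeierstrassCurve.c₆,
      WeierstrassCurve.b₂, WeierstrassCurve.b₄, WeierstrassCurve.b₆] <;> ring

local notation "Qbar" => AlgebraicClosure ℚ

namespace Klein

variable {a b : ℚ} {w : Qbar × Qbar}

theorem fib_shortCurve (h4 : kC4 w.1 w.2 = (a : Qbar)) (h6 : kC6 w.1 w.2 = (b : Qbar))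
    (hD : kD w.1 w.2 ≠ 0) : Fib ((shortCurve a b)⁄Qbar : Affine Qbar) w := by
  refine ⟨?_, ?_, ?_, ?_, ?_, hD⟩ <;>
    simp [shortCurve, WeierstrassCurve.baseChange, h4, h6]

/-- componentwise action on parameters -/
noncomputable def galAct (σ : Qbar ≃ₐ[ℚ] Qbar) (w : Qbar × Qbar) : Qbar × Qbar := (σ w.1, σ w.2)

theorem Fib.galois (σ : Qbar ≃ₐ[ℚ] Qbar) (h : Fib ((shortCurve a b)⁄Qbar : Affine Qbar) w) :
    Fib ((shortCurve a b)⁄Qbar : Affine Qbar) (galAct σ w) := by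
  have e4 := congrArg σ h.a₄
  have e6 := congrArg σ h.a₆
  simp only [shortCurve, WeierstrassCurve.baseChange, WeierstrassCurve.map, AlgEquiv.commutes,
    kC4, kC6, qC4, qC6, map_mul, map_add, map_sub, map_pow, map_ofNat] at e4 e6
  refine ⟨h.a₁, h.a₂, h.a₃, ?_, ?_, ?_⟩
  · simpa [galAct, shortCurve, WeierstrassCurve.baseChange, kC4, qC4, map_ofNat] using e4
  · simpa [galAct, shortCurve, WeierstrassCurve.baseChange, kC6, qC6, map_ofNat] using e6
  · have e : σ (kD w.1 w.2) = kD (σ w.1) (σ w.2) := by simp [kD, qQ, map_ofNat]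
    show kD (σ w.1) (σ w.2) ≠ 0
    rw [← e]
    exact σ.map_eq_zero_iff.not.mpr h.hD

theorem smul_ptR (σ : Qbar ≃ₐ[ℚ] Qbar) (h : Fib ((shortCurve a b)⁄Qbar : Affine Qbar) w) :
    σ • ptR h = ptR (h.galois σ) := by
  simp only [ptR, Affine.Point.algEquiv_smul_def, Affine.Point.map_some, Affine.Point.some.injEq,
    galAct]
  constructor <;> simp [kXR, kYR, map_ofNat]

theorem smul_ptS {z : Qbar} (hz : IsPhi z) (σ : Qbar ≃ₐ[ℚ] Qbar)
    (h : Fib ((shortCurve a b)⁄Qbar : Affine Qbar) w) (hσ : IsPhi (σ z)) :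
    σ • ptS hz h = ptS hσ (h.galois σ) := by
  simp only [ptS, Affine.Point.algEquiv_smul_def, Affine.Point.map_some, Affine.Point.some.injEq,
    galAct]
  constructor <;> simp [qXS, qYS, map_ofNat]

theorem smul_pairHom {z : Qbar} (hz : IsPhi z) (σ : Qbar ≃ₐ[ℚ] Qbar)
    (h : Fib ((shortCurve a b)⁄Qbar : Affine Qbar) w) {α β γ δ : ℤ}
    (hR : σ • ptR h = α • ptR h + γ • ptS hz h) (hS : σ • ptS hz h = β • ptR h + δ • ptS hz h)
    (i j : ℤ) :
    σ • (pairHom hz h ((i : ZMod 5), (j : ZMod 5))) =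
      pairHom hz h (((i * α + j * β : ℤ) : ZMod 5), ((i * γ + j * δ : ℤ) : ZMod 5)) := by
  apply Subtype.ext
  show σ • (pairHom hz h ((i : ZMod 5), (j : ZMod 5)) : ((shortCurve a b)⁄Qbar).Point) = _
  rw [coe_pairHom, coe_pairHom, smul_add, Affine.Point.algEquiv_smul_zsmul,
    Affine.Point.algEquiv_smul_zsmul, hR, hS]
  module

theorem ptR_congr {k : Type*} [Field k] [CharZero k] [DecidableEq k]
    {E : WeierstrassCurve.Affine k} {w w' : k × k} {h : Fib E w} {h' : Fib E w'} (e : w = w') :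
    ptR h = ptR h' := by
  subst e; rfl

theorem exists_int_ptS_galois {z r : Qbar} (hz : IsPhi z) (hr : IsPhi r) :
    ∃ m : ℤ, ∀ {a b : ℚ} {w : Qbar × Qbar}
      (h : Fib ((shortCurve a b)⁄Qbar : Affine Qbar) w), ptS hr h = m • ptS hz h := by
  rcases hz.cases hr with e | e | e | e
  · exact ⟨1, fun h => by rw [one_zsmul]; exact ptS_congr e rfl⟩
  · exact ⟨2, fun h => by rw [two_zsmul, ptS_add_self]; exact ptS_congr e rfl⟩
  · refine ⟨-2, fun h => ?_⟩
    rw [neg_smul, ← smul_neg, ← ptS_pow_four hz h, two_zsmul, ptS_add_self]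
    exact ptS_congr (by rw [e]; linear_combination (-z ^ 3) * hz.pow_five) rfl
  · exact ⟨-1, fun h => by rw [neg_one_zsmul, ← ptS_pow_four]; exact ptS_congr e rfl⟩

end Klein

open Klein

theorem exists_shortFive_equiv {a b A B : ℚ} (hab : a ^ 3 ≠ b ^ 2) (hb : b ≠ 0) {s t : ℚ}
    (hs : s ≠ 0) (hAB : A ^ 3 ≠ B ^ 2) (hA : A = fiveC4 a b s t) (hB : B = fiveC6 a b s t) :
    ∃ φ : Submodule.torsionBy ℤ ((shortCurve a b)⁄Qbar).Point (5 : ℕ) ≃ₗ[ZMod 5]
        Submodule.torsionBy ℤ ((shortCurve A B)⁄Qbar).Point (5 : ℕ),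
      ∀ (σ : Qbar ≃ₐ[ℚ] Qbar) P, φ (σ • P) = σ • φ P := by
  obtain ⟨z, hz⟩ := exists_isPhi (k := Qbar)
  obtain ⟨u, v, h4, h6, hD⟩ := exists_klein_param (k := Qbar) (a := (a : Qbar)) (b := (b : Qbar))
    (by exact_mod_cast hab)
  set w₀ : Qbar × Qbar := (u, v)
  set w₁ : Qbar × Qbar := (s : Qbar) • w₀ + (t : Qbar) • kK w₀ with hw₁
  have h0 : Fib ((shortCurve a b)⁄Qbar : Affine Qbar) w₀ := fib_shortCurve h4 h6 hD
  have k4 : kC4 w₁.1 w₁.2 = (A : Qbar) := by
    simp only [hw₁, w₀, kK, Prod.fst_add, Prod.snd_add, Prod.smul_fst, Prod.smul_snd, smul_eq_mul]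
    rw [kC4_pencil hD, h4, h6, hA]
    exact (map_fiveC4 (Rat.castHom Qbar) a b s t).symm
  have k6 : kC6 w₁.1 w₁.2 = (B : Qbar) := by
    simp only [hw₁, w₀, kK, Prod.fst_add, Prod.snd_add, Prod.smul_fst, Prod.smul_snd, smul_eq_mul]
    rw [kC6_pencil hD (by exact_mod_cast hs) (by rw [h6]; exact_mod_cast hb), h4, h6, hB]
    exact (map_fiveC6 (Rat.castHom Qbar) a b s t).symm
  have h1 : Fib ((shortCurve A B)⁄Qbar : Affine Qbar) w₁ := by
    refine fib_shortCurve k4 k6 fun hD1 => hAB ?_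
    have := kC4_cube_sub_kC6_sq w₁.1 w₁.2
    rw [k4, k6, hD1] at this
    have e : ((A ^ 3 : ℚ) : Qbar) = ((B ^ 2 : ℚ) : Qbar) := by
      push_cast; linear_combination this
    exact_mod_cast e
  refine ⟨((AddEquiv.ofBijective _ (pairHom_bijective hz h0)).symm.trans
      (AddEquiv.ofBijective _ (pairHom_bijective hz h1))).toLinearEquiv
      (fun c P => ZMod.map_smul (AddEquiv.toAddMonoidHom _) c P), fun σ P => ?_⟩
  obtain ⟨⟨x, y⟩, rfl⟩ := (pairHom_bijective hz h0).2 P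
  obtain ⟨i, rfl⟩ := ZMod.intCast_surjective x
  obtain ⟨j, rfl⟩ := ZMod.intCast_surjective y
  obtain ⟨g, ⟨hK, α, β, γ, δ, Hg⟩, hgw⟩ := exists_good_map hz h0 (h0.galois σ)
  have hσz : IsPhi (σ z) := by
    have hz' : z ^ 4 + z ^ 3 + z ^ 2 + z + 1 = 0 := hz
    have e := congrArg σ hz'
    simp only [map_add, map_pow, map_one, map_zero] at e
    exact e
  obtain ⟨g0, f1, f2⟩ := Hg _ w₀ h0
  obtain ⟨g1, f3, f4⟩ := Hg _ w₁ h1
  have hg1 : g w₁ = galAct σ w₁ := by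
    rw [hw₁, map_add, map_smul, map_smul, ← hK, hgw]
    refine Prod.ext ?_ ?_ <;> simp [galAct, kK, w₀, kKu, kKv, map_ofNat]
  obtain ⟨m, hm⟩ : ∃ m : ℤ, ∀ {a b : ℚ} {w : Qbar × Qbar}
      (h : Fib ((shortCurve a b)⁄Qbar : Affine Qbar) w), ptS hσz h = m • ptS hz h :=
    exists_int_ptS_galois hz hσz
  have R0 : σ • ptR h0 = α • ptR h0 + γ • ptS hz h0 := by
    rw [smul_ptR, ← f1]; exact ptR_congr hgw.symm
  have S0 : σ • ptS hz h0 = (m * β) • ptR h0 + (m * δ) • ptS hz h0 := by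
    rw [smul_ptS hz σ h0 hσz, hm, ptS_congr (hz' := hz) (h' := g0) rfl hgw.symm, f2]
    module
  have R1 : σ • ptR h1 = α • ptR h1 + γ • ptS hz h1 := by
    rw [smul_ptR, ← f3]; exact ptR_congr hg1.symm
  have S1 : σ • ptS hz h1 = (m * β) • ptR h1 + (m * δ) • ptS hz h1 := by
    rw [smul_ptS hz σ h1 hσz, hm, ptS_congr (hz' := hz) (h' := g1) rfl hg1.symm, f4]
    module
  have hφ : ∀ v, (AddEquiv.ofBijective _ (pairHom_bijective hz h1))
      ((AddEquiv.ofBijective _ (pairHom_bijective hz h0)).symm (pairHom hz h0 v)) =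
        pairHom hz h1 v := fun v => by
    rw [show (AddEquiv.ofBijective _ (pairHom_bijective hz h0)).symm (pairHom hz h0 v) = v from
      (AddEquiv.ofBijective _ (pairHom_bijective hz h0)).symm_apply_apply v]
    rfl
  rw [smul_pairHom hz σ h0 R0 S0]
  refine (hφ _).trans ?_
  refine Eq.trans ?_ (congrArg (σ • ·) (hφ _).symm)
  exact (smul_pairHom hz σ h1 R1 S1 i j).symm

/-- Curves of the twisted family have isomorphic five-torsion as Galois modules. -/
theorem exists_torsionFive_equiv (E E' : WeierstrassCurve ℚ) (hΔ : E.Δ ≠ 0) (hΔ' : E'.Δ ≠ 0)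
    (s t : ℚ) (hs : s ≠ 0) (hc6 : E.c₆ ≠ 0) (h4 : E'.c₄ = fiveC4 E.c₄ E.c₆ s t)
    (h6 : E'.c₆ = fiveC6 E.c₄ E.c₆ s t) :
    ∃ φ : Submodule.torsionBy ℤ (E⁄Qbar).Point (5 : ℕ) ≃ₗ[ZMod 5]
        Submodule.torsionBy ℤ (E'⁄Qbar).Point (5 : ℕ),
      ∀ (σ : Qbar ≃ₐ[ℚ] Qbar) P, φ (σ • P) = σ • φ P := by
  have hne : ∀ F : WeierstrassCurve ℚ, F.Δ ≠ 0 → F.c₄ ^ 3 ≠ F.c₆ ^ 2 := fun F hF e => by
    have := F.c_relation
    rw [e, sub_self] at this
    exact hF (by simpa using this)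
  obtain ⟨ψ, hψ⟩ := exists_shortFive_equiv (hne E hΔ) hc6 hs (hne E' hΔ') h4 h6
  obtain ⟨C, hC⟩ := exists_smul_eq_shortCurve E
  obtain ⟨C', hC'⟩ := exists_smul_eq_shortCurve E'
  refine ⟨((Fermat.Agent.EC.torsionEquiv (K := Qbar) hC 5).symm.trans ψ).trans
    (Fermat.Agent.EC.torsionEquiv (K := Qbar) hC' 5), fun σ P => ?_⟩
  obtain ⟨P, rfl⟩ := (Fermat.Agent.EC.torsionEquiv (K := Qbar) hC 5).surjective P
  simp only [LinearEquiv.trans_apply, ← Fermat.Agent.EC.torsionEquiv_smul hC,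
    LinearEquiv.symm_apply_apply, hψ, Fermat.Agent.EC.torsionEquiv_smul hC']

end Fermat.Agent.Switch
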