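/-
The one-parameter polynomial family `x = u * X + v`, `y = c` inside the five-torsion family: degrees,
leading coefficients, coprimality and squarefreeness of the discriminant polynomial.
-/
import Fermat.Agent.Switch.Hessian
import Fermat.Agent.Switch.Resultant
import Fermat.Agent.Switch.Syzygy
import Fermat.Agent.Switch.Model
import Mathlib.FieldTheory.Separable
import Mathlib.Tactic.ComputeDegree
import Mathlib.Tactic.FieldSimp

set_option autoImplicit false

namespace Fermat.Agent.Switch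

open Polynomial

section Defs

variable {K : Type*} [CommRing K] (a b u v c : K)

/-- `fiveD` along the line `(u X + v : c)`. -/
noncomputable def fivePolyD : K[X] := fiveD (C a) (C b) (C u * X + C v) (C c)

/-- `fiveC4` along the line `(u X + v : c)`. -/
noncomputable def fivePolyC4 : K[X] := fiveC4 (C a) (C b) (C u * X + C v) (C c)

/-- `fiveC6` along the line `(u X + v : c)`. -/
noncomputable def fivePolyC6 : K[X] := fiveC6 (C a) (C b) (C u * X + C v) (C c)

theorem fivePolyD_eval (t : K) :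
    (fivePolyD a b u v c).eval t = fiveD a b (u * t + v) c := by
  rw [fivePolyD, ← Polynomial.coe_evalRingHom, map_fiveD]
  simp

theorem fivePolyC4_eval (t : K) :
    (fivePolyC4 a b u v c).eval t = fiveC4 a b (u * t + v) c := by
  rw [fivePolyC4, ← Polynomial.coe_evalRingHom, map_fiveC4]
  simp

theorem fivePolyC6_eval (t : K) :
    (fivePolyC6 a b u v c).eval t = fiveC6 a b (u * t + v) c := by
  rw [fivePolyC6, ← Polynomial.coe_evalRingHom, map_fiveC6]
  simp

theorem fivePoly_syzygy :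
    fivePolyC4 a b u v c ^ 3 - fivePolyC6 a b u v c ^ 2 =
      C (a ^ 3 - b ^ 2) * fivePolyD a b u v c ^ 5 := by
  simp only [fivePolyC4, fivePolyC6, fivePolyD, fiveC4_cube_sub_fiveC6_sq, map_sub, map_pow]

theorem map_fivePolyD {L : Type*} [CommRing L] (f : K →+* L) :
    (fivePolyD a b u v c).map f = fivePolyD (f a) (f b) (f u) (f v) (f c) := by
  rw [fivePolyD, ← Polynomial.coe_mapRingHom, map_fiveD]
  simp [fivePolyD]

theorem map_fivePolyC4 {L : Type*} [CommRing L] (f : K →+* L) :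
    (fivePolyC4 a b u v c).map f = fivePolyC4 (f a) (f b) (f u) (f v) (f c) := by
  rw [fivePolyC4, ← Polynomial.coe_mapRingHom, map_fiveC4]
  simp [fivePolyC4]

variable {a b u v c}

theorem natDegree_fivePolyC4_le : (fivePolyC4 a b u v c).natDegree ≤ 20 := by
  unfold fivePolyC4 fiveC4 fiveC4Part0 fiveC4Part1 fiveC4Part2 fiveC4Part3
  compute_degree

theorem natDegree_fivePolyC6_le : (fivePolyC6 a b u v c).natDegree ≤ 30 := by
  unfold fivePolyC6 fiveC6 fiveC6Part0 fiveC6Part1 fiveC6Part2 fiveC6Part3 fiveC6Part4 fiveC6Part5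
  compute_degree

theorem coeff_fivePolyC4 : (fivePolyC4 a b u v c).coeff 20 = a * u ^ 20 := by
  unfold fivePolyC4 fiveC4 fiveC4Part0 fiveC4Part1 fiveC4Part2 fiveC4Part3
  compute_degree!

theorem coeff_fivePolyC6 : (fivePolyC6 a b u v c).coeff 30 = b * u ^ 30 := by
  unfold fivePolyC6 fiveC6 fiveC6Part0 fiveC6Part1 fiveC6Part2 fiveC6Part3 fiveC6Part4 fiveC6Part5
  compute_degree!

end Defs

variable {K : Type*} [Field K] {a b u v c : K}

theorem isCoprime_fivePolyC4_fivePolyD [CharZero K] (hab : a ^ 3 ≠ b ^ 2) (hc : c ≠ 0) :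
    IsCoprime (fivePolyC4 a b u v c) (fivePolyD a b u v c) := by
  have hk : (2 : K) ^ 26 * 3 ^ 12 * 5 ^ 5 * (a ^ 3 - b ^ 2) ^ 6 * c ^ 31 ≠ 0 :=
    mul_ne_zero (mul_ne_zero (by norm_num) (pow_ne_zero _ (sub_ne_zero.mpr hab)))
      (pow_ne_zero _ hc)
  set k := (2 : K) ^ 26 * 3 ^ 12 * 5 ^ 5 * (a ^ 3 - b ^ 2) ^ 6 * c ^ 31 with hkdef
  refine ⟨C k⁻¹ * fiveResV (C a) (C b) (C u * X + C v) (C c),
    C k⁻¹ * fiveResU (C a) (C b) (C u * X + C v) (C c), ?_⟩
  have h := fiveRes_identity (C a) (C b) (C u * X + C v) (C c)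
  have h1 : C k⁻¹ * C k = (1 : K[X]) := by rw [← map_mul, inv_mul_cancel₀ hk, map_one]
  have h2 : C k = (2 : K[X]) ^ 26 * 3 ^ 12 * 5 ^ 5 * (C a ^ 3 - C b ^ 2) ^ 6 * C c ^ 31 := by
    simp only [hkdef, map_mul, map_pow, map_sub, map_ofNat]
  rw [fivePolyC4, fivePolyD]
  linear_combination (C k⁻¹) * h + h1 - (C k⁻¹) * h2

theorem derivative_fivePolyD :
    derivative (fivePolyD a b u v c) = C u * fiveDx (C a) (C b) (C u * X + C v) (C c) := by
  simp only [fivePolyD, fiveD, fiveDx, derivative_add, derivative_sub, derivative_neg,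
    derivative_mul, derivative_pow, derivative_C, derivative_X, derivative_one, derivative_ofNat,
    mul_zero, zero_mul, add_zero, zero_add, neg_zero, sub_zero, mul_one, Nat.cast_ofNat,
    map_ofNat]
  ring

theorem separable_fivePolyD [CharZero K] (hab : a ^ 3 ≠ b ^ 2) (hu : u ≠ 0) (hc : c ≠ 0) :
    (fivePolyD a b u v c).Separable := by
  obtain ⟨p, q, hpq⟩ := isCoprime_fivePolyC4_fivePolyD (u := u) (v := v) hab hc
  set D := fivePolyD a b u v c
  set k := (1584 : K) * c ^ 2 with hkdef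
  have hk : k ≠ 0 := mul_ne_zero (by norm_num) (pow_ne_zero _ hc)
  have h := fiveHess_identity (C a) (C b) (C u * X + C v) (C c)
  have h1 : C k⁻¹ * C k = (1 : K[X]) := by rw [← map_mul, inv_mul_cancel₀ hk, map_one]
  have h2 : C k = (1584 : K[X]) * C c ^ 2 := by
    simp only [hkdef, map_mul, map_pow, map_ofNat]
  have h3 : C u⁻¹ * C u = (1 : K[X]) := by rw [← map_mul, inv_mul_cancel₀ hu, map_one]
  refine (Polynomial.separable_def D).mpr
    ⟨q - 12 * p * C k⁻¹ * fiveDxx (C a) (C b) (C u * X + C v) (C c),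
      11 * p * C k⁻¹ * C u⁻¹ * fiveDx (C a) (C b) (C u * X + C v) (C c), ?_⟩
  rw [derivative_fivePolyD, ← hpq]
  simp only [D, fivePolyD, fivePolyC4]
  linear_combination (11 * p * C k⁻¹ * fiveDx (C a) (C b) (C u * X + C v) (C c) ^ 2) * h3
    - p * C k⁻¹ * h + p * fiveC4 (C a) (C b) (C u * X + C v) (C c) * h1
    - p * C k⁻¹ * fiveC4 (C a) (C b) (C u * X + C v) (C c) * h2

theorem squarefree_fivePolyD [CharZero K] (hab : a ^ 3 ≠ b ^ 2) (hu : u ≠ 0) (hc : c ≠ 0) :
    Squarefree (fivePolyD a b u v c) :=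
  (separable_fivePolyD hab hu hc).squarefree

theorem natDegree_fivePolyD (hu : u ≠ 0) : (fivePolyD a b u v c).natDegree = 12 := by
  unfold fivePolyD fiveD
  compute_degree!

end Fermat.Agent.Switch
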