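/-
Assembly of the 3-5 switch from the mod-3 root criterion, the thin-set lemma for the family, and the
congruence of Frobenius traces inside the family.
-/
import Fermat.Agent.Switch.Model
import Fermat.Agent.Switch.FamilyPoly
import Fermat.Prelude.Def_FLTPrelim_ModularRep

set_option autoImplicit false

namespace Fermat.Agent.Switch

open Polynomial WeierstrassCurve

/-- The 3-5 switch, given its three ingredients. -/
theorem threeFiveSwitch_of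
    (hcrit : ∀ V : WeierstrassCurve ℤ, V.Δ ≠ 0 →
      (∀ Y : ℚ, Y ^ 4 - 6 * (V.c₄ : ℚ) * Y ^ 2 - 8 * (V.c₆ : ℚ) * Y - 3 * (V.c₄ : ℚ) ^ 2 ≠ 0) →
      V.ModRepIsIrreducible 3)
    (hit : ∀ (a b D : ℤ[X]) (e : ℤ),
      a.natDegree ≤ 20 → b.natDegree ≤ 30 → a.coeff 20 ^ 3 ≠ b.coeff 30 ^ 2 →
      (∃ y : ℚ, y ^ 4 - 6 * (a.coeff 20 : ℚ) * y ^ 2 - 8 * (b.coeff 30 : ℚ) * y -
        3 * (a.coeff 20 : ℚ) ^ 2 = 0) →
      a ^ 3 - b ^ 2 = C e * D ^ 5 → e ≠ 0 →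
      IsCoprime (a.map (Int.castRingHom ℚ)) (D.map (Int.castRingHom ℚ)) →
      Squarefree (D.map (Int.castRingHom ℚ)) → D.natDegree = 12 →
      ∃ n : ℤ, ∀ Y : ℚ, Y ^ 4 - 6 * ((a.eval n : ℤ) : ℚ) * Y ^ 2 - 8 * ((b.eval n : ℤ) : ℚ) * Y -
        3 * ((a.eval n : ℤ) : ℚ) ^ 2 ≠ 0)
    (W : WeierstrassCurve ℤ) (hΔ : W.Δ ≠ 0) (hW : W.IsSemistableModel)
    (htrace : ∀ x y : ℤ, (10368 : ℤ) ∣ x - 1 → (10368 : ℤ) ∣ y →
      ∀ ℓ : ℕ, ℓ.Prime → 7 ≤ ℓ → W.IsGoodPrimeFor ℓ → (fiveModel W x y).IsGoodPrimeFor ℓ →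
        (5 : ℤ) ∣ (fiveModel W x y).apOfModel ℓ - W.apOfModel ℓ) :
    ∃ W' : WeierstrassCurve ℤ, W'.Δ ≠ 0 ∧ W'.IsSemistableModel ∧ W'.ModRepIsIrreducible 3 ∧
      ∀ ℓ : ℕ, ℓ.Prime → W.IsGoodPrimeFor ℓ → W'.IsGoodPrimeFor ℓ → ℓ ≠ 5 →
        (5 : ℤ) ∣ (W'.apOfModel ℓ - W.apOfModel ℓ) := by
  by_cases hroot : ∀ Y : ℚ,
      Y ^ 4 - 6 * (W.c₄ : ℚ) * Y ^ 2 - 8 * (W.c₆ : ℚ) * Y - 3 * (W.c₄ : ℚ) ^ 2 ≠ 0
  · exact ⟨W, hΔ, hW, hcrit W hΔ hroot, fun ℓ _ _ _ _ => by simp⟩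
  push Not at hroot
  obtain ⟨y₀, hy₀⟩ := hroot
  set M : ℤ := 10368 * 5 * W.Δ with hM
  have hM0 : M ≠ 0 := mul_ne_zero (by norm_num) hΔ
  have hMq : (M : ℚ) ≠ 0 := by exact_mod_cast hM0
  have hrel := W.c_relation
  have hab : (W.c₄ : ℚ) ^ 3 ≠ (W.c₆ : ℚ) ^ 2 := by
    have : W.c₄ ^ 3 ≠ W.c₆ ^ 2 := fun h => hΔ (by
      have : (1728 : ℤ) * W.Δ = 0 := by rw [hrel, h, sub_self]
      simpa using this)
    exact_mod_cast this
  obtain ⟨n, hn⟩ := hit (fivePolyC4 W.c₄ W.c₆ M 1 M) (fivePolyC6 W.c₄ W.c₆ M 1 M)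
    (fivePolyD W.c₄ W.c₆ M 1 M) (W.c₄ ^ 3 - W.c₆ ^ 2)
    natDegree_fivePolyC4_le natDegree_fivePolyC6_le
    (by
      rw [coeff_fivePolyC4, coeff_fivePolyC6]
      intro h
      have h' : (W.c₄ : ℚ) ^ 3 * (M : ℚ) ^ 60 = (W.c₆ : ℚ) ^ 2 * (M : ℚ) ^ 60 := by
        have hc : ((W.c₄ * M ^ 20) ^ 3 : ℤ) = (W.c₆ * M ^ 30) ^ 2 := h
        have := congrArg (Int.cast : ℤ → ℚ) hc
        push_cast at this
        linear_combination this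
      exact hab (mul_right_cancel₀ (pow_ne_zero _ hMq) h'))
    ⟨y₀ * (M : ℚ) ^ 10, by
      rw [coeff_fivePolyC4, coeff_fivePolyC6]
      push_cast
      linear_combination (M : ℚ) ^ 40 * hy₀⟩
    (fivePoly_syzygy _ _ _ _ _)
    (sub_ne_zero.mpr fun h => hab (by exact_mod_cast h))
    (by
      rw [map_fivePolyC4, map_fivePolyD]
      exact isCoprime_fivePolyC4_fivePolyD hab hMq)
    (by
      rw [map_fivePolyD]
      exact squarefree_fivePolyD hab hMq hMq)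
    (by
      rw [← natDegree_map_eq_of_injective (Int.castRingHom ℚ).injective_int, map_fivePolyD]
      exact natDegree_fivePolyD hMq)
  rw [fivePolyC4_eval, fivePolyC6_eval] at hn
  set x : ℤ := M * n + 1
  have h10368 : (10368 : ℤ) ∣ M := ⟨5 * W.Δ, by rw [hM]; ring⟩
  have hy5 : (5 : ℤ) ∣ M := ⟨10368 * W.Δ, by rw [hM]; ring⟩
  have hx : (10368 : ℤ) ∣ x - 1 := by
    simpa [x] using h10368.mul_right n
  have hxy : IsCoprime x M := ⟨1, -n, by ring⟩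
  refine ⟨fiveModel W x M, fiveModel_Δ_ne_zero W hΔ hx h10368,
    fiveModel_isSemistableModel W hW hx h10368 hy5 (dvd_mul_left _ _) hxy, hcrit _
      (fiveModel_Δ_ne_zero W hΔ hx h10368) ?_, fun ℓ hℓ hg hg' h5 => ?_⟩
  · rw [fiveModel_c₄ W hx h10368, fiveModel_c₆ W hx h10368]
    exact hn
  by_cases h6 : ℓ ∣ 6
  · simp [fiveModel_apOfModel W h6]
  · refine htrace x M hx h10368 ℓ hℓ ?_ hg hg'
    by_contra hlt
    have hlt' : ℓ ≤ 6 := by omega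
    have := hℓ.two_le
    interval_cases ℓ <;> first | omega | exact absurd hℓ (by decide)

end Fermat.Agent.Switch
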