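import Mathlib

/-!
Elementary asymptotics of polynomials on natural numbers.
-/

namespace Fermat.Agent.Switch

open Polynomial Filter Topology

theorem tendsto_eval_natCast_div_pow {d : ℕ} {P : ℝ[X]} (hP : P.natDegree ≤ d) :
    Tendsto (fun n : ℕ => P.eval (n : ℝ) / (n : ℝ) ^ d) atTop (𝓝 (P.coeff d)) := by
  have key : Tendsto (fun n : ℕ => ∑ i ∈ Finset.range d,
      P.coeff i * ((n : ℝ) ^ i / (n : ℝ) ^ d)) atTop (𝓝 0) := by
    have := tendsto_finsetSum (Finset.range d) (fun i hi =>
      ((tendsto_pow_div_pow_atTop_zero (𝕜 := ℝ) (Finset.mem_range.1 hi)).comp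
        tendsto_natCast_atTop_atTop).const_mul (P.coeff i))
    simpa using this
  have := key.add_const (P.coeff d)
  rw [zero_add] at this
  refine this.congr' ?_
  filter_upwards [eventually_gt_atTop 0] with n hn
  have hn0 : (n : ℝ) ^ d ≠ 0 := by positivity
  rw [eval_eq_sum_range' (Nat.lt_succ_of_le hP) (n : ℝ), Finset.sum_range_succ, add_div,
    Finset.sum_div, mul_div_assoc, div_self hn0, mul_one]
  simp only [mul_div_assoc]

theorem exists_int_eq_of_tendsto {y : ℕ → ℤ} {c : ℝ}
    (h : Tendsto (fun n => (y n : ℝ)) atTop (𝓝 c)) : ∃ m : ℤ, c = m := by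
  obtain ⟨m, hm⟩ := Int.isClosedEmbedding_coe_real.isClosed_range.mem_of_tendsto h
    (Eventually.of_forall fun n => Set.mem_range_self (y n))
  exact ⟨m, hm.symm⟩

/-- If a real polynomial is within `o(1)` of an integer at every natural number, then
`k! * coeff k` is an integer. -/
theorem exists_int_eq_factorial_mul_coeff :
    ∀ (k : ℕ) (p : ℝ[X]) (y : ℕ → ℤ), p.natDegree ≤ k →
      Tendsto (fun n => (y n : ℝ) - p.eval (n : ℝ)) atTop (𝓝 0) →
      ∃ m : ℤ, (k.factorial : ℝ) * p.coeff k = m
  | 0, p, y, hp, h => by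
    have h' : Tendsto (fun n => (y n : ℝ)) atTop (𝓝 (p.coeff 0)) := by
      rw [eq_C_of_natDegree_le_zero hp] at h
      simp only [eval_C] at h
      simpa using h.add_const (p.coeff 0)
    simpa using exists_int_eq_of_tendsto h'
  | k + 1, p, y, hp, h => by
    set q := taylor 1 p - p with hq
    have hqd : q.natDegree ≤ k := by
      refine natDegree_le_iff_coeff_eq_zero.2 fun j hj => ?_
      have hj' : k + 1 ≤ j := hj
      have h0 : (hasseDeriv j p).natDegree ≤ 0 :=
        (natDegree_hasseDeriv_le p j).trans (by omega)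
      rw [hq, coeff_sub, taylor_coeff, eq_C_of_natDegree_le_zero h0, eval_C, hasseDeriv_coeff]
      simp
    have hqc : q.coeff k = (k + 1 : ℕ) * p.coeff (k + 1) := by
      have h1 : (hasseDeriv k p).natDegree < 2 :=
        (natDegree_hasseDeriv_le p k).trans_lt (by omega)
      rw [hq, coeff_sub, taylor_coeff, eval_eq_sum_range' h1, Finset.sum_range_succ,
        Finset.sum_range_one]
      simp only [hasseDeriv_coeff, Nat.zero_add, Nat.choose_self, Nat.cast_one, one_mul,
        pow_zero, one_pow, mul_one]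
      rw [add_comm 1 k, Nat.choose_succ_self_right]
      ring
    have hy : Tendsto (fun n => ((y (n + 1) - y n : ℤ) : ℝ) - q.eval (n : ℝ)) atTop (𝓝 0) := by
      have := (h.comp (tendsto_add_atTop_nat 1)).sub h
      rw [sub_zero] at this
      refine this.congr fun n => ?_
      simp only [Function.comp_apply, hq, eval_sub, taylor_eval]
      push_cast
      ring
    obtain ⟨m, hm⟩ := exists_int_eq_factorial_mul_coeff k q _ hqd hy
    refine ⟨m, ?_⟩
    rw [← hm, hqc, Nat.factorial_succ]
    push_cast
    ring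

theorem eventually_eq_zero_of_tendsto_int {α : Type*} {l : Filter α} {y : α → ℤ}
    (h : Tendsto (fun n => (y n : ℝ)) l (𝓝 0)) : ∀ᶠ n in l, y n = 0 := by
  filter_upwards [h (Metric.ball_mem_nhds 0 one_pos)] with n hn
  rw [Set.mem_preimage, Metric.mem_ball, dist_zero_right, Real.norm_eq_abs] at hn
  have : |y n| < 1 := by exact_mod_cast hn
  exact Int.abs_lt_one_iff.1 this

end Fermat.Agent.Switch
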