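import Fermat.Agent.Switch.Quartic

/-!
Asymptotic expansion at infinity, up to `o(1)`, of a root of the quartic over `K[t]`:
a polynomial `p` of degree `≤ k` with prescribed leading coefficient such that
`qf a b p` has degree `< 3 k`.
-/

namespace Fermat.Agent.Switch

open Polynomial

variable {K : Type*} [Field K]

theorem natDegree_qd_le {k : ℕ} {a b p : K[X]} (ha : a.natDegree ≤ 2 * k)
    (hb : b.natDegree ≤ 3 * k) (hp : p.natDegree ≤ k) : (qd a b p).natDegree ≤ 3 * k := by
  unfold qd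
  compute_degree <;> omega

theorem natDegree_qf_le {k : ℕ} {a b p : K[X]} (ha : a.natDegree ≤ 2 * k)
    (hb : b.natDegree ≤ 3 * k) (hp : p.natDegree ≤ k) : (qf a b p).natDegree ≤ 4 * k := by
  unfold qf
  compute_degree <;> omega

theorem coeff_qf_top {k : ℕ} {a b p : K[X]} (ha : a.natDegree ≤ 2 * k)
    (hb : b.natDegree ≤ 3 * k) (hp : p.natDegree ≤ k) :
    (qf a b p).coeff (4 * k) = qf (a.coeff (2 * k)) (b.coeff (3 * k)) (p.coeff k) := by
  have e1 : (p ^ 4).coeff (4 * k) = p.coeff k ^ 4 := coeff_pow_of_natDegree_le hp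
  have e2 : (a * p ^ 2).coeff (4 * k) = a.coeff (2 * k) * p.coeff k ^ 2 := by
    have := coeff_mul_add_eq_of_natDegree_le ha (natDegree_pow_le_of_le 2 hp)
    rw [show 2 * k + 2 * k = 4 * k by ring, coeff_pow_of_natDegree_le hp] at this
    exact this
  have e3 : (b * p).coeff (4 * k) = b.coeff (3 * k) * p.coeff k := by
    have := coeff_mul_add_eq_of_natDegree_le hb hp
    rwa [show 3 * k + k = 4 * k by ring] at this
  have e4 : (a ^ 2).coeff (4 * k) = a.coeff (2 * k) ^ 2 := by
    have := coeff_pow_of_natDegree_le (m := 2) ha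
    rwa [show 2 * (2 * k) = 4 * k by ring] at this
  simp only [qf, ← map_ofNat (C : K →+* K[X]) 6, ← map_ofNat (C : K →+* K[X]) 8,
    ← map_ofNat (C : K →+* K[X]) 3, mul_assoc, coeff_sub, coeff_C_mul, e1, e2, e3, e4]

theorem coeff_qd_top {k : ℕ} {a b p : K[X]} (ha : a.natDegree ≤ 2 * k)
    (hb : b.natDegree ≤ 3 * k) (hp : p.natDegree ≤ k) :
    (qd a b p).coeff (3 * k) = qd (a.coeff (2 * k)) (b.coeff (3 * k)) (p.coeff k) := by
  have e1 : (p ^ 3).coeff (3 * k) = p.coeff k ^ 3 := coeff_pow_of_natDegree_le hp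
  have e2 : (a * p).coeff (3 * k) = a.coeff (2 * k) * p.coeff k := by
    have := coeff_mul_add_eq_of_natDegree_le ha hp
    rwa [show 2 * k + k = 3 * k by ring] at this
  simp only [qd, ← map_ofNat (C : K →+* K[X]) 4, ← map_ofNat (C : K →+* K[X]) 12,
    ← map_ofNat (C : K →+* K[X]) 8, mul_assoc, coeff_sub, coeff_C_mul, e1, e2]

theorem exists_branch_aux {k : ℕ} {a b : K[X]} (ha : a.natDegree ≤ 2 * k)
    (hb : b.natDegree ≤ 3 * k) {c : K}
    (hc : qf (a.coeff (2 * k)) (b.coeff (3 * k)) c = 0)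
    (hd : qd (a.coeff (2 * k)) (b.coeff (3 * k)) c ≠ 0) :
    ∀ i, i ≤ k → ∃ p : K[X], p.natDegree ≤ k ∧ p.coeff k = c ∧
      ∀ j, 4 * k - i ≤ j → (qf a b p).coeff j = 0
  | 0, _ => by
    have hp : (C c * X ^ k).natDegree ≤ k := natDegree_C_mul_X_pow_le c k
    refine ⟨C c * X ^ k, hp, by simp, fun j hj => ?_⟩
    rcases eq_or_lt_of_le (show 4 * k ≤ j by omega) with rfl | hj'
    · rw [coeff_qf_top ha hb hp]
      simpa using hc
    · exact coeff_eq_zero_of_natDegree_lt ((natDegree_qf_le ha hb hp).trans_lt hj')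
  | i + 1, hi => by
    obtain ⟨p, hp, hpc, hq⟩ := exists_branch_aux ha hb hc hd i (by omega)
    obtain ⟨s, hs⟩ : ∃ s, s + i + 1 = k := ⟨k - i - 1, by omega⟩
    set m := (qd a b p).coeff (3 * k) with hm
    have hm0 : m ≠ 0 := by rw [hm, coeff_qd_top ha hb hp, hpc]; exact hd
    set e := -(qf a b p).coeff (3 * k + s) / m with he
    set h := C e * X ^ s with hh
    have hhd : h.natDegree ≤ s := natDegree_C_mul_X_pow_le e s
    refine ⟨p + h, natDegree_add_le_of_degree_le hp (by omega), ?_, fun j hj => ?_⟩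
    · rw [coeff_add, hpc, coeff_eq_zero_of_natDegree_lt (by omega : h.natDegree < k), add_zero]
    · have hrest : (h ^ 2 * (6 * p ^ 2 - 6 * a + 4 * p * h + h ^ 2)).natDegree
          ≤ 2 * s + 2 * k := by
        compute_degree <;> omega
      rw [qf_add, coeff_add, coeff_add,
        coeff_eq_zero_of_natDegree_lt (hrest.trans_lt (by omega)), add_zero]
      rcases eq_or_lt_of_le (show 3 * k + s ≤ j by omega) with rfl | hj'
      · have e1 : (h * qd a b p).coeff (3 * k + s) = e * m := by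
          rw [hh, mul_assoc, coeff_C_mul, mul_comm (X ^ s) _, coeff_mul_X_pow]
        rw [e1, he, div_mul_cancel₀ _ hm0, add_neg_cancel]
      · rw [hq j (by omega), zero_add]
        apply coeff_eq_zero_of_natDegree_lt
        have := natDegree_mul_le (p := h) (q := qd a b p)
        have := natDegree_qd_le ha hb hp
        omega

/-- Expansion of a simple root at infinity up to `o(1)`. -/
theorem exists_branch {k : ℕ} {a b : K[X]} (ha : a.natDegree ≤ 2 * k)
    (hb : b.natDegree ≤ 3 * k) {c : K}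
    (hc : qf (a.coeff (2 * k)) (b.coeff (3 * k)) c = 0)
    (hd : qd (a.coeff (2 * k)) (b.coeff (3 * k)) c ≠ 0) :
    ∃ p : K[X], p.natDegree ≤ k ∧ p.coeff k = c ∧
      ∀ j, 3 * k ≤ j → (qf a b p).coeff j = 0 := by
  obtain ⟨p, h1, h2, h3⟩ := exists_branch_aux ha hb hc hd k le_rfl
  exact ⟨p, h1, h2, fun j hj => h3 j (by omega)⟩

end Fermat.Agent.Switch
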