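import Fermat.Agent.Switch.NoRoot
import Fermat.Agent.Switch.Branch
import Fermat.Agent.Switch.Asymp

/-!
Weak Hilbert irreducibility for the quartic `qf (a t) (b t)`: if the quartic at infinity has a
rational root and the family has no root in `ℚ[t]`, then every congruence class contains
arbitrarily large integers at which the quartic has no rational root.
-/

namespace Fermat.Agent.Switch

open Polynomial Filter Topology

theorem exists_int_of_qf_eq_zero {a b : ℤ} {y : ℚ} (h : qf (a : ℚ) b y = 0) :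
    ∃ m : ℤ, (m : ℚ) = y := by
  apply IsIntegrallyClosed.isIntegral_iff.1
  refine ⟨X ^ 4 + (C (-6 * a) * X ^ 2 + C (-8 * b) * X + C (-3 * a ^ 2)), ?_, ?_⟩
  · exact (monic_X_pow 4).add_of_left (by
      rw [degree_X_pow]
      refine lt_of_le_of_lt ?_ (by norm_num : (2 : WithBot ℕ) < 4)
      compute_degree)
  · simp only [qf] at h
    simp only [eval₂_add, eval₂_mul, eval₂_X_pow, eval₂_C, eval₂_X]
    simp only [algebraMap_int_eq, eq_intCast, Int.cast_mul, Int.cast_pow, Int.cast_neg,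
      Int.cast_ofNat]
    linear_combination h

theorem abs_le_of_qf_eq_zero {A B z : ℝ} (h : qf A B z = 0) :
    |z| ≤ 1 + 6 * |A| + 8 * |B| + 3 * A ^ 2 := by
  rcases le_or_gt |z| 1 with hz | hz
  · nlinarith [abs_nonneg A, abs_nonneg B, sq_nonneg A]
  simp only [qf] at h
  have hA : A ≤ |A| := le_abs_self A
  have hz4 : |z| ^ 4 = z ^ 4 := Even.pow_abs (by decide) z
  have hz2 : |z| ^ 2 = z ^ 2 := sq_abs z
  have hbz : B * z ≤ |B| * |z| := (le_abs_self _).trans (abs_mul B z).le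
  have key : |z| ^ 4 ≤ (6 * |A| + 8 * |B| + 3 * A ^ 2) * |z| ^ 3 := by
    have e1 : |z| ^ 2 ≤ |z| ^ 3 := pow_le_pow_right₀ hz.le (by norm_num)
    have e2 : |z| ≤ |z| ^ 3 := le_self_pow₀ hz.le (by norm_num)
    have e3 : 1 ≤ |z| ^ 3 := one_le_pow₀ hz.le
    have i1 : A * z ^ 2 ≤ |A| * |z| ^ 3 := by
      rw [← hz2]; exact mul_le_mul hA e1 (by positivity) (abs_nonneg A)
    have i2 : |B| * |z| ≤ |B| * |z| ^ 3 := mul_le_mul_of_nonneg_left e2 (abs_nonneg B)
    have i3 : A ^ 2 ≤ A ^ 2 * |z| ^ 3 := le_mul_of_one_le_right (sq_nonneg A) e3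
    rw [hz4]
    nlinarith
  have hpos : 0 < |z| ^ 3 := by positivity
  have := le_of_mul_le_mul_right (a := |z| ^ 3) (b := |z|)
    (c := 6 * |A| + 8 * |B| + 3 * A ^ 2) (by linarith [show |z| * |z| ^ 3 = |z| ^ 4 by ring]) hpos
  linarith

theorem exists_le_forall_qf_ne_zero_aux {k : ℕ} {a b : ℤ[X]} (ha : a.natDegree ≤ 2 * k)
    (hb : b.natDegree ≤ 3 * k) (hab : a.coeff (2 * k) ^ 3 ≠ b.coeff (3 * k) ^ 2)
    {c : ℚ} (hc : qf (a.coeff (2 * k) : ℚ) (b.coeff (3 * k)) c = 0)
    (hno : ∀ p : ℚ[X], qf (a.map (Int.castRingHom ℚ)) (b.map (Int.castRingHom ℚ)) p ≠ 0)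
    (N : ℕ) : ∃ n ≥ N, ∀ y : ℚ, qf ((a.eval (n : ℤ) : ℤ) : ℚ) ((b.eval (n : ℤ) : ℤ) : ℚ) y ≠ 0 := by
  classical
  by_contra hcon
  push Not at hcon
  have hint : ∀ n : ℕ, ∃ m : ℤ, N ≤ n → qf (a.eval (n : ℤ)) (b.eval (n : ℤ)) m = 0 := fun n => by
    by_cases hn : N ≤ n
    · obtain ⟨y, hy⟩ := hcon n hn
      obtain ⟨m, rfl⟩ := exists_int_of_qf_eq_zero hy
      refine ⟨m, fun _ => Int.cast_injective (α := ℚ) ?_⟩
      simpa [qf] using hy
    · exact ⟨0, fun h => absurd h hn⟩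
  choose y hy using hint
  set φ : ℤ[X] →+* ℝ[X] := mapRingHom (Int.castRingHom ℝ) with hφ
  have haR : (φ a).natDegree ≤ 2 * k := (natDegree_map_le).trans ha
  have hbR : (φ b).natDegree ≤ 3 * k := (natDegree_map_le).trans hb
  set a₀ : ℝ := (a.coeff (2 * k) : ℝ) with ha₀
  set b₀ : ℝ := (b.coeff (3 * k) : ℝ) with hb₀
  have hab₀ : a₀ ^ 3 ≠ b₀ ^ 2 := by
    rw [ha₀, hb₀]; exact_mod_cast hab
  have hac : (φ a).coeff (2 * k) = a₀ := by simp [hφ, ha₀]
  have hbc : (φ b).coeff (3 * k) = b₀ := by simp [hφ, hb₀]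
  have hae : ∀ n : ℕ, (φ a).eval (n : ℝ) = ((a.eval (n : ℤ) : ℤ) : ℝ) := fun n => by
    simp [hφ, eval_natCast_map]
  have hbe : ∀ n : ℕ, (φ b).eval (n : ℝ) = ((b.eval (n : ℤ) : ℤ) : ℝ) := fun n => by
    simp [hφ, eval_natCast_map]
  have hyR : ∀ᶠ n : ℕ in atTop, qf ((φ a).eval (n : ℝ)) ((φ b).eval (n : ℝ)) (y n : ℝ) = 0 := by
    filter_upwards [eventually_ge_atTop N] with n hn
    rw [hae, hbe]
    have := congrArg (Int.cast : ℤ → ℝ) (hy n hn)
    simpa [qf] using this
  set A : ℕ → ℝ := fun n => (φ a).eval (n : ℝ) / (n : ℝ) ^ (2 * k) with hA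
  set B : ℕ → ℝ := fun n => (φ b).eval (n : ℝ) / (n : ℝ) ^ (3 * k) with hB
  set z : ℕ → ℝ := fun n => (y n : ℝ) / (n : ℝ) ^ k with hz
  have hAlim : Tendsto A atTop (𝓝 a₀) := hac ▸ tendsto_eval_natCast_div_pow haR
  have hBlim : Tendsto B atTop (𝓝 b₀) := hbc ▸ tendsto_eval_natCast_div_pow hbR
  have hzero : ∀ᶠ n in atTop, qf (A n) (B n) (z n) = 0 := by
    filter_upwards [hyR] with n hn
    have := qf_weight (((n : ℝ) ^ k)⁻¹) ((φ a).eval (n : ℝ)) ((φ b).eval (n : ℝ)) (y n : ℝ)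
    rw [hn, mul_zero] at this
    rw [← this]
    simp only [hA, hB, hz]
    congr 1 <;> ring
  -- the normalised root is bounded
  set C₀ : ℝ := 2 + 6 * |a₀| + 8 * |b₀| + 3 * a₀ ^ 2 with hC₀
  have hbound : ∀ᶠ n in atTop, |z n| ≤ C₀ := by
    have hS : Tendsto (fun n => 1 + 6 * |A n| + 8 * |B n| + 3 * A n ^ 2) atTop
        (𝓝 (1 + 6 * |a₀| + 8 * |b₀| + 3 * a₀ ^ 2)) :=
      ((tendsto_const_nhds.add (hAlim.abs.const_mul 6)).add (hBlim.abs.const_mul 8)).add
        ((hAlim.pow 2).const_mul 3)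
    filter_upwards [hzero, hS.eventually_le_const (u := C₀) (by rw [hC₀]; linarith)] with n h1 h2
    exact (abs_le_of_qf_eq_zero h1).trans h2
  have hq0 : Tendsto (fun n => qf a₀ b₀ (z n)) atTop (𝓝 0) := by
    have hlim : Tendsto (fun n => |A n - a₀| * (6 * C₀ ^ 2 + 3 * |A n + a₀|) +
        8 * |B n - b₀| * C₀) atTop (𝓝 0) := by
      have := ((hAlim.sub_const a₀).abs.mul
        (tendsto_const_nhds (x := 6 * C₀ ^ 2) |>.add ((hAlim.add_const a₀).abs.const_mul 3))).add
        (((hBlim.sub_const b₀).abs.const_mul 8).mul_const C₀)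
      simpa using this
    refine squeeze_zero_norm' ?_ hlim
    filter_upwards [hzero, hbound] with n h1 h2
    have e : qf a₀ b₀ (z n) =
        (A n - a₀) * (6 * z n ^ 2 + 3 * (A n + a₀)) + 8 * (B n - b₀) * z n := by
      simp only [qf] at h1 ⊢; linear_combination h1
    have hz2 : z n ^ 2 ≤ C₀ ^ 2 := by
      rw [← sq_abs]; exact pow_le_pow_left₀ (abs_nonneg _) h2 2
    rw [e, Real.norm_eq_abs]
    refine (abs_add_le _ _).trans (add_le_add ?_ ?_)
    · rw [abs_mul]
      gcongr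
      refine (abs_add_le _ _).trans (add_le_add ?_ ?_)
      · rw [abs_of_nonneg (by positivity)]; linarith
      · rw [abs_mul, abs_of_nonneg (by norm_num : (0 : ℝ) ≤ 3)]
    · rw [abs_mul, abs_mul, abs_of_nonneg (by norm_num : (0 : ℝ) ≤ 8)]
      gcongr
  -- the two real roots at infinity
  have hc' : qf a₀ b₀ (c : ℝ) = 0 := by
    have := congrArg (Rat.cast : ℚ → ℝ) hc
    simpa [qf, ha₀, hb₀] using this
  obtain ⟨c₁, hc₁, hroots⟩ : ∃ c₁, qf a₀ b₀ c₁ = 0 ∧
      ∀ x, qf a₀ b₀ x = 0 → x = (c : ℝ) ∨ x = c₁ := by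
    by_cases h : ∃ r, qf a₀ b₀ r = 0 ∧ r ≠ (c : ℝ)
    · obtain ⟨r, hr, hne⟩ := h
      exact ⟨r, hr, fun x hx => eq_or_eq_of_qf_eq_zero hc' hr hx hne.symm⟩
    · push Not at h
      exact ⟨c, hc', fun x hx => Or.inl (h x hx)⟩
  have hnear : ∀ ε > 0, ∀ᶠ n in atTop, |z n - c| < ε ∨ |z n - c₁| < ε := by
    intro ε hε
    set K : Set ℝ := Set.Icc (-C₀) C₀ ∩ ({x | ε ≤ |x - c|} ∩ {x | ε ≤ |x - c₁|}) with hK
    have hKc : IsCompact K := isCompact_Icc.inter_right
      ((isClosed_le continuous_const (continuous_id.sub continuous_const).abs).inter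
        (isClosed_le continuous_const (continuous_id.sub continuous_const).abs))
    have hcont : Continuous (qf a₀ b₀) := by
      simp only [show qf a₀ b₀ = fun x => x ^ 4 - 6 * a₀ * x ^ 2 - 8 * b₀ * x - 3 * a₀ ^ 2 from rfl]
      fun_prop
    have h0 : (0 : ℝ) ∉ qf a₀ b₀ '' K := by
      rintro ⟨x, ⟨-, hx1, hx2⟩, hx⟩
      simp only [Set.mem_ofPred_eq] at hx1 hx2
      rcases hroots x hx with rfl | rfl
      · simp only [sub_self, abs_zero] at hx1; linarith
      · simp only [sub_self, abs_zero] at hx2; linarith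
    filter_upwards [hbound, hq0 ((hKc.image hcont).isClosed.isOpen_compl.mem_nhds h0)] with n h1 h2
    by_contra hh
    push Not at hh
    exact h2 ⟨z n, ⟨abs_le.1 h1, hh.1, hh.2⟩, rfl⟩
  -- expansion of a root close to a given root at infinity
  have hexp : ∀ (r : ℝ) (p : ℝ[X]) (l : Filter ℕ), l ≤ atTop → Tendsto z l (𝓝 r) →
      qf a₀ b₀ r = 0 → p.natDegree ≤ k → p.coeff k = r →
      (∀ j, 3 * k ≤ j → (qf (φ a) (φ b) p).coeff j = 0) →
      Tendsto (fun n => (y n : ℝ) - p.eval (n : ℝ)) l (𝓝 0) := by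
    intro r p l hl hzr hr hp hpc hF
    have hd : qd a₀ b₀ r ≠ 0 := qd_ne_zero hab₀ hr
    set F := qf (φ a) (φ b) p with hF'
    have hFd : F.natDegree ≤ 3 * k :=
      natDegree_le_iff_coeff_eq_zero.2 fun j hj => hF j (le_of_lt hj)
    have hFlim : Tendsto (fun n : ℕ => F.eval (n : ℝ) / (n : ℝ) ^ (3 * k)) l (𝓝 0) := by
      have := tendsto_eval_natCast_div_pow hFd
      rw [hF _ le_rfl] at this
      exact this.mono_left hl
    set w : ℕ → ℝ := fun n => p.eval (n : ℝ) / (n : ℝ) ^ k with hw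
    have hwlim : Tendsto w l (𝓝 r) := hpc ▸ (tendsto_eval_natCast_div_pow hp).mono_left hl
    set G : ℕ → ℝ := fun n => (z n ^ 3 + z n ^ 2 * w n + z n * w n ^ 2 + w n ^ 3)
      - 6 * A n * (z n + w n) - 8 * B n with hG
    have hGlim : Tendsto G l (𝓝 (qd a₀ b₀ r)) := by
      have := ((((hzr.pow 3).add ((hzr.pow 2).mul hwlim)).add (hzr.mul (hwlim.pow 2))).add
        (hwlim.pow 3)).sub ((((hAlim.mono_left hl).const_mul 6)).mul (hzr.add hwlim))
        |>.sub ((hBlim.mono_left hl).const_mul 8)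
      have e : (r ^ 3 + r ^ 2 * r + r * r ^ 2 + r ^ 3) - 6 * a₀ * (r + r) - 8 * b₀
          = qd a₀ b₀ r := by simp only [qd]; ring
      rw [e] at this
      exact this
    have hdiv := hFlim.neg.div hGlim hd
    rw [neg_zero, zero_div] at hdiv
    refine hdiv.congr' ?_
    filter_upwards [hl hyR, hl (eventually_gt_atTop 0), hGlim.eventually_ne hd] with n h1 h2 h3
    have hn0 : (n : ℝ) ≠ 0 := by positivity
    have hmap : F.eval (n : ℝ) = qf ((φ a).eval (n : ℝ)) ((φ b).eval (n : ℝ)) (p.eval (n : ℝ)) :=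
      map_qf (evalRingHom (n : ℝ)) _ _ _
    have := qf_sub_qf ((φ a).eval (n : ℝ)) ((φ b).eval (n : ℝ)) (y n : ℝ) (p.eval (n : ℝ))
    rw [h1, ← hmap] at this
    rw [Pi.div_apply, div_eq_iff h3, eq_comm, eq_neg_iff_add_eq_zero]
    simp only [hG, hA, hB, hz, hw, pow_mul']
    field_simp
    linear_combination -this
  -- a rational root at infinity is attained only finitely often
  have hrat : ∀ (r : ℚ) (l : Filter ℕ), l ≤ atTop → Tendsto z l (𝓝 (r : ℝ)) →
      qf a₀ b₀ (r : ℝ) = 0 → ∀ᶠ _n in l, False := by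
    intro r l hl hzr hr
    set aQ := a.map (Int.castRingHom ℚ) with haQ'
    set bQ := b.map (Int.castRingHom ℚ) with hbQ'
    have haQ : aQ.natDegree ≤ 2 * k := natDegree_map_le.trans ha
    have hbQ : bQ.natDegree ≤ 3 * k := natDegree_map_le.trans hb
    have hrQ : qf (aQ.coeff (2 * k)) (bQ.coeff (3 * k)) r = 0 := by
      apply Rat.cast_injective (α := ℝ)
      simpa [qf, haQ', hbQ', ha₀, hb₀] using hr
    have habQ : aQ.coeff (2 * k) ^ 3 ≠ bQ.coeff (3 * k) ^ 2 := by
      simp only [haQ', hbQ', coeff_map, eq_intCast]; exact_mod_cast hab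
    obtain ⟨p, hp, hpc, hF⟩ := exists_branch haQ hbQ hrQ (qd_ne_zero habQ hrQ)
    set ψ : ℚ[X] →+* ℝ[X] := mapRingHom (Rat.castHom ℝ) with hψ
    have hcomp : (Rat.castHom ℝ).comp (Int.castRingHom ℚ) = Int.castRingHom ℝ :=
      RingHom.ext_int _ _
    have hψa : ψ aQ = φ a := by
      rw [hψ, hφ, haQ', coe_mapRingHom, coe_mapRingHom, Polynomial.map_map, hcomp]
    have hψb : ψ bQ = φ b := by
      rw [hψ, hφ, hbQ', coe_mapRingHom, coe_mapRingHom, Polynomial.map_map, hcomp]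
    have hFR : ∀ j, 3 * k ≤ j → (qf (φ a) (φ b) (ψ p)).coeff j = 0 := fun j hj => by
      rw [← hψa, ← hψb, ← map_qf, hψ, coe_mapRingHom, coeff_map, hF j hj, map_zero]
    have hlim := hexp r (ψ p) l hl hzr hr (natDegree_map_le.trans hp)
      (by rw [hψ, coe_mapRingHom, coeff_map, hpc, eq_ratCast]) hFR
    obtain ⟨d, hd, hdp⟩ := IsLocalization.integerNormalization_spec (nonZeroDivisors ℤ) p
    set P := IsLocalization.integerNormalization (nonZeroDivisors ℤ) p with hP
    have hd0 : d ≠ 0 := nonZeroDivisors.ne_zero hd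
    have hPe : ∀ n : ℕ, ((P.eval (n : ℤ) : ℤ) : ℚ) = (d : ℚ) * p.eval (n : ℚ) := fun n => by
      have := congrArg (Polynomial.eval (n : ℚ)) hdp
      simpa [eval_natCast_map, Submonoid.smul_def] using this
    have hint : Tendsto (fun n => ((d * y n - P.eval (n : ℤ) : ℤ) : ℝ)) l (𝓝 0) := by
      have := hlim.const_mul (d : ℝ)
      rw [mul_zero] at this
      refine this.congr fun n => ?_
      have h' := congrArg (Rat.cast : ℚ → ℝ) (hPe n)
      push_cast at h' ⊢
      rw [h', hψ, coe_mapRingHom, eval_natCast_map, eq_ratCast]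
      ring
    have heq : ∀ᶠ n in l, (y n : ℚ) = p.eval (n : ℚ) := by
      filter_upwards [eventually_eq_zero_of_tendsto_int hint] with n hn
      have h' := hPe n
      rw [show P.eval (n : ℤ) = d * y n by linarith, Int.cast_mul] at h'
      exact mul_left_cancel₀ (Int.cast_ne_zero.2 hd0) h'
    have hfin : ∀ᶠ n : ℕ in atTop, ¬ (qf aQ bQ p).IsRoot (n : ℚ) := by
      have := ((qf aQ bQ p).finite_setOfPred_isRoot (hno p)).preimage
        (f := fun n : ℕ => (n : ℚ)) (Nat.cast_injective.injOn)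
      rw [← Nat.cofinite_eq_atTop]
      exact this.eventually_cofinite_notMem
    filter_upwards [hl hfin, hl (eventually_ge_atTop N), heq] with n h1 h2 h3
    apply h1
    show (qf aQ bQ p).eval (n : ℚ) = 0
    rw [← coe_evalRingHom, map_qf, coe_evalRingHom, ← h3, haQ', hbQ',
      eval_natCast_map, eval_natCast_map]
    have := congrArg (Int.cast : ℤ → ℚ) (hy n h2)
    simpa [qf] using this
  -- eventually the root is near the second root at infinity
  have hz₁ : Tendsto z atTop (𝓝 c₁) := by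
    by_cases hcc : c₁ = (c : ℝ)
    · rw [Metric.tendsto_nhds]
      intro ε hε
      filter_upwards [hnear ε hε] with n hn
      rcases hn with hn | hn
      · rwa [Real.dist_eq, hcc]
      · rwa [Real.dist_eq]
    · set δ := |c₁ - c| / 2 with hδ
      have hδ0 : 0 < δ := by
        have : 0 < |c₁ - c| := abs_pos.2 (sub_ne_zero.2 hcc)
        rw [hδ]; linarith
      set l := atTop ⊓ 𝓟 {n | |z n - c| < δ} with hl
      have hzl : Tendsto z l (𝓝 (c : ℝ)) := by
        rw [Metric.tendsto_nhds]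
        intro ε hε
        have h1 := hnear (min ε δ) (lt_min hε hδ0)
        rw [hl, eventually_inf_principal]
        filter_upwards [h1] with n hn hS
        rw [Real.dist_eq]
        rcases hn with hn | hn
        · exact hn.trans_le (min_le_left _ _)
        · exfalso
          have := abs_sub_le c₁ (z n) (c : ℝ)
          rw [abs_sub_comm c₁ (z n)] at this
          have := hn.trans_le (min_le_right ε δ)
          linarith
      have hnot : ∀ᶠ n in atTop, ¬ |z n - c| < δ := by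
        have := hrat c l inf_le_left hzl hc'
        rw [hl, eventually_inf_principal] at this
        simpa using this
      rw [Metric.tendsto_nhds]
      intro ε hε
      filter_upwards [hnear (min ε δ) (lt_min hε hδ0), hnot] with n hn hn'
      rw [Real.dist_eq]
      rcases hn with hn | hn
      · exact absurd (hn.trans_le (min_le_right _ _)) hn'
      · exact hn.trans_le (min_le_left _ _)
  -- so that root is rational, a contradiction
  obtain ⟨p, hp, hpc, hF⟩ := exists_branch haR hbR (c := c₁) (by rw [hac, hbc]; exact hc₁)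
    (by rw [hac, hbc]; exact qd_ne_zero hab₀ hc₁)
  obtain ⟨m, hm⟩ := exists_int_eq_factorial_mul_coeff k p y hp
    (hexp c₁ p atTop le_rfl hz₁ hc₁ hp hpc hF)
  have hrc : c₁ = (((m : ℚ) / k.factorial : ℚ) : ℝ) := by
    have hk : (k.factorial : ℝ) ≠ 0 := by exact_mod_cast k.factorial_ne_zero
    push_cast
    rw [← hm, hpc, mul_div_cancel_left₀ _ hk]
  exact (hrat _ atTop le_rfl (hrc ▸ hz₁) (hrc ▸ hc₁)).exists.elim fun _ h => h

theorem coeff_comp_linear {R : Type*} [CommRing R] {P : R[X]} {d : ℕ} (hP : P.natDegree ≤ d)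
    (r m : R) : (P.comp (C m * X + C r)).coeff d = P.coeff d * m ^ d := by
  have hL : (C m * X + C r).natDegree ≤ 1 := natDegree_linear_le
  conv_lhs => rw [P.as_sum_range' (d + 1) (Nat.lt_succ_of_le hP)]
  rw [sum_comp, finsetSum_coeff, Finset.sum_range_succ, Finset.sum_eq_zero, zero_add]
  · rw [monomial_comp, coeff_C_mul]
    congr 1
    have := coeff_pow_of_natDegree_le (m := d) hL
    simpa using this
  · intro i hi
    rw [monomial_comp, coeff_C_mul]
    refine mul_eq_zero_of_right _ (coeff_eq_zero_of_natDegree_lt ?_)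
    have := natDegree_pow_le_of_le i hL
    have := Finset.mem_range.1 hi
    omega

theorem natDegree_comp_linear_le {R : Type*} [CommRing R] {P : R[X]} {d : ℕ}
    (hP : P.natDegree ≤ d) (r m : R) : (P.comp (C m * X + C r)).natDegree ≤ d :=
  natDegree_comp_le.trans ((Nat.mul_le_mul hP natDegree_linear_le).trans (mul_one d).le)

/-- Weak Hilbert irreducibility for the mod 3 representation in the family. -/
theorem exists_ge_forall_qf_ne_zero {k : ℕ} {a b : ℤ[X]} {D : ℚ[X]} {e : ℚ}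
    (ha : a.natDegree ≤ 2 * k) (hb : b.natDegree ≤ 3 * k)
    (hab : a.coeff (2 * k) ^ 3 ≠ b.coeff (3 * k) ^ 2)
    {c : ℚ} (hc : qf (a.coeff (2 * k) : ℚ) (b.coeff (3 * k)) c = 0)
    (hD : (a.map (Int.castRingHom ℚ)) ^ 3 - (b.map (Int.castRingHom ℚ)) ^ 2 = C e * D ^ 5)
    (he : e ≠ 0) (hcop : IsCoprime (a.map (Int.castRingHom ℚ)) D) (hsq : Squarefree D)
    (hdeg : 2 * k < 5 * D.natDegree) {M : ℤ} (hM : M ≠ 0) (r N : ℤ) :
    ∃ n : ℤ, N ≤ n ∧ M ∣ n - r ∧
      ∀ y : ℚ, qf ((a.eval n : ℤ) : ℚ) ((b.eval n : ℤ) : ℚ) y ≠ 0 := by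
  set L : ℤ[X] := C |M| * X + C r with hL
  have hM' : |M| ≠ 0 := abs_ne_zero.2 hM
  have hno : ∀ p : ℚ[X], qf ((a.comp L).map (Int.castRingHom ℚ))
      ((b.comp L).map (Int.castRingHom ℚ)) p ≠ 0 := by
    intro p hp
    set m : ℚ := ((|M| : ℤ) : ℚ) with hm
    have hm0 : m ≠ 0 := Int.cast_ne_zero.2 hM'
    set L' : ℚ[X] := C m⁻¹ * (X - C (r : ℚ)) with hL'
    apply qf_ne_zero_of_pow_five (k := k) (natDegree_map_le.trans ha) (natDegree_map_le.trans hb)
      hD he hcop hsq hdeg (p := p.comp L')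
    have hLL : (L.map (Int.castRingHom ℚ)).comp L' = X := by
      rw [hL, hL']
      simp only [Polynomial.map_add, Polynomial.map_mul, map_C, map_X, add_comp,
        mul_comp, C_comp, X_comp]
      rw [eq_intCast, eq_intCast, ← hm]
      rw [← mul_assoc, ← C_mul, mul_inv_cancel₀ hm0, C_1, one_mul, sub_add_cancel]
    have := congrArg (fun q => q.comp L') hp
    simp only [zero_comp] at this
    rw [← coe_compRingHom_apply, map_qf, coe_compRingHom_apply, coe_compRingHom_apply,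
      coe_compRingHom_apply, Polynomial.map_comp, Polynomial.map_comp, comp_assoc, comp_assoc,
      hLL, comp_X, comp_X] at this
    exact this
  have hq : qf ((a.comp L).coeff (2 * k) : ℚ) ((b.comp L).coeff (3 * k))
      ((|M| : ℤ) ^ k * c) = 0 := by
    rw [hL, coeff_comp_linear ha, coeff_comp_linear hb]
    have := qf_weight (((|M| : ℤ) : ℚ) ^ k) (a.coeff (2 * k) : ℚ) (b.coeff (3 * k)) c
    rw [hc, mul_zero] at this
    rw [← this]
    push_cast
    ring_nf
  have hab' : (a.comp L).coeff (2 * k) ^ 3 ≠ (b.comp L).coeff (3 * k) ^ 2 := by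
    rw [hL, coeff_comp_linear ha, coeff_comp_linear hb]
    intro h
    apply hab
    apply mul_right_cancel₀ (pow_ne_zero (6 * k) hM')
    linear_combination h
  obtain ⟨n, hn, hroot⟩ := exists_le_forall_qf_ne_zero_aux (natDegree_comp_linear_le ha r |M|)
    (natDegree_comp_linear_le hb r |M|) hab' hq hno (N - r).toNat
  refine ⟨|M| * n + r, ?_, ?_, ?_⟩
  · have h1 : 1 ≤ |M| := Int.one_le_abs hM
    have h2 : (N - r) ≤ (n : ℤ) := by
      have := Int.self_le_toNat (N - r); omega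
    nlinarith [Int.natCast_nonneg n]
  · rw [add_sub_cancel_right]
    exact (dvd_abs M M).2 (dvd_refl M) |>.mul_right _
  · intro y
    simpa [hL, eval_comp] using hroot y

end Fermat.Agent.Switch
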