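import Fermat.Agent.Switch.Quartic
import Fermat.Prelude.Def_FLTPrelim_ModularRep

/-!
If `qf c₄ c₆` has no rational root then the mod 3 representation is irreducible.
-/

namespace Fermat.Agent.Switch

open Polynomial WeierstrassCurve WeierstrassCurve.Affine WeierstrassCurve.Affine.Point

section curve

variable {K : Type*} [Field K] [DecidableEq K] {E : Affine K}

/-- The variable `12 x + b₂` at a point (junk at `0`). -/
def pointY : E.Point → K
  | .zero => 0
  | .some x _ _ => 12 * x + E.b₂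

omit [DecidableEq K] in
theorem qf_mul_sub {x y : K} (h : E.Equation x y) :
    432 * 16 * ((3 * x ^ 2 + 2 * E.a₂ * x + E.a₄ - E.a₁ * y) ^ 2
      + E.a₁ * (3 * x ^ 2 + 2 * E.a₂ * x + E.a₄ - E.a₁ * y) * (2 * y + E.a₁ * x + E.a₃)
      - (E.a₂ + 3 * x) * (2 * y + E.a₁ * x + E.a₃) ^ 2)
      + qf E.c₄ E.c₆ (12 * x + E.b₂) = 0 := by
  rw [Affine.equation_iff] at h
  simp only [qf, WeierstrassCurve.c₄, WeierstrassCurve.c₆, WeierstrassCurve.b₂,
    WeierstrassCurve.b₄, WeierstrassCurve.b₆]
  linear_combination (-432 * 16 * (E.a₁ ^ 2 + 4 * E.a₂ + 12 * x)) * h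

theorem qf_pointY_of_three_nsmul {P : E.Point} (hP : P ≠ 0) (h3 : P + P = -P) :
    qf E.c₄ E.c₆ (pointY P) = 0 := by
  rcases P with _ | ⟨x, y, h⟩
  · exact absurd rfl hP
  · by_cases hy : y = E.negY x y
    · rw [add_self_of_Y_eq hy, eq_comm, neg_eq_zero] at h3
      exact absurd h3 hP
    · rw [add_self_of_Y_ne' hy, neg_inj, Point.some.injEq] at h3
      have hx : E.addX x x (E.slope x x y y) = x := h3.1
      rw [Affine.addX, slope_of_Y_ne rfl hy] at hx
      have hd : y - E.negY x y = 2 * y + E.a₁ * x + E.a₃ := by rw [Affine.negY]; ring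
      have hd0 : 2 * y + E.a₁ * x + E.a₃ ≠ 0 := by rw [← hd]; exact sub_ne_zero.2 hy
      rw [hd] at hx
      have key := qf_mul_sub h.1
      show qf E.c₄ E.c₆ (12 * x + E.b₂) = 0
      generalize 2 * y + E.a₁ * x + E.a₃ = D at hx hd0 key
      generalize 3 * x ^ 2 + 2 * E.a₂ * x + E.a₄ - E.a₁ * y = T at hx key
      field_simp at hx
      linear_combination key - 432 * 16 * hx

theorem exists_three_torsion [IsAlgClosed K] [CharZero K] (hΔ : E.Δ ≠ 0) :
    ∃ P : E.Point, P ≠ 0 ∧ P + P = -P := by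
  obtain ⟨Y, hY⟩ := IsAlgClosed.exists_root
    (X ^ 4 + (C (-6 * E.c₄) * X ^ 2 + C (-8 * E.c₆) * X + C (-3 * E.c₄ ^ 2)))
    (by
      rw [degree_add_eq_left_of_degree_lt] <;> rw [degree_X_pow]
      · norm_num
      · refine lt_of_le_of_lt ?_ (by norm_num : (2 : WithBot ℕ) < 4)
        compute_degree)
  set x := (Y - E.b₂) / 12 with hx
  have hq : qf E.c₄ E.c₆ (12 * x + E.b₂) = 0 := by
    rw [show 12 * x + E.b₂ = Y by rw [hx]; field_simp; ring]
    simp only [IsRoot, eval_add, eval_mul, eval_pow, eval_C, eval_X] at hY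
    simp only [qf]
    linear_combination hY
  obtain ⟨y, hy⟩ := IsAlgClosed.exists_root
    (X ^ 2 + (C (E.a₁ * x + E.a₃) * X + C (-(x ^ 3 + E.a₂ * x ^ 2 + E.a₄ * x + E.a₆))))
    (by
      rw [degree_add_eq_left_of_degree_lt] <;> rw [degree_X_pow]
      · norm_num
      · refine lt_of_le_of_lt ?_ (by norm_num : (1 : WithBot ℕ) < 2)
        compute_degree)
  have heq : E.Equation x y := by
    simp only [IsRoot, eval_add, eval_mul, eval_pow, eval_C, eval_X] at hy
    rw [Affine.equation_iff]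
    linear_combination hy
  have hns : E.Nonsingular x y := (E.equation_iff_nonsingular_of_Δ_ne_zero hΔ).1 heq
  have key := qf_mul_sub heq
  rw [hq, add_zero, mul_eq_zero] at key
  replace key := key.resolve_left (by norm_num)
  have hd : y - E.negY x y = 2 * y + E.a₁ * x + E.a₃ := by rw [Affine.negY]; ring
  have hy0 : y ≠ E.negY x y := by
    intro hh
    have h0 : 2 * y + E.a₁ * x + E.a₃ = 0 := by rw [← hd, sub_eq_zero]; exact hh
    rw [h0] at key
    simp only [mul_zero, zero_pow two_ne_zero, add_zero, sub_zero] at key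
    obtain hN := pow_eq_zero_iff (n := 2) two_ne_zero |>.1 key
    rcases ((E.nonsingular_iff' x y).1 hns).2 with h1 | h1
    · exact h1 (by linear_combination -hN)
    · exact h1 h0
  refine ⟨.some x y hns, Point.some_ne_zero _, ?_⟩
  rw [add_self_of_Y_ne' hy0, neg_inj, Point.some.injEq]
  have hd0 : 2 * y + E.a₁ * x + E.a₃ ≠ 0 := by rw [← hd]; exact sub_ne_zero.2 hy0
  have hX : E.addX x x (E.slope x x y y) = x := by
    rw [Affine.addX, slope_of_Y_ne rfl hy0, hd]
    generalize 2 * y + E.a₁ * x + E.a₃ = D at key hd0 ⊢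
    generalize 3 * x ^ 2 + 2 * E.a₂ * x + E.a₄ - E.a₁ * y = T at key ⊢
    field_simp
    linear_combination key
  refine ⟨hX, ?_⟩
  rw [Affine.negAddY, hX, sub_self, mul_zero, zero_add]

omit [DecidableEq K] in
theorem eq_or_eq_neg_of_pointY_eq [CharZero K] {P Q : E.Point} (hP : P ≠ 0) (hQ : Q ≠ 0)
    (h : pointY P = pointY Q) : P = Q ∨ P = -Q := by
  rcases P with _ | ⟨x₁, y₁, h₁⟩
  · exact absurd rfl hP
  rcases Q with _ | ⟨x₂, y₂, h₂⟩
  · exact absurd rfl hQ
  simp only [pointY, add_left_inj, mul_eq_mul_left_iff] at h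
  obtain rfl := h.resolve_right (by norm_num)
  rcases Y_eq_of_X_eq h₁.1 h₂.1 rfl with rfl | hy
  · exact Or.inl rfl
  · right
    rw [Point.neg_some, Point.some.injEq]
    exact ⟨rfl, hy⟩

/-- A group of 3-torsion points with two points having different `x` contains all of them. -/
theorem mem_of_pointY_ne [CharZero K] {H : AddSubgroup E.Point}
    (htor : ∀ u ∈ H, u + u = -u) {v w : E.Point} (hv : v ∈ H) (hw : w ∈ H) (hv0 : v ≠ 0)
    (hw0 : w ≠ 0) (hvw : pointY v ≠ pointY w) {u : E.Point} (hu : u + u = -u) : u ∈ H := by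
  classical
  rcases eq_or_ne u 0 with rfl | hu0
  · exact H.zero_mem
  have hv3 := htor v hv
  have hw3 := htor w hw
  have hvw0 : v ≠ w := fun h => hvw (by rw [h])
  have hvw' : v ≠ -w := fun h => by
    subst h
    rcases w with _ | ⟨x, y, hh⟩
    · exact hw0 rfl
    · exact hvw rfl
  have hs : v + w ≠ 0 := fun h => hvw' (eq_neg_of_add_eq_zero_left h)
  have hd : v - w ≠ 0 := sub_ne_zero.2 hvw0
  by_contra hmem
  have hne : ∀ t ∈ H, t ≠ 0 → pointY u ≠ pointY t := fun t ht ht0 h => by
    rcases eq_or_eq_neg_of_pointY_eq hu0 ht0 h with rfl | rfl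
    · exact hmem ht
    · exact hmem (H.neg_mem ht)
  have hdiff : ∀ s t : E.Point, s ≠ 0 → t ≠ 0 → s ≠ t → s ≠ -t → pointY s ≠ pointY t :=
    fun s t hs0 ht0 h1 h2 h => (eq_or_eq_neg_of_pointY_eq hs0 ht0 h).elim h1 h2
  have hvv : v + v + v = 0 := by rw [hv3, neg_add_cancel]
  have hww : w + w + w = 0 := by rw [hw3, neg_add_cancel]
  set q : K[X] := X ^ 4 + (C (-6 * E.c₄) * X ^ 2 + C (-8 * E.c₆) * X + C (-3 * E.c₄ ^ 2)) with hq
  have hqd : q.natDegree = 4 := by
    rw [hq]; compute_degree!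
  have hroot : ∀ t : E.Point, t ≠ 0 → t + t = -t → q.eval (pointY t) = 0 := fun t ht ht3 => by
    have := qf_pointY_of_three_nsmul ht ht3
    simp only [qf] at this
    simp only [hq, eval_add, eval_mul, eval_pow, eval_C, eval_X]
    linear_combination this
  set L : List K := [pointY u, pointY v, pointY w, pointY (v + w), pointY (v - w)] with hL
  have hnd : L.Nodup := by
    have n1 := hne v hv hv0
    have n2 := hne w hw hw0
    have n3 := hne _ (H.add_mem hv hw) hs
    have n4 := hne _ (H.sub_mem hv hw) hd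
    have n5 : pointY v ≠ pointY (v + w) := hdiff _ _ hv0 hs
      (fun h => hw0 (left_eq_add.1 h))
      (fun h => hvw0 <| by
        have : v + (v + w) = 0 := by nth_rw 1 [h]; exact neg_add_cancel _
        calc v = v + (v + v + w) - (v + (v + w)) + 0 := by abel
          _ = w := by rw [this]; linear_combination (norm := abel) hvv)
    have n6 : pointY v ≠ pointY (v - w) := hdiff _ _ hv0 hd
      (fun h => hw0 <| by linear_combination (norm := abel) h)
      (fun h => hvw' <| by linear_combination (norm := abel) hvv - h)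
    have n7 : pointY w ≠ pointY (v + w) := hdiff _ _ hw0 hs
      (fun h => hv0 <| by linear_combination (norm := abel) -h)
      (fun h => hvw0 <| by linear_combination (norm := abel) h - hww)
    have n8 : pointY w ≠ pointY (v - w) := hdiff _ _ hw0 hd
      (fun h => hvw' <| by linear_combination (norm := abel) -h + hww)
      (fun h => hv0 <| by linear_combination (norm := abel) h)
    have n9 : pointY (v + w) ≠ pointY (v - w) := hdiff _ _ hs hd
      (fun h => hw0 <| by linear_combination (norm := abel) hww - h)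
      (fun h => hv0 <| by linear_combination (norm := abel) hvv - h)
    simp [hL, n1, n2, n3, n4, hvw, n5, n6, n7, n8, n9]
  have hsub : L.toFinset.val ⊆ q.roots := by
    intro z hz
    have hq0 : q ≠ 0 := fun h => by rw [h, natDegree_zero] at hqd; exact absurd hqd (by norm_num)
    rw [mem_roots hq0, IsRoot]
    have hz' : z ∈ L := List.mem_toFinset.1 hz
    simp only [hL, List.mem_cons, List.not_mem_nil, or_false] at hz'
    rcases hz' with rfl | rfl | rfl | rfl | rfl
    · exact hroot _ hu0 hu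
    · exact hroot _ hv0 hv3
    · exact hroot _ hw0 hw3
    · exact hroot _ hs (htor _ (H.add_mem hv hw))
    · exact hroot _ hd (htor _ (H.sub_mem hv hw))
  have := card_le_degree_of_subset_roots hsub
  rw [List.toFinset_card_of_nodup hnd, hqd] at this
  simp [hL] at this

end curve

theorem pointY_smul {W : WeierstrassCurve ℚ} (σ : AlgebraicClosure ℚ ≃ₐ[ℚ] AlgebraicClosure ℚ)
    (P : (W.toAffine⁄(AlgebraicClosure ℚ)).Point) :
    pointY (σ • P) = σ (pointY P) := by
  rcases P with _ | ⟨x, y, h⟩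
  · exact (map_zero σ).symm
  · show 12 * σ x + _ = σ (12 * x + _)
    rw [map_add, map_mul, map_ofNat]
    congr 1
    simp [WeierstrassCurve.baseChange]

/-- If the quartic `qf c₄ c₆` has no rational root then the mod 3 representation is
irreducible. -/
theorem modRepIsIrreducible_three_of_forall (W : WeierstrassCurve ℤ) (hΔ : W.Δ ≠ 0)
    (h : ∀ y : ℚ, qf (W.c₄ : ℚ) (W.c₆ : ℚ) y ≠ 0) : W.ModRepIsIrreducible 3 := by
  set K := AlgebraicClosure ℚ
  set E : Affine K := (W.map (Int.castRingHom ℚ)).toAffine⁄K with hE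
  have hc4 : E.c₄ = algebraMap ℚ K (W.c₄ : ℚ) := by
    simp [hE, WeierstrassCurve.baseChange]
  have hc6 : E.c₆ = algebraMap ℚ K (W.c₆ : ℚ) := by
    simp [hE, WeierstrassCurve.baseChange]
  have hEΔ : E.Δ ≠ 0 := by
    have : E.Δ = algebraMap ℚ K (W.Δ : ℚ) := by simp [hE, WeierstrassCurve.baseChange]
    rw [this, _root_.map_ne_zero]
    exact_mod_cast hΔ
  have htors : ∀ P : E.Point, P ∈ Submodule.torsionBy ℤ E.Point (3 : ℕ) ↔ P + P = -P := by
    intro P
    rw [Submodule.mem_torsionBy_iff, eq_neg_iff_add_eq_zero]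
    constructor <;> intro h' <;> linear_combination (norm := module) h'
  obtain ⟨P₀, hP₀, hP₀3⟩ := exists_three_torsion hEΔ
  refine ⟨⟨⟨P₀, (htors P₀).2 hP₀3⟩, 0, fun hh => hP₀ (congrArg Subtype.val hh)⟩, ?_⟩
  intro N hN
  rw [or_iff_not_imp_left, ← ne_eq, Submodule.ne_bot_iff]
  rintro ⟨v, hvN, hv0⟩
  have hv0' : (v : E.Point) ≠ 0 := fun hh => hv0 (Subtype.ext hh)
  by_cases hall : ∀ w ∈ N, (w : E.Point) ≠ 0 → pointY (w : E.Point) = pointY (v : E.Point)
  · exfalso
    have hfix : ∀ σ : K ≃ₐ[ℚ] K, σ (pointY (v : E.Point)) = pointY (v : E.Point) := fun σ => by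
      rw [← pointY_smul σ (v : E.Point)]
      refine hall (σ • v) (hN σ v hvN) fun hh => hv0' ?_
      have h2 : σ • (v : E.Point) = 0 := hh
      rw [← inv_smul_smul σ (v : E.Point), h2, smul_zero]
    have halg : Algebra.IsAlgebraic ℚ (AlgebraicClosure ℚ) := AlgebraicClosure.isAlgebraic ℚ
    have hcl : IsAlgClosure ℚ (AlgebraicClosure ℚ) := ⟨inferInstance, halg⟩
    have : IsGalois ℚ (AlgebraicClosure ℚ) := IsAlgClosure.isGalois ℚ (AlgebraicClosure ℚ)
    obtain ⟨r, hr⟩ := (InfiniteGalois.mem_range_algebraMap_iff_fixed _).2 hfix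
    apply h r
    apply (algebraMap ℚ K).injective
    rw [map_qf, _root_.map_zero, hr, ← hc4, ← hc6]
    exact qf_pointY_of_three_nsmul hv0' ((htors _).1 v.2)
  · push Not at hall
    obtain ⟨w, hwN, hw0, hne⟩ := hall
    rw [eq_top_iff]
    rintro u -
    set H : AddSubgroup E.Point :=
      N.toAddSubgroup.map (Submodule.torsionBy ℤ E.Point (3 : ℕ)).subtype.toAddMonoidHom with hH
    have := mem_of_pointY_ne (H := H) (by
        rintro _ ⟨t, -, rfl⟩
        exact (htors _).1 t.2)
      (v := (v : E.Point)) (w := (w : E.Point)) ⟨v, hvN, rfl⟩ ⟨w, hwN, rfl⟩ hv0' hw0 hne.symm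
      (u := (u : E.Point)) ((htors _).1 u.2)
    obtain ⟨t, ht, htu⟩ := this
    rwa [← Subtype.ext htu]

/-- Contrapositive form. -/
theorem exists_qf_eq_zero_of_not_irreducible_three (W : WeierstrassCurve ℤ) (hΔ : W.Δ ≠ 0)
    (h : ¬ W.ModRepIsIrreducible 3) : ∃ y : ℚ, qf (W.c₄ : ℚ) (W.c₆ : ℚ) y = 0 := by
  by_contra hh
  push Not at hh
  exact h (modRepIsIrreducible_three_of_forall W hΔ hh)

end Fermat.Agent.Switch
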