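/-
The 3-5 switch, reduced to the congruence of Frobenius traces inside the five-torsion family.
-/
import Fermat.Agent.Switch.Assembly
import Fermat.Agent.Switch.HIT
import Fermat.Agent.Switch.Mod3Root

set_option autoImplicit false

namespace Fermat.Agent.Switch

open Polynomial WeierstrassCurve

/-- The 3-5 switch, given the trace congruence in the family. -/
theorem threeFiveSwitch_of_trace (W : WeierstrassCurve ℤ) (hΔ : W.Δ ≠ 0)
    (hW : W.IsSemistableModel)
    (htrace : ∀ x y : ℤ, (10368 : ℤ) ∣ x - 1 → (10368 : ℤ) ∣ y →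
      ∀ ℓ : ℕ, ℓ.Prime → 7 ≤ ℓ → W.IsGoodPrimeFor ℓ → (fiveModel W x y).IsGoodPrimeFor ℓ →
        (5 : ℤ) ∣ (fiveModel W x y).apOfModel ℓ - W.apOfModel ℓ) :
    ∃ W' : WeierstrassCurve ℤ, W'.Δ ≠ 0 ∧ W'.IsSemistableModel ∧ W'.ModRepIsIrreducible 3 ∧
      ∀ ℓ : ℕ, ℓ.Prime → W.IsGoodPrimeFor ℓ → W'.IsGoodPrimeFor ℓ → ℓ ≠ 5 →
        (5 : ℤ) ∣ (W'.apOfModel ℓ - W.apOfModel ℓ) := by
  refine threeFiveSwitch_of
    (fun V hV h => modRepIsIrreducible_three_of_forall V hV fun y => by simpa [qf] using h y)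
    (fun a b D e ha hb hab hy hD he hcop hsq hdeg => ?_) W hΔ hW htrace
  obtain ⟨y, hy⟩ := hy
  obtain ⟨n, -, -, hn⟩ := exists_ge_forall_qf_ne_zero (k := 10) (D := D.map (Int.castRingHom ℚ))
    (e := (e : ℚ)) ha hb hab (c := y) (by simpa [qf] using hy)
    (by simpa using congrArg (Polynomial.map (Int.castRingHom ℚ)) hD)
    (by exact_mod_cast he) hcop hsq
    (by
      rw [natDegree_map_eq_of_injective (Int.castRingHom ℚ).injective_int, hdeg]
      norm_num)
    one_ne_zero 0 0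
  exact ⟨n, fun Y => by simpa [qf] using hn Y⟩

end Fermat.Agent.Switch
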