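/-
The 3-5 switch from the five-torsion isomorphism of the family and the trace of Frobenius.
-/
import Fermat.Agent.Switch.Main
import Fermat.Agent.Switch.TraceGlue

set_option autoImplicit false

namespace Fermat.Agent.Switch

open WeierstrassCurve
open scoped WeierstrassCurve.Affine

local notation "Qb" => AlgebraicClosure ℚ

/-- The five-torsion isomorphism inside the family. -/
def TorsionFiveFamily : Prop :=
  ∀ (E E' : WeierstrassCurve ℚ), E.Δ ≠ 0 → E'.Δ ≠ 0 → ∀ s t : ℚ, s ≠ 0 → E.c₆ ≠ 0 →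
    E'.c₄ = fiveC4 E.c₄ E.c₆ s t → E'.c₆ = fiveC6 E.c₄ E.c₆ s t →
    ∃ φ : Submodule.torsionBy ℤ (E⁄Qb).Point (5 : ℕ) ≃ₗ[ZMod 5]
      Submodule.torsionBy ℤ (E'⁄Qb).Point (5 : ℕ),
      ∀ (σ : Qb ≃ₐ[ℚ] Qb) P, φ (σ • P) = σ • φ P

theorem c₆_ne_zero_of_isSemistableModel (W : WeierstrassCurve ℤ) (hW : W.IsSemistableModel) :
    W.c₆ ≠ 0 := by
  intro h6
  have hrel := W.c_relation
  rw [h6] at hrel
  have hΔ1 : W.Δ.natAbs = 1 := by
    by_contra h
    obtain ⟨p, hp, hpd⟩ := Nat.exists_prime_and_dvd h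
    have hd : (p : ℤ) ∣ W.Δ := Int.natCast_dvd.mpr hpd
    refine hW p hp hd ((Nat.prime_iff_prime_int.mp hp).dvd_of_dvd_pow (n := 3) ?_)
    rw [show W.c₄ ^ 3 = 1728 * W.Δ by linear_combination -hrel]
    exact hd.mul_left _
  have hc : W.c₄.natAbs = 12 := by
    have h := congrArg Int.natAbs hrel
    rw [Int.natAbs_mul, hΔ1, mul_one] at h
    have h3 : W.c₄.natAbs ^ 3 = 12 ^ 3 := by
      rw [← Int.natAbs_pow]
      simpa using h.symm
    exact Nat.pow_left_injective (by norm_num) h3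
  have h8 : (W.c₄ : ZMod 8) = 4 := by
    rcases Int.natAbs_eq_iff.mp hc with h | h <;> rw [h] <;> decide
  rw [WeierstrassCurve.c₄, WeierstrassCurve.b₂, WeierstrassCurve.b₄] at h8
  push_cast at h8
  rw [show (24 : ZMod 8) = 0 by decide, zero_mul, sub_zero] at h8
  generalize (W.a₁ : ZMod 8) = u at h8
  generalize (W.a₂ : ZMod 8) = v at h8
  revert u v
  decide

/-- S52 from the torsion isomorphism of the family and the trace of Frobenius on five-torsion. -/
theorem threeFiveSwitch_of_torsion (htor : TorsionFiveFamily) (htr : TraceIsAp 5)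
    (W : WeierstrassCurve ℤ) (hΔ : W.Δ ≠ 0) (hW : W.IsSemistableModel) :
    ∃ W' : WeierstrassCurve ℤ, W'.Δ ≠ 0 ∧ W'.IsSemistableModel ∧ W'.ModRepIsIrreducible 3 ∧
      ∀ ℓ : ℕ, ℓ.Prime → W.IsGoodPrimeFor ℓ → W'.IsGoodPrimeFor ℓ → ℓ ≠ 5 →
        (5 : ℤ) ∣ (W'.apOfModel ℓ - W.apOfModel ℓ) := by
  refine threeFiveSwitch_of_trace W hΔ hW fun x y hx hy ℓ hℓ h7 hg hg' => ?_
  set f := Int.castRingHom ℚ
  have hx0 : x ≠ 0 := fun h => by
    rw [h] at hx
    norm_num at hx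
  obtain ⟨φ, hφ⟩ := htor (W.map f) ((fiveModel W x y).map f)
    (by
      rw [WeierstrassCurve.map_Δ]
      exact (map_ne_zero_iff f f.injective_int).mpr hΔ)
    (by
      rw [WeierstrassCurve.map_Δ]
      exact (map_ne_zero_iff f f.injective_int).mpr (fiveModel_Δ_ne_zero W hΔ hx hy))
    (x : ℚ) (y : ℚ) (Int.cast_ne_zero.mpr hx0)
    (by
      rw [WeierstrassCurve.map_c₆]
      exact (map_ne_zero_iff f f.injective_int).mpr (c₆_ne_zero_of_isSemistableModel W hW))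
    (by
      rw [WeierstrassCurve.map_c₄, fiveModel_c₄ W hx hy, map_fiveC4]
      simp [f])
    (by
      rw [WeierstrassCurve.map_c₆, fiveModel_c₆ W hx hy, map_fiveC6]
      simp [f])
  exact_mod_cast dvd_apOfModel_sub_of_torsion_equiv htr W (fiveModel W x y) φ hφ hℓ (by omega) hg hg'

end Fermat.Agent.Switch
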