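/-
The trace of Frobenius on five-torsion, and the 3-5 switch from the torsion isomorphism alone.
-/
import Fermat.Agent.Switch.FinalGlue
import Fermat.Agent.EC.Frob.Trace

set_option autoImplicit false

namespace Fermat.Agent.Switch

open WeierstrassCurve

theorem traceIsAp {p : ℕ} (hp : p.Prime) : TraceIsAp p :=
  fun V _ _ _ hℓ hℓp hg hA hσ =>
    Fermat.Agent.EC.galoisTrace_frobenius V hℓ hA hg hσ hp.one_lt
      fun h => hℓp ((Nat.prime_dvd_prime_iff_eq hℓ hp).mp h)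

/-- S52 from the torsion isomorphism of the family. -/
theorem threeFiveSwitch_of_torsionFive (htor : TorsionFiveFamily) (W : WeierstrassCurve ℤ)
    (hΔ : W.Δ ≠ 0) (hW : W.IsSemistableModel) :
    ∃ W' : WeierstrassCurve ℤ, W'.Δ ≠ 0 ∧ W'.IsSemistableModel ∧ W'.ModRepIsIrreducible 3 ∧
      ∀ ℓ : ℕ, ℓ.Prime → W.IsGoodPrimeFor ℓ → W'.IsGoodPrimeFor ℓ → ℓ ≠ 5 →
        (5 : ℤ) ∣ (W'.apOfModel ℓ - W.apOfModel ℓ) :=
  threeFiveSwitch_of_torsion htor (traceIsAp Nat.prime_five) W hΔ hW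

end Fermat.Agent.Switch
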