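import Fermat.Agent.Switch.Forms

/-!
# Values of the family near the degenerate parameters

For `s = 1 + 512 e` (resp. `1 + 729 e`) the forms of `(s, -s)` at `(13 : 1)` (resp. `(7 : 1)`) have
exact `2`-adic (resp. `3`-adic) valuations `25, 40, 60` (resp. `13, 20, ≥ 30`).
-/

set_option autoImplicit false

namespace Fermat.Agent.Switch

/-- The value of `fiveD` near the degenerate parameter at `2`. -/
theorem exists_fiveD_eqTwo (e : ℤ) :
    ∃ G : ℤ, fiveD (1 + 512 * e) (-(1 + 512 * e)) 13 1 = 2 ^ 25 * (2 * G + 1) := by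
  refine ⟨(265720) + (-49364964) * e ^ 1 + (-3817953792) * e ^ 2 + (50847122304) * e ^ 3 + (-1722499088384) * e ^ 4 + (-11237251350528) * e ^ 5 + (24461180928000) * e ^ 6, ?_⟩
  simp only [fiveD]
  ring

/-- The value of `fiveC4` near the degenerate parameter at `2`. -/
theorem exists_fiveC4_eqTwo (e : ℤ) :
    ∃ G : ℤ, fiveC4 (1 + 512 * e) (-(1 + 512 * e)) 13 1 = 2 ^ 40 * (2 * G + 1) := by
  refine ⟨(1743392200) + (3954788351712) * e ^ 1 + (1494735208128000) * e ^ 2 + (-19858693100875776) * e ^ 3 + (8517843329266925568) * e ^ 4 + (-259764457795832512512) * e ^ 5 + (-8378625671866550845440) * e ^ 6 + (-124805632201395361808384) * e ^ 7 + (1817407490476090119421952) * e ^ 8 + (-2322075055376493742915584) * e ^ 9 + (69876013294101486108672000) * e ^ 10 + (53186610879320083660800000) * e ^ 11, ?_⟩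
  simp only [fiveC4, fiveC4Part0, fiveC4Part1, fiveC4Part2, fiveC4Part3]
  ring

/-- The value of `fiveC6` near the degenerate parameter at `2`. -/
theorem exists_fiveC6_eqTwo (e : ℤ) :
    ∃ G : ℤ, fiveC6 (1 + 512 * e) (-(1 + 512 * e)) 13 1 = 2 ^ 60 * (4 * G + 3) := by
  refine ⟨(-51472783023663) + (246520315494659736) * e ^ 1 + (166935974081013614592) * e ^ 2 + (24335453306597872813056) * e ^ 3 + (4676635170412102856798208) * e ^ 4 + (-306790416224559556686839808) * e ^ 5 + (12742843409490034587358199808) * e ^ 6 + (258510565834252022995753107456) * e ^ 7 + (37780304393057061947266006253568) * e ^ 8 + (20558592064986090913295587344384) * e ^ 9 + (-17383568686494766541169270642966528) * e ^ 10 + (-56601367950120649214122776950996992) * e ^ 11 + (-1310219166480878476229546924419579904) * e ^ 12 + (14534759371153398671616614860899483648) * e ^ 13 + (-104089918815435664336254618650139426816) * e ^ 14 + (-181128011445880729447636859942338560000) * e ^ 15 + (-684835793224281777054584332615680000000) * e ^ 16,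 ?_⟩
  simp only [fiveC6, fiveC6Part0, fiveC6Part1, fiveC6Part2, fiveC6Part3, fiveC6Part4, fiveC6Part5]
  ring

/-- The value of `fiveD` near the degenerate parameter at `3`. -/
theorem exists_fiveD_eqThree (e : ℤ) :
    ∃ G : ℤ, fiveD (1 + 729 * e) (-(1 + 729 * e)) 7 1 = 3 ^ 13 * (3 * G + 1) := by
  refine ⟨(1365) + (-1993728) * e ^ 1 + (-582266880) * e ^ 2 + (32385096000) * e ^ 3 + (-8003922833664) * e ^ 4 + (-248152121296236) * e ^ 5 + (2859599056870125) * e ^ 6, ?_⟩
  simp only [fiveD]
  ring

/-- The value of `fiveC4` near the degenerate parameter at `3`. -/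
theorem exists_fiveC4_eqThree (e : ℤ) :
    ∃ G : ℤ, fiveC4 (1 + 729 * e) (-(1 + 729 * e)) 7 1 = 3 ^ 20 * (3 * G + 1) := by
  refine ⟨(349525) + (8054636544) * e ^ 1 + (5518146207744) * e ^ 2 + (985742067695616) * e ^ 3 + (582873016068698112) * e ^ 4 + (-199483988102731229184) * e ^ 5 + (-27998778821265040207104) * e ^ 6 + (-1375412729282835893542656) * e ^ 7 + (132746165025201007855357968) * e ^ 8 + (-347458548872183445280677672) * e ^ 9 + (141015623398172712957840006375) * e ^ 10 + (545153784403500559597407834375) * e ^ 11, ?_⟩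
  simp only [fiveC4, fiveC4Part0, fiveC4Part1, fiveC4Part2, fiveC4Part3]
  ring

/-- The value of `fiveC6` near the degenerate parameter at `3`. -/
theorem exists_fiveC6_eqThree (e : ℤ) :
    ∃ G : ℤ, fiveC6 (1 + 729 * e) (-(1 + 729 * e)) 7 1 = 3 ^ 30 * G := by
  refine ⟨(-1073741824) + (57989306253312) * e ^ 1 + (129442405253382144) * e ^ 2 + (107478623645098573824) * e ^ 3 + (16637984400779167924224) * e ^ 4 + (-6335231388144785333157888) * e ^ 5 + (4810759379827823362263220224) * e ^ 6 + (1134145221226762974861864665088) * e ^ 7 + (237633296948275964112219329445888) * e ^ 8 + (-11839679834896392318592475936182272) * e ^ 9 + (-3343976374266892580932430871833558016) * e ^ 10 + (-77718475293500272043589311802022900992) * e ^ 11 + (-4519078948367166604269214686787647473664) * e ^ 12 + (280750668845061257915224660050241702708416) * e ^ 13 + (-13818580584687436987782365785809385974207444) * e ^ 14 + (-132013657953964195556040480876177203569614375) * e ^ 15 + (-2297965394801159276554731158677365329890546875)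 * e ^ 16, ?_⟩
  simp only [fiveC6, fiveC6Part0, fiveC6Part1, fiveC6Part2, fiveC6Part3, fiveC6Part4, fiveC6Part5]
  ring

variable {R : Type*} [CommRing R]

theorem fiveD_homog (a b c x y : R) : fiveD a b (c * x) (c * y) = c ^ 12 * fiveD a b x y := by
  simp only [fiveD]
  ring

theorem fiveC4_homog (a b c x y : R) : fiveC4 a b (c * x) (c * y) = c ^ 20 * fiveC4 a b x y := by
  simp only [fiveC4, fiveC4Part0, fiveC4Part1, fiveC4Part2, fiveC4Part3]
  ring

theorem fiveC6_homog (a b c x y : R) : fiveC6 a b (c * x) (c * y) = c ^ 30 * fiveC6 a b x y := by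
  simp only [fiveC6, fiveC6Part0, fiveC6Part1, fiveC6Part2, fiveC6Part3, fiveC6Part4, fiveC6Part5]
  ring

theorem fiveD_weight (l s x y : R) :
    fiveD (l ^ 2 * s) (-(l ^ 3 * s)) (l * x * y) y = l ^ 12 * y ^ 12 * fiveD s (-s) x 1 := by
  simp only [fiveD]
  ring

theorem fiveC4_weight (l s x y : R) :
    fiveC4 (l ^ 2 * s) (-(l ^ 3 * s)) (l * x * y) y = l ^ 22 * y ^ 20 * fiveC4 s (-s) x 1 := by
  simp only [fiveC4, fiveC4Part0, fiveC4Part1, fiveC4Part2, fiveC4Part3]
  ring

theorem fiveC6_weight (l s x y : R) :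
    fiveC6 (l ^ 2 * s) (-(l ^ 3 * s)) (l * x * y) y = l ^ 33 * y ^ 30 * fiveC6 s (-s) x 1 := by
  simp only [fiveC6, fiveC6Part0, fiveC6Part1, fiveC6Part2, fiveC6Part3, fiveC6Part4, fiveC6Part5]
  ring

end Fermat.Agent.Switch
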