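/-
The local behaviour at `2` and `3` of the members of the five-torsion family used by the adjusted
switch: either parameters congruent to `(1 : 0)`, or the degenerate parameter `x / y ≡ -13 b / a`
(resp. `-7 b / a`), which changes the valuation of the discriminant by five after rescaling.
-/
import Fermat.Agent.Switch.AdjustedValues
import Fermat.Agent.Switch.Model
import Fermat.Prelude.Def_FLTPrelim_Modularity
import Mathlib.NumberTheory.Padics.PadicVal.Basic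

set_option autoImplicit false

namespace Fermat.Agent.Switch

/-- At parameters congruent to the degenerate one the forms agree, modulo `n`, with those of
`(1 + c e, -(1 + c e))` at `(x₀ : 1)`. -/
theorem forms_congr_degenerate {n a b x y A Bi T c x₀ : ℤ} (hA : n ∣ a * A - 1)
    (hB : n ∣ b * Bi - 1) (hT : a ^ 3 - b ^ 2 = c * T) (hx : n ∣ x * a + x₀ * b * y) :
    n ∣ fiveD a b x y - (-(b * A)) ^ 12 * y ^ 12 *
        fiveD (1 + c * (T * Bi ^ 2)) (-(1 + c * (T * Bi ^ 2))) x₀ 1 ∧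
      n ∣ fiveC4 a b x y - (-(b * A)) ^ 22 * y ^ 20 *
        fiveC4 (1 + c * (T * Bi ^ 2)) (-(1 + c * (T * Bi ^ 2))) x₀ 1 ∧
      n ∣ fiveC6 a b x y - (-(b * A)) ^ 33 * y ^ 30 *
        fiveC6 (1 + c * (T * Bi ^ 2)) (-(1 + c * (T * Bi ^ 2))) x₀ 1 := by
  set f := Ideal.Quotient.mk (Ideal.span {n})
  have h0 : ∀ {m : ℤ}, n ∣ m → f m = 0 := fun h =>
    Ideal.Quotient.eq_zero_iff_mem.2 (Ideal.mem_span_singleton.2 h)
  have eA : f a * f A = 1 := by rw [← map_mul, ← sub_eq_zero, ← map_one f, ← map_sub, h0 hA]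
  have eB : f b * f Bi = 1 := by rw [← map_mul, ← sub_eq_zero, ← map_one f, ← map_sub, h0 hB]
  have eT : f a ^ 3 - f b ^ 2 = f c * f T := by
    rw [← map_pow, ← map_pow, ← map_sub, hT, map_mul]
  have ex : f x * f a + f x₀ * f b * f y = 0 := by
    rw [← h0 hx]; simp only [map_add, map_mul]
  set l := f (-(b * A)) with hl
  set s := f (1 + c * (T * Bi ^ 2)) with hs
  have hl' : l = -(f b * f A) := by rw [hl, map_neg, map_mul]
  have hs' : s = 1 + f c * (f T * f Bi ^ 2) := by simp [hs]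
  have hs'' : s = f a ^ 3 * f Bi ^ 2 := by
    rw [hs']
    linear_combination -f Bi ^ 2 * eT - (f b * f Bi + 1) * eB
  have ha : f a = l ^ 2 * s := by
    rw [hl', hs'']
    linear_combination -(f a * (f a * f A + 1) * (f b * f Bi) ^ 2) * eA
      - f a * (f b * f Bi + 1) * eB
  have hb : f b = -(l ^ 3 * s) := by
    rw [hl', hs'']
    linear_combination -(f b * ((f a * f A) ^ 2 + f a * f A + 1) * (f b * f Bi) ^ 2) * eA
      - f b * (f b * f Bi + 1) * eB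
  have hx' : f x = l * f x₀ * f y := by
    rw [hl']
    linear_combination f A * ex - f x * eA
  have hmem : ∀ {m m' : ℤ}, f m = f m' → n ∣ m - m' := fun h =>
    Ideal.mem_span_singleton.1 (Ideal.Quotient.eq.1 h)
  refine ⟨hmem ?_, hmem ?_, hmem ?_⟩
  · rw [map_fiveD, ha, hb, hx', fiveD_weight, map_mul, map_mul, map_pow, map_pow, map_fiveD,
      map_neg f (1 + c * _), map_one]
  · rw [map_fiveC4, ha, hb, hx', fiveC4_weight, map_mul, map_mul, map_pow, map_pow, map_fiveC4,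
      map_neg f (1 + c * _), map_one]
  · rw [map_fiveC6, ha, hb, hx', fiveC6_weight, map_mul, map_mul, map_pow, map_pow, map_fiveC6,
      map_neg f (1 + c * _), map_one]

/-- The forms at the degenerate parameter at `2`. -/
theorem exists_forms_two {a b x y Δ : ℤ} (hrel : a ^ 3 - b ^ 2 = 1728 * Δ)
    (ha : (a : ZMod 4) = 1) (hb : (b : ZMod 4) = 3) (hΔ : (8 : ℤ) ∣ Δ) (hy : ¬ (2 : ℤ) ∣ y)
    (hx : (2 : ℤ) ^ 62 ∣ x * a + 13 * b * y) :
    ∃ D A B : ℤ, fiveD a b x y = 2 ^ 25 * D ∧ fiveC4 a b x y = 2 ^ 40 * A ∧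
      fiveC6 a b x y = 2 ^ 60 * B ∧ ¬ (2 : ℤ) ∣ D ∧ ¬ (2 : ℤ) ∣ A ∧ (B : ZMod 4) = 3 := by
  have cast2 : ∀ m : ℤ, (2 : ℤ) ∣ m ↔ ((m : ZMod 2) = 0) := fun m =>
    (ZMod.intCast_zmod_eq_zero_iff_dvd m 2).symm
  have red : ∀ m : ℤ, ZMod.castHom (show 2 ∣ 4 by norm_num) (ZMod 2) (m : ZMod 4) = (m : ZMod 2) :=
    fun m => map_intCast _ m
  have ha2 : ¬ (2 : ℤ) ∣ a := by rw [cast2, ← red, ha, map_one]; exact one_ne_zero
  have hb2 : ¬ (2 : ℤ) ∣ b := by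
    rw [cast2, ← red, hb]
    decide
  obtain ⟨A, u, hA⟩ := ((Int.prime_two.coprime_iff_not_dvd.2 ha2).symm.pow_right (n := 62))
  obtain ⟨Bi, u', hB⟩ := ((Int.prime_two.coprime_iff_not_dvd.2 hb2).symm.pow_right (n := 62))
  obtain ⟨Δ', rfl⟩ := hΔ
  set T := 27 * Δ' with hT
  obtain ⟨⟨kD, hkD⟩, ⟨k4, hk4⟩, k6, hk6⟩ := forms_congr_degenerate (n := (2 : ℤ) ^ 62) (A := A)
    (Bi := Bi) (c := 512) (T := T) (x₀ := 13) ⟨-u, by linear_combination hA⟩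
    ⟨-u', by linear_combination hB⟩ (by rw [hrel, hT]; ring) hx
  set l := -(b * A) with hl
  set e := T * Bi ^ 2
  obtain ⟨GD, hGD⟩ := exists_fiveD_eqTwo e
  obtain ⟨G4, hG4⟩ := exists_fiveC4_eqTwo e
  obtain ⟨G6, hG6⟩ := exists_fiveC6_eqTwo e
  rw [hGD] at hkD
  rw [hG4] at hk4
  rw [hG6] at hk6
  have h4 : (((2 : ℤ) ^ 62 : ℤ) : ZMod 4) = 0 :=
    (ZMod.intCast_zmod_eq_zero_iff_dvd _ 4).2 (by norm_num)
  have hA4 : (A : ZMod 4) = 1 := by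
    have h := congrArg (fun m : ℤ => (m : ZMod 4)) hA
    simp only [Int.cast_add, Int.cast_mul, Int.cast_one] at h
    rwa [ha, h4, mul_zero, add_zero, mul_one] at h
  have hl4 : (l : ZMod 4) = 1 := by
    rw [hl]; push_cast; rw [hb, hA4]; decide
  have hy4 : (y : ZMod 4) ^ 2 = 1 := by
    have hy2 : (y : ZMod 2) ≠ 0 := fun h => hy ((cast2 y).2 h)
    rw [← red] at hy2
    generalize (y : ZMod 4) = z at hy2 ⊢
    revert z
    decide
  have hl2 : ¬ (2 : ℤ) ∣ l := by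
    rw [cast2, ← red, hl4, map_one]; exact one_ne_zero
  have unit : ∀ (i j : ℕ) (G K : ℤ), ¬ (2 : ℤ) ∣ l ^ i * y ^ j * (2 * G + 1) + 2 * K := by
    intro i j G K h
    rcases Int.prime_two.dvd_or_dvd ((dvd_add_left (dvd_mul_right 2 K)).1 h) with h | h
    · exact (Int.prime_two.dvd_or_dvd h).elim (fun h => hl2 (Int.prime_two.dvd_of_dvd_pow h))
        fun h => hy (Int.prime_two.dvd_of_dvd_pow h)
    · omega
  refine ⟨l ^ 12 * y ^ 12 * (2 * GD + 1) + 2 * (2 ^ 36 * kD),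
    l ^ 22 * y ^ 20 * (2 * G4 + 1) + 2 * (2 ^ 21 * k4), l ^ 33 * y ^ 30 * (4 * G6 + 3) + 4 * k6,
    by linear_combination hkD, by linear_combination hk4, by linear_combination hk6,
    unit _ _ _ _, unit _ _ _ _, ?_⟩
  push_cast
  rw [hl4, show (y : ZMod 4) ^ 30 = ((y : ZMod 4) ^ 2) ^ 15 by ring, hy4,
    show (4 : ZMod 4) = 0 by decide]
  ring

/-- The forms at the degenerate parameter at `3`. -/
theorem exists_forms_three {a b x y Δ : ℤ} (hrel : a ^ 3 - b ^ 2 = 1728 * Δ)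
    (ha : ¬ (3 : ℤ) ∣ a) (hΔ : (27 : ℤ) ∣ Δ) (hy : ¬ (3 : ℤ) ∣ y)
    (hx : (3 : ℤ) ^ 31 ∣ x * a + 7 * b * y) :
    ∃ D A B : ℤ, fiveD a b x y = 3 ^ 13 * D ∧ fiveC4 a b x y = 3 ^ 20 * A ∧
      fiveC6 a b x y = 3 ^ 30 * B ∧ ¬ (3 : ℤ) ∣ D ∧ ¬ (3 : ℤ) ∣ A := by
  have h3 := Int.prime_three
  have hb : ¬ (3 : ℤ) ∣ b := fun h => ha (h3.dvd_of_dvd_pow (n := 3) (by
    rw [show a ^ 3 = 1728 * Δ + b ^ 2 by linear_combination hrel]
    exact (dvd_mul_of_dvd_left (by norm_num) _).add (dvd_pow h two_ne_zero)))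
  obtain ⟨A, u, hA⟩ := ((h3.coprime_iff_not_dvd.2 ha).symm.pow_right (n := 31))
  obtain ⟨Bi, u', hB⟩ := ((h3.coprime_iff_not_dvd.2 hb).symm.pow_right (n := 31))
  obtain ⟨Δ', rfl⟩ := hΔ
  set T := 64 * Δ' with hT
  obtain ⟨⟨kD, hkD⟩, ⟨k4, hk4⟩, k6, hk6⟩ := forms_congr_degenerate (n := (3 : ℤ) ^ 31) (A := A)
    (Bi := Bi) (c := 729) (T := T) (x₀ := 7) ⟨-u, by linear_combination hA⟩
    ⟨-u', by linear_combination hB⟩ (by rw [hrel, hT]; ring) hx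
  set l := -(b * A) with hl
  set e := T * Bi ^ 2
  obtain ⟨GD, hGD⟩ := exists_fiveD_eqThree e
  obtain ⟨G4, hG4⟩ := exists_fiveC4_eqThree e
  obtain ⟨G6, hG6⟩ := exists_fiveC6_eqThree e
  rw [hGD] at hkD
  rw [hG4] at hk4
  rw [hG6] at hk6
  have hA3 : ¬ (3 : ℤ) ∣ A := fun h => by
    have h1 : (3 : ℤ) ∣ 1 := hA ▸ (h.mul_right a).add ((dvd_pow_self 3 (by norm_num)).mul_left u)
    norm_num at h1
  have hl3 : ¬ (3 : ℤ) ∣ l := fun h =>
    (h3.dvd_or_dvd (dvd_neg.1 h)).elim hb hA3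
  have unit : ∀ (i j : ℕ) (G K : ℤ), ¬ (3 : ℤ) ∣ l ^ i * y ^ j * (3 * G + 1) + 3 * K := by
    intro i j G K h
    rcases h3.dvd_or_dvd ((dvd_add_left (dvd_mul_right 3 K)).1 h) with h | h
    · exact (h3.dvd_or_dvd h).elim (fun h => hl3 (h3.dvd_of_dvd_pow h))
        fun h => hy (h3.dvd_of_dvd_pow h)
    · omega
  refine ⟨l ^ 12 * y ^ 12 * (3 * GD + 1) + 3 * (3 ^ 17 * kD),
    l ^ 22 * y ^ 20 * (3 * G4 + 1) + 3 * (3 ^ 10 * k4), l ^ 33 * y ^ 30 * G6 + 3 * k6,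
    by linear_combination hkD, by linear_combination hk4, by linear_combination hk6,
    unit _ _ _ _, unit _ _ _ _⟩

variable (W : WeierstrassCurve ℤ)

theorem c₄_cast_four (h : ¬ (2 : ℤ) ∣ W.c₄) : (W.c₄ : ZMod 4) = 1 ∧ (W.c₆ : ZMod 4) = 3 := by
  have h2 : ZMod.castHom (show 2 ∣ 4 by norm_num) (ZMod 2) (W.c₄ : ZMod 4) ≠ 0 := by
    rw [map_intCast]
    exact fun h' => h ((ZMod.intCast_zmod_eq_zero_iff_dvd _ 2).1 h')
  simp only [WeierstrassCurve.c₄, WeierstrassCurve.c₆, WeierstrassCurve.b₂, WeierstrassCurve.b₄,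
    WeierstrassCurve.b₆] at h2 ⊢
  push_cast at h2 ⊢
  simp only [show (4 : ZMod 4) = 0 by decide, show (24 : ZMod 4) = 0 by decide,
    show (36 : ZMod 4) = 0 by decide, show (216 : ZMod 4) = 0 by decide, zero_mul, add_zero,
    sub_zero] at h2 ⊢
  generalize (W.a₁ : ZMod 4) = z at h2 ⊢
  revert z
  decide

theorem twentySeven_dvd_c₆ (h : (3 : ℤ) ∣ W.c₄) : (27 : ℤ) ∣ W.c₆ := by
  simp only [WeierstrassCurve.c₄, WeierstrassCurve.c₆] at h ⊢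
  have hb : (3 : ℤ) ∣ W.b₂ := Int.prime_three.dvd_of_dvd_pow (n := 2)
    ((dvd_sub_left (dvd_mul_of_dvd_left (by norm_num) _)).1 h)
  obtain ⟨m, hm⟩ := hb
  exact ⟨-m ^ 3 + 4 * m * W.b₄ - 8 * W.b₆, by rw [hm]; ring⟩

/-- The local choice at `2`: the part `e` of `y` at `2`, and the class `r` of `x`. -/
theorem exists_local_two (hW : W.IsSemistableModel) (h2 : (2 : ℤ) ∣ W.Δ) :
    ∃ e : ℤ, e ≠ 0 ∧ (∀ q : ℕ, q.Prime → (q : ℤ) ∣ e → q = 2) ∧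
      ∀ z : ℤ, ¬ (2 : ℤ) ∣ z → ∃ r : ℤ, ∀ x : ℤ, (2 : ℤ) ^ 62 ∣ x - r → ∃ (k : ℕ) (D A B : ℤ),
        fiveD W.c₄ W.c₆ x (e * z) = ((2 : ℤ) ^ k) ^ 12 * D ∧
        fiveC4 W.c₄ W.c₆ x (e * z) = ((2 : ℤ) ^ k) ^ 20 * A ∧
        fiveC6 W.c₄ W.c₆ x (e * z) = ((2 : ℤ) ^ k) ^ 30 * B ∧
        ¬ (2 : ℤ) ∣ A ∧ (B : ZMod 4) = 3 ∧ D ≠ 0 ∧
        ¬ 3 ∣ padicValInt 2 W.Δ + 5 * padicValInt 2 D := by
  have hc : ¬ (2 : ℤ) ∣ W.c₄ := hW 2 Nat.prime_two h2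
  obtain ⟨ha, hb⟩ := c₄_cast_four W hc
  by_cases hadj : 3 ∣ padicValInt 2 W.Δ
  · refine ⟨1, one_ne_zero, fun q hq h => absurd (Int.natCast_dvd.1 h) (by simpa using hq.ne_one),
      fun z hz => ?_⟩
    have h8 : (8 : ℤ) ∣ W.Δ := by
      rcases eq_or_ne W.Δ 0 with h0 | h0
      · rw [h0]; exact dvd_zero _
      have hv : padicValInt 2 W.Δ ≠ 0 := fun h0' => by
        rcases (padicValInt.eq_zero_iff.1 h0') with h' | h' | h'
        · norm_num at h'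
        · exact h0 h'
        · exact h' (by exact_mod_cast h2)
      have h3 : (2 : ℤ) ^ 3 ∣ W.Δ := by
        have := (pow_dvd_pow (2 : ℤ) (show 3 ≤ padicValInt 2 W.Δ by omega)).trans
          (by exact_mod_cast padicValInt_dvd (p := 2) W.Δ)
        exact this
      simpa using h3
    obtain ⟨A, u, hA⟩ := ((Int.prime_two.coprime_iff_not_dvd.2 hc).symm.pow_right (n := 62))
    refine ⟨-13 * W.c₆ * z * A, fun x hx => ?_⟩
    obtain ⟨D, A', B, hD, h4, h6, hD2, hA2, hB⟩ :=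
      exists_forms_two (x := x) W.c_relation.symm ha hb h8 hz (by
        obtain ⟨m, hm⟩ := hx
        exact ⟨m * W.c₄ + 13 * W.c₆ * z * u, by
          linear_combination W.c₄ * hm - 13 * W.c₆ * z * hA⟩)
    rw [one_mul]
    refine ⟨2, 2 * D, A', B, by rw [hD]; ring, by rw [h4]; ring, by rw [h6]; ring, hA2, hB,
      mul_ne_zero two_ne_zero fun h => hD2 (by rw [h]; exact dvd_zero _), fun h => ?_⟩
    rw [padicValInt.mul two_ne_zero (fun h => hD2 (by rw [h]; exact dvd_zero _)),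
      show padicValInt 2 (2 : ℤ) = 1 from padicValInt.self one_lt_two,
      padicValInt.eq_zero_of_not_dvd (p := 2) (z := D) hD2] at h
    omega
  · refine ⟨2 ^ 62, by norm_num, fun q hq h => (Nat.prime_dvd_prime_iff_eq hq Nat.prime_two).1
      (hq.dvd_of_dvd_pow (n := 62) (by exact_mod_cast h)), fun z _ => ⟨1, fun x hx => ?_⟩⟩
    have hy : (2 : ℤ) ^ 62 ∣ 2 ^ 62 * z := dvd_mul_right _ _
    have hD := dvd_fiveD_sub_one W.c₄ W.c₆ hx hy
    have h4 := dvd_fiveC4_sub W.c₄ W.c₆ hx hy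
    have h6 := dvd_fiveC6_sub W.c₄ W.c₆ hx hy
    have hD2 : ¬ (2 : ℤ) ∣ fiveD W.c₄ W.c₆ x (2 ^ 62 * z) := fun h => by
      have h1 : (2 : ℤ) ∣ 1 :=
        (dvd_sub_right h).1 ((dvd_pow_self (2 : ℤ) (n := 62) (by norm_num)).trans hD)
      norm_num at h1
    refine ⟨0, _, _, _, by rw [pow_zero, one_pow, one_mul], by rw [pow_zero, one_pow, one_mul],
      by rw [pow_zero, one_pow, one_mul], fun h => hc ((dvd_sub_right h).1
        ((dvd_pow_self (2 : ℤ) (n := 62) (by norm_num)).trans h4)), ?_,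
      fun h => hD2 (by rw [h]; exact dvd_zero _), ?_⟩
    · rw [← hb, ← sub_eq_zero, ← Int.cast_sub]
      exact (ZMod.intCast_zmod_eq_zero_iff_dvd _ 4).2
        ((show ((4 : ℕ) : ℤ) ∣ (2 : ℤ) ^ 62 by norm_num).trans h6)
    · rw [padicValInt.eq_zero_of_not_dvd (p := 2) (z := fiveD W.c₄ W.c₆ x (2 ^ 62 * z)) hD2]
      simpa using hadj

/-- The local choice at `3`. -/
theorem exists_local_three (hW : W.IsSemistableModel) (hΔ : W.Δ ≠ 0) :
    ∃ e : ℤ, e ≠ 0 ∧ (∀ q : ℕ, q.Prime → (q : ℤ) ∣ e → q = 3) ∧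
      ∀ z : ℤ, ¬ (3 : ℤ) ∣ z → ∃ r : ℤ, ∀ x : ℤ, (3 : ℤ) ^ 31 ∣ x - r → ∃ (k : ℕ) (D A B : ℤ),
        fiveD W.c₄ W.c₆ x (e * z) = ((3 : ℤ) ^ k) ^ 12 * D ∧
        fiveC4 W.c₄ W.c₆ x (e * z) = ((3 : ℤ) ^ k) ^ 20 * A ∧
        fiveC6 W.c₄ W.c₆ x (e * z) = ((3 : ℤ) ^ k) ^ 30 * B ∧
        (¬ (3 : ℤ) ∣ A ∨ (27 : ℤ) ∣ B) ∧ D ≠ 0 ∧
        ((3 : ℤ) ∣ W.Δ → ¬ (3 : ℤ) ∣ A ∧ ¬ 3 ∣ padicValInt 3 W.Δ + 5 * padicValInt 3 D) ∧
        (¬ (3 : ℤ) ∣ W.Δ → ¬ (3 : ℤ) ∣ D) := by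
  have : Fact (Nat.Prime 3) := ⟨Nat.prime_three⟩
  by_cases hadj : (3 : ℤ) ∣ W.Δ ∧ 3 ∣ padicValInt 3 W.Δ
  · obtain ⟨h3, hadj⟩ := hadj
    have hc : ¬ (3 : ℤ) ∣ W.c₄ := hW 3 Nat.prime_three h3
    have h27 : (27 : ℤ) ∣ W.Δ := by
      have hv : padicValInt 3 W.Δ ≠ 0 := fun h0' => by
        rcases (padicValInt.eq_zero_iff.1 h0') with h' | h' | h'
        · norm_num at h'
        · exact hΔ h'
        · exact h' (by exact_mod_cast h3)
      have h3' : (3 : ℤ) ^ 3 ∣ W.Δ := by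
        have := (pow_dvd_pow (3 : ℤ) (show 3 ≤ padicValInt 3 W.Δ by omega)).trans
          (by exact_mod_cast padicValInt_dvd (p := 3) W.Δ)
        exact this
      simpa using h3'
    refine ⟨1, one_ne_zero, fun q hq h => absurd (Int.natCast_dvd.1 h) (by simpa using hq.ne_one),
      fun z hz => ?_⟩
    obtain ⟨A, u, hA⟩ := ((Int.prime_three.coprime_iff_not_dvd.2 hc).symm.pow_right (n := 31))
    refine ⟨-7 * W.c₆ * z * A, fun x hx => ?_⟩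
    obtain ⟨D, A', B, hD, h4, h6, hD3, hA3⟩ :=
      exists_forms_three (x := x) W.c_relation.symm hc h27 hz (by
        obtain ⟨m, hm⟩ := hx
        exact ⟨m * W.c₄ + 7 * W.c₆ * z * u, by
          linear_combination W.c₄ * hm - 7 * W.c₆ * z * hA⟩)
    rw [one_mul]
    refine ⟨1, 3 * D, A', B, by rw [hD]; ring, by rw [h4]; ring, by rw [h6]; ring, Or.inl hA3,
      mul_ne_zero three_ne_zero fun h => hD3 (by rw [h]; exact dvd_zero _),
      fun _ => ⟨hA3, fun h => ?_⟩,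
      fun h => absurd h3 h⟩
    rw [padicValInt.mul three_ne_zero (fun h => hD3 (by rw [h]; exact dvd_zero _)),
      show padicValInt 3 (3 : ℤ) = 1 from padicValInt.self (by norm_num),
      padicValInt.eq_zero_of_not_dvd (p := 3) (z := D) hD3] at h
    omega
  · refine ⟨3 ^ 31, by norm_num, fun q hq h => (Nat.prime_dvd_prime_iff_eq hq Nat.prime_three).1
      (hq.dvd_of_dvd_pow (n := 31) (by exact_mod_cast h)), fun z _ => ⟨1, fun x hx => ?_⟩⟩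
    have hy : (3 : ℤ) ^ 31 ∣ 3 ^ 31 * z := dvd_mul_right _ _
    have hD := dvd_fiveD_sub_one W.c₄ W.c₆ hx hy
    have h4 := dvd_fiveC4_sub W.c₄ W.c₆ hx hy
    have h6 := dvd_fiveC6_sub W.c₄ W.c₆ hx hy
    have hD3 : ¬ (3 : ℤ) ∣ fiveD W.c₄ W.c₆ x (3 ^ 31 * z) := fun h => by
      have h1 : (3 : ℤ) ∣ 1 :=
        (dvd_sub_right h).1 ((dvd_pow_self (3 : ℤ) (n := 31) (by norm_num)).trans hD)
      norm_num at h1
    have h4' : (3 : ℤ) ∣ fiveC4 W.c₄ W.c₆ x (3 ^ 31 * z) - W.c₄ :=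
      (dvd_pow_self (3 : ℤ) (n := 31) (by norm_num)).trans h4
    refine ⟨0, _, _, _, by rw [pow_zero, one_pow, one_mul], by rw [pow_zero, one_pow, one_mul],
      by rw [pow_zero, one_pow, one_mul], ?_, fun h => hD3 (by rw [h]; exact dvd_zero _),
      fun h3 => ⟨fun h => hW 3 Nat.prime_three h3 ((dvd_sub_right h).1 h4'), ?_⟩, fun _ => hD3⟩
    · by_cases hc : (3 : ℤ) ∣ W.c₄
      · exact Or.inr ((dvd_sub_left (twentySeven_dvd_c₆ W hc)).1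
          ((show (27 : ℤ) ∣ (3 : ℤ) ^ 31 by norm_num).trans h6))
      · exact Or.inl fun h => hc ((dvd_sub_right h).1 h4')
    · rw [padicValInt.eq_zero_of_not_dvd (p := 3) (z := fiveD W.c₄ W.c₆ x (3 ^ 31 * z)) hD3]
      simpa using fun h => hadj ⟨h3, h⟩

end Fermat.Agent.Switch
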