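import Fermat.Agent.Switch.HIT
import Fermat.Agent.Switch.FamilyPoly

/-!
Weak Hilbert irreducibility for the five-torsion family along a line `(u n + v : w)`.
-/

namespace Fermat.Agent.Switch

open Polynomial

/-- If the quartic of `(a, b)` has a rational root then, along the line `(u n + v : w)`, every
congruence class contains arbitrarily large `n` for which the quartic of the member of the
five-torsion family has no rational root. -/
theorem exists_ge_forall_qf_five_ne_zero {a b u v w : ℤ} (hab : a ^ 3 ≠ b ^ 2) (hu : u ≠ 0)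
    (hw : w ≠ 0) {y₀ : ℚ} (h₀ : qf (a : ℚ) b y₀ = 0) {M : ℤ} (hM : M ≠ 0) (r N : ℤ) :
    ∃ n : ℤ, N ≤ n ∧ M ∣ n - r ∧
      ∀ y : ℚ, qf ((fiveC4 a b (u * n + v) w : ℤ) : ℚ) ((fiveC6 a b (u * n + v) w : ℤ) : ℚ) y ≠ 0 := by
  set A : ℤ[X] := fiveC4 (C a) (C b) (C u * X + C v) (C w) with hA
  set B : ℤ[X] := fiveC6 (C a) (C b) (C u * X + C v) (C w) with hB
  have hmap : A.map (Int.castRingHom ℚ) = fivePolyC4 (a : ℚ) b u v w ∧
      B.map (Int.castRingHom ℚ) = fivePolyC6 (a : ℚ) b u v w := by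
    rw [hA, hB, ← coe_mapRingHom, map_fiveC4, map_fiveC6]
    simp [fivePolyC4, fivePolyC6]
  have habQ : (a : ℚ) ^ 3 ≠ (b : ℚ) ^ 2 := by exact_mod_cast hab
  have huQ : (u : ℚ) ≠ 0 := Int.cast_ne_zero.2 hu
  have hwQ : (w : ℚ) ≠ 0 := Int.cast_ne_zero.2 hw
  have hAd : A.natDegree ≤ 2 * 10 := by
    rw [← natDegree_map_eq_of_injective (f := Int.castRingHom ℚ) Int.cast_injective, hmap.1]
    exact natDegree_fivePolyC4_le
  have hBd : B.natDegree ≤ 3 * 10 := by
    rw [← natDegree_map_eq_of_injective (f := Int.castRingHom ℚ) Int.cast_injective, hmap.2]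
    exact natDegree_fivePolyC6_le
  have hAc : (A.coeff (2 * 10) : ℚ) = a * (u : ℚ) ^ 20 := by
    rw [← eq_intCast (Int.castRingHom ℚ), ← coeff_map, hmap.1]
    exact coeff_fivePolyC4
  have hBc : (B.coeff (3 * 10) : ℚ) = b * (u : ℚ) ^ 30 := by
    rw [← eq_intCast (Int.castRingHom ℚ), ← coeff_map, hmap.2]
    exact coeff_fivePolyC6
  obtain ⟨n, hn, hdvd, hroot⟩ := exists_ge_forall_qf_ne_zero (k := 10) (a := A) (b := B)
    (D := fivePolyD (a : ℚ) b u v w) (e := (a : ℚ) ^ 3 - (b : ℚ) ^ 2) hAd hBd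
    (by
      intro h
      have h' := congrArg (Int.cast : ℤ → ℚ) h
      push_cast at h'
      rw [hAc, hBc] at h'
      exact habQ (mul_right_cancel₀ (pow_ne_zero 60 huQ) (by linear_combination h')))
    (c := (u : ℚ) ^ 10 * y₀)
    (by
      rw [hAc, hBc]
      have := qf_weight ((u : ℚ) ^ 10) (a : ℚ) b y₀
      rw [h₀, mul_zero] at this
      rw [← this]
      ring_nf)
    (by rw [hmap.1, hmap.2]; exact fivePoly_syzygy ..) (sub_ne_zero.2 habQ)
    (by rw [hmap.1]; exact isCoprime_fivePolyC4_fivePolyD habQ hwQ)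
    (squarefree_fivePolyD habQ huQ hwQ) (by rw [natDegree_fivePolyD huQ]; norm_num) hM r N
  refine ⟨n, hn, hdvd, ?_⟩
  have hev : A.eval n = fiveC4 a b (u * n + v) w ∧ B.eval n = fiveC6 a b (u * n + v) w := by
    rw [hA, hB, ← coe_evalRingHom, map_fiveC4, map_fiveC6]
    simp
  rw [← hev.1, ← hev.2]
  exact hroot

end Fermat.Agent.Switch
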