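/-
The 3-5 switch keeping multiplicative reduction at `2` and good reduction at `5`: the member
`fiveModel W x M` with `M = 10368 * 5 * Δ` has discriminant `Δ * D ^ 5` with `D ≡ 1` modulo `M`.
-/
import Fermat.Agent.Switch.FamilyHIT
import Fermat.Agent.Switch.Mod3Root
import Fermat.Agent.Switch.TraceInput
import Fermat.Agent.Switch.TorsionIso
import Fermat.Agent.Endgame.Final

set_option autoImplicit false

namespace Fermat.Agent.Switch

open WeierstrassCurve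

/-- A member of the family, with parameters congruent to `(1 : 0)` modulo `5 * Δ`, whose mod 3
representation is irreducible, when the quartic of `W` has a rational root. -/
theorem exists_fiveModel_irreducible_three (W : WeierstrassCurve ℤ) (hΔ : W.Δ ≠ 0) {y₀ : ℚ}
    (h₀ : qf (W.c₄ : ℚ) (W.c₆ : ℚ) y₀ = 0) {M : ℤ} (hM0 : M ≠ 0) (hM : (10368 : ℤ) ∣ M) :
    ∃ x : ℤ, M ∣ x - 1 ∧ IsCoprime x M ∧ (fiveModel W x M).ModRepIsIrreducible 3 := by
  have hab : W.c₄ ^ 3 ≠ W.c₆ ^ 2 := fun h => hΔ (by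
    have h' : (1728 : ℤ) * W.Δ = 0 := by rw [W.c_relation, h, sub_self]
    simpa using h')
  obtain ⟨n, -, -, hn⟩ := exists_ge_forall_qf_five_ne_zero (v := 1) hab hM0 hM0 h₀ one_ne_zero 0 0
  have hx : M ∣ M * n + 1 - 1 := ⟨n, by ring⟩
  refine ⟨M * n + 1, hx, ⟨1, -n, by ring⟩, ?_⟩
  refine modRepIsIrreducible_three_of_forall _ (fiveModel_Δ_ne_zero W hΔ (hM.trans hx) hM) fun y => ?_
  rw [fiveModel_c₄ W (hM.trans hx) hM, fiveModel_c₆ W (hM.trans hx) hM]
  exact hn y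

/-- The congruence of Frobenius traces at common good primes inside the family. -/
theorem fiveModel_dvd_apOfModel_sub (W : WeierstrassCurve ℤ) (hΔ : W.Δ ≠ 0)
    (hW : W.IsSemistableModel) {x y : ℤ} (hx : (10368 : ℤ) ∣ x - 1) (hy : (10368 : ℤ) ∣ y)
    {ℓ : ℕ} (hℓ : ℓ.Prime) (hℓ5 : ℓ ≠ 5) (hg : W.IsGoodPrimeFor ℓ)
    (hg' : (fiveModel W x y).IsGoodPrimeFor ℓ) :
    (5 : ℤ) ∣ (fiveModel W x y).apOfModel ℓ - W.apOfModel ℓ := by
  by_cases h6 : ℓ ∣ 6
  · simp [fiveModel_apOfModel W h6]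
  set f := Int.castRingHom ℚ
  have hx0 : x ≠ 0 := fun h => by
    rw [h] at hx
    norm_num at hx
  obtain ⟨φ, hφ⟩ := exists_torsionFive_equiv (W.map f) ((fiveModel W x y).map f)
    (by
      rw [WeierstrassCurve.map_Δ]
      exact (map_ne_zero_iff f f.injective_int).mpr hΔ)
    (by
      rw [WeierstrassCurve.map_Δ]
      exact (map_ne_zero_iff f f.injective_int).mpr (fiveModel_Δ_ne_zero W hΔ hx hy))
    (x : ℚ) (y : ℚ) (Int.cast_ne_zero.mpr hx0)
    (by
      rw [WeierstrassCurve.map_c₆]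
      exact (map_ne_zero_iff f f.injective_int).mpr (c₆_ne_zero_of_isSemistableModel W hW))
    (by
      rw [WeierstrassCurve.map_c₄, fiveModel_c₄ W hx hy, map_fiveC4]
      simp [f])
    (by
      rw [WeierstrassCurve.map_c₆, fiveModel_c₆ W hx hy, map_fiveC6]
      simp [f])
  exact_mod_cast dvd_apOfModel_sub_of_torsion_equiv (traceIsAp Nat.prime_five) W
    (fiveModel W x y) φ hφ hℓ hℓ5 hg hg'

/-- The 3-5 switch keeping multiplicative reduction at `2` and good reduction at `5`. -/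
theorem switchKeepingGoodAtFive : Endgame.SwitchKeepingGoodAtFive := by
  intro W hΔ hW h2 _
  by_cases hroot : ∀ Y : ℚ, qf (W.c₄ : ℚ) (W.c₆ : ℚ) Y ≠ 0
  · exact ⟨W, hΔ, hW, h2, modRepIsIrreducible_three_of_forall W hΔ hroot, id,
      fun ℓ _ _ _ _ => by simp⟩
  push Not at hroot
  obtain ⟨y₀, hy₀⟩ := hroot
  set M : ℤ := 10368 * 5 * W.Δ with hM
  have h10368 : (10368 : ℤ) ∣ M := ⟨5 * W.Δ, by rw [hM]; ring⟩
  have h5 : (5 : ℤ) ∣ M := ⟨10368 * W.Δ, by rw [hM]; ring⟩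
  obtain ⟨x, hxM, hxy, hirr⟩ := exists_fiveModel_irreducible_three W hΔ hy₀ (M := M)
    (mul_ne_zero (by norm_num) hΔ) h10368
  have hx : (10368 : ℤ) ∣ x - 1 := h10368.trans hxM
  refine ⟨fiveModel W x M, fiveModel_Δ_ne_zero W hΔ hx h10368,
    fiveModel_isSemistableModel W hW hx h10368 h5 (dvd_mul_left _ _) hxy, ?_, hirr, fun hg => ?_,
    fun ℓ hℓ hg hg' hℓ5 => fiveModel_dvd_apOfModel_sub W hΔ hW hx h10368 hℓ hℓ5 hg hg'⟩
  · rw [fiveModel_Δ W hx h10368]
    exact h2.mul_right _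
  · refine (fiveModel_isGoodPrimeFor_iff W Nat.prime_five hx h10368).mpr ⟨hg, fun hd => ?_⟩
    have h := dvd_fiveD_sub_one W.c₄ W.c₆ (h5.trans hxM) h5
    have h1 : (5 : ℤ) ∣ 1 := (dvd_sub_right (by exact_mod_cast hd)).mp h
    norm_num at h1

end Fermat.Agent.Switch
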