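/-
The adjusted 3-5 switch: a semistable curve with the same five-torsion as the given one whose
discriminant has valuation prime to `3` at `2`, and at `3` when multiplicative there, and whose
mod 3 representation is irreducible.
-/
import Fermat.Agent.Switch.AdjustedLocal
import Fermat.Agent.Switch.KeepLocal
import Fermat.Agent.TwoAdic.Switch.KrausModel
import Fermat.Agent.Lifting.Squarefree.Contracts

set_option autoImplicit false

namespace Fermat.Agent.Switch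

open WeierstrassCurve
open Fermat.Agent.Lifting (IsLiftableAt)

theorem exists_crt {m n : ℤ} (h : IsCoprime m n) (r s : ℤ) :
    ∃ x : ℤ, m ∣ x - r ∧ n ∣ x - s := by
  obtain ⟨u, v, huv⟩ := h
  exact ⟨r * v * n + s * u * m, ⟨(s - r) * u, by linear_combination r * huv⟩,
    ⟨(r - s) * v, by linear_combination s * huv⟩⟩

/-- A value that is a multiple of a power of `2` and of one of `3` is a multiple of both. -/
theorem exists_common_cofactor (k l i : ℕ) {A A₃ F : ℤ} (h : F = ((2 : ℤ) ^ k) ^ i * A)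
    (h₃ : F = ((3 : ℤ) ^ l) ^ i * A₃) :
    ∃ A' : ℤ, A = ((3 : ℤ) ^ l) ^ i * A' ∧ A₃ = ((2 : ℤ) ^ k) ^ i * A' ∧
      F = ((2 : ℤ) ^ k * 3 ^ l) ^ i * A' := by
  have hco : IsCoprime (((3 : ℤ) ^ l) ^ i) (((2 : ℤ) ^ k) ^ i) :=
    ((show IsCoprime (3 : ℤ) 2 from ⟨1, -1, by norm_num⟩).pow (m := l) (n := k)).pow
  obtain ⟨A', rfl⟩ := hco.dvd_of_dvd_mul_left (⟨A₃, by rw [← h, h₃]⟩)
  refine ⟨A', rfl, mul_left_cancel₀ (show ((3 : ℤ) ^ l) ^ i ≠ 0 by positivity) ?_,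
    by rw [h, mul_pow]; ring⟩
  rw [← h₃, h]
  ring

/-- The odd and prime-to-three parameter, divisible by `5` and by the other bad primes. -/
theorem exists_outside_six {Δ : ℤ} (hΔ : Δ ≠ 0) :
    ∃ y : ℤ, y ≠ 0 ∧ ¬ (2 : ℤ) ∣ y ∧ ¬ (3 : ℤ) ∣ y ∧ (5 : ℤ) ∣ y ∧
      ∀ q : ℕ, q.Prime → q ≠ 2 → q ≠ 3 → (q : ℤ) ∣ Δ → (q : ℤ) ∣ y := by
  set S := Δ.natAbs.primeFactors.filter (fun q => q ≠ 2 ∧ q ≠ 3)
  have hmem : ∀ p : ℕ, p.Prime → p ∣ 5 * ∏ q ∈ S, q → p = 5 ∨ p ∈ S := fun p hp h => by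
    refine (hp.dvd_mul.1 h).imp (fun h => (Nat.prime_dvd_prime_iff_eq hp Nat.prime_five).1 h)
      fun h => ?_
    obtain ⟨q, hq, hpq⟩ := (hp.prime.dvd_finsetProd_iff _).1 h
    rwa [(Nat.prime_dvd_prime_iff_eq hp
      (Nat.prime_of_mem_primeFactors (Finset.mem_filter.1 hq).1)).1 hpq]
  refine ⟨((5 * ∏ q ∈ S, q : ℕ) : ℤ), Int.natCast_ne_zero.2 (mul_ne_zero (by norm_num)
    (Finset.prod_ne_zero_iff.2 fun q hq =>
      (Nat.prime_of_mem_primeFactors (Finset.mem_filter.1 hq).1).ne_zero)),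
    fun h => ?_, fun h => ?_, ?_, fun q hq h2 h3 hd => ?_⟩
  · rcases hmem 2 Nat.prime_two (by exact_mod_cast h) with h | h
    · norm_num at h
    · exact (Finset.mem_filter.1 h).2.1 rfl
  · rcases hmem 3 Nat.prime_three (by exact_mod_cast h) with h | h
    · norm_num at h
    · exact (Finset.mem_filter.1 h).2.2 rfl
  · exact Int.natCast_dvd_natCast.2 (dvd_mul_right 5 _)
  · refine Int.natCast_dvd_natCast.2 (dvd_mul_of_dvd_right (Finset.dvd_prod_of_mem _ ?_) _)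
    exact Finset.mem_filter.2 ⟨Nat.mem_primeFactors.2
      ⟨hq, Int.natCast_dvd.1 hd, Int.natAbs_ne_zero.2 hΔ⟩, h2, h3⟩

theorem padicValInt_eq_of_eq_mul {p : ℕ} [Fact p.Prime] {c D D' : ℤ} (h : D = c * D')
    (hc : ¬ (p : ℤ) ∣ c) (hD' : D' ≠ 0) : padicValInt p D = padicValInt p D' := by
  rw [h, padicValInt.mul (fun h' => hc (by rw [h']; exact dvd_zero _)) hD',
    padicValInt.eq_zero_of_not_dvd hc, zero_add]

theorem padicValInt_mul_pow_five {p : ℕ} [Fact p.Prime] {a D : ℤ} (ha : a ≠ 0) (hD : D ≠ 0) :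
    padicValInt p (a * D ^ 5) = padicValInt p a + 5 * padicValInt p D := by
  simp [pow_succ, padicValInt.mul, ha, hD]
  ring

/-- The member of the five-torsion family with the wanted valuations at `2` and `3`. -/
theorem exists_adjusted_model (W : WeierstrassCurve ℤ) (hΔ : W.Δ ≠ 0) (hW : W.IsSemistableModel)
    (h2 : (2 : ℤ) ∣ W.Δ) :
    ∃ V : WeierstrassCurve ℤ, V.Δ ≠ 0 ∧ V.IsSemistableModel ∧ IsLiftableAt V 3 ∧ W.Δ ∣ V.Δ ∧
      (W.IsGoodPrimeFor 3 → V.IsGoodPrimeFor 3) ∧ (W.IsGoodPrimeFor 5 → V.IsGoodPrimeFor 5) ∧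
      ∀ ℓ : ℕ, ℓ.Prime → W.IsGoodPrimeFor ℓ → V.IsGoodPrimeFor ℓ → ℓ ≠ 5 →
        (5 : ℤ) ∣ (V.apOfModel ℓ - W.apOfModel ℓ) := by
  obtain ⟨y₀, hy₀, hy₀2, hy₀3, hy₀5, hy₀Δ⟩ := exists_outside_six hΔ
  obtain ⟨e₂, he₂, he₂', hloc₂⟩ := exists_local_two W hW h2
  obtain ⟨e₃, he₃, he₃', hloc₃⟩ := exists_local_three W hW hΔ
  obtain ⟨r₂, hr₂⟩ := hloc₂ (e₃ * y₀) fun h => (Int.prime_two.dvd_or_dvd h).elim
    (fun h => absurd (he₃' 2 Nat.prime_two (by exact_mod_cast h)) (by norm_num)) hy₀2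
  obtain ⟨r₃, hr₃⟩ := hloc₃ (e₂ * y₀) fun h => (Int.prime_three.dvd_or_dvd h).elim
    (fun h => absurd (he₂' 3 Nat.prime_three (by exact_mod_cast h)) (by norm_num)) hy₀3
  obtain ⟨s, hs₂, hs₃⟩ := exists_crt (m := (2 : ℤ) ^ 62) (n := (3 : ℤ) ^ 31)
    ((show IsCoprime (2 : ℤ) 3 from ⟨-1, 1, by norm_num⟩).pow) r₂ r₃
  obtain ⟨x, hxs, hx1⟩ := exists_crt (m := (2 : ℤ) ^ 62 * 3 ^ 31) (n := y₀)
    (((Int.prime_two.coprime_iff_not_dvd.2 hy₀2).pow_left).mul_left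
      ((Int.prime_three.coprime_iff_not_dvd.2 hy₀3).pow_left)) s 1
  obtain ⟨k, D, A, B, hD, hA, hB, hA2, hB4, hD0, hv2⟩ :=
    hr₂ x (by simpa using ((dvd_mul_right _ _).trans hxs).add hs₂)
  obtain ⟨l, D₃, A₃, B₃, hD₃, hA₃, hB₃, h27, -, hv3, hg3⟩ :=
    hr₃ x (by simpa using ((dvd_mul_left _ _).trans hxs).add hs₃)
  rw [mul_left_comm] at hD₃ hA₃ hB₃
  set a := W.c₄ with ha
  set b := W.c₆ with hb
  set y := e₂ * (e₃ * y₀) with hy
  set w : ℤ := 2 ^ k * 3 ^ l with hw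
  have hw0 : w ≠ 0 := by positivity
  obtain ⟨D', hDD, hD3D, hFD⟩ := exists_common_cofactor k l 12 hD hD₃
  obtain ⟨A', hAA, hA3A, hFA⟩ := exists_common_cofactor k l 20 hA hA₃
  obtain ⟨B', hBB, hB3B, hFB⟩ := exists_common_cofactor k l 30 hB hB₃
  rw [← hw] at hFD hFA hFB
  have hrel : A' ^ 3 - B' ^ 2 = 1728 * (W.Δ * D' ^ 5) := by
    have h := fiveC4_cube_sub_fiveC6_sq a b x y
    rw [hFA, hFB, hFD, ← W.c_relation] at h
    refine mul_left_cancel₀ (pow_ne_zero 60 hw0) ?_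
    linear_combination h
  have hB' : (B' : ZMod 4) = 3 := by
    have h := congrArg (Int.cast : ℤ → ZMod 4) hBB
    push_cast at h
    rwa [hB4, ← pow_mul, mul_comm l 30, pow_mul, show (3 : ZMod 4) ^ 30 = 1 by decide, one_pow,
      one_mul, eq_comm] at h
  have hA' : ¬ (2 : ℤ) ∣ A' := fun h => hA2 (hAA ▸ h.mul_left _)
  have h3 : ¬ (3 : ℤ) ∣ A' ∨ (27 : ℤ) ∣ B' := by
    refine h27.imp (fun h h' => h (hA3A ▸ h'.mul_left _)) fun h => ?_
    rw [hB3B] at h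
    exact IsCoprime.dvd_of_dvd_mul_left
      (((show IsCoprime (27 : ℤ) 2 from ⟨1, -13, by norm_num⟩).pow_right).pow_right) h
  obtain ⟨V, hV4, hV6, hVΔ⟩ := Fermat.Agent.TwoAdic.exists_model A' B' _ hrel
    (Int.not_even_iff_odd.1 fun h => hA' (even_iff_two_dvd.1 h))
    (((ZMod.intCast_eq_intCast_iff' B' 3 4).1 (by simpa using hB'))) h3
  have hD'0 : D' ≠ 0 := fun h => hD0 (by rw [hDD, h, mul_zero])
  have hVΔ0 : V.Δ ≠ 0 := hVΔ ▸ mul_ne_zero hΔ (pow_ne_zero 5 hD'0)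
  have hdvdD : D' ∣ fiveD a b x y := Dvd.intro_left _ hFD.symm
  have hdvdA : A' ∣ fiveC4 a b x y := Dvd.intro_left _ hFA.symm
  have hnD3 : ¬ (3 : ℤ) ∣ W.Δ → ¬ (3 : ℤ) ∣ D' := fun h h' => hg3 h (hD3D ▸ h'.mul_left _)
  have hy5 : (5 : ℤ) ∣ y := (hy₀5.mul_left e₃).mul_left e₂
  have hgood : ∀ q : ℕ, q.Prime → (q : ℤ) ∣ y₀ → ¬ (q : ℤ) ∣ D' := fun q hq hqy h => by
    have h1 := dvd_fiveD_sub_one a b (hqy.trans hx1) ((hqy.mul_left e₃).mul_left e₂)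
    exact (Nat.prime_iff_prime_int.1 hq).not_isUnit
      (isUnit_of_dvd_one ((dvd_sub_right (h.trans hdvdD)).1 h1))
  refine ⟨V, hVΔ0, fun q hq hqΔ hqc => ?_, ⟨Or.inl ?_, fun _ => ⟨?_, fun h => ?_⟩⟩,
    hVΔ ▸ dvd_mul_right _ _, fun hg => ?_, fun hg => ?_, fun ℓ hℓ hg hg' hℓ5 => ?_⟩
  · have hq' : Prime (q : ℤ) := Nat.prime_iff_prime_int.mp hq
    rw [hVΔ] at hqΔ
    rw [hV4] at hqc
    rcases eq_or_ne q 2 with rfl | hq2
    · exact hA' (by exact_mod_cast hqc)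
    rcases eq_or_ne q 3 with rfl | hq3
    · by_cases h : (3 : ℤ) ∣ W.Δ
      · exact (hv3 h).1 (hA3A ▸ (show (3 : ℤ) ∣ A' by exact_mod_cast hqc).mul_left _)
      · exact (hq'.dvd_or_dvd hqΔ).elim (fun h' => h (by exact_mod_cast h'))
          fun h' => hnD3 h (by exact_mod_cast hq'.dvd_of_dvd_pow h')
    by_cases hqy : (q : ℤ) ∣ y
    · have hqy₀ : (q : ℤ) ∣ y₀ := (hq'.dvd_or_dvd ((hq'.dvd_or_dvd hqy).resolve_left
        fun h => hq2 (he₂' q hq h))).resolve_left fun h => hq3 (he₃' q hq h)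
      rcases hq'.dvd_or_dvd hqΔ with h | h
      · exact hW q hq h ((dvd_sub_right (hqc.trans hdvdA)).1
          (dvd_fiveC4_sub a b (hqy₀.trans hx1) hqy))
      · exact hgood q hq hqy₀ (hq'.dvd_of_dvd_pow h)
    · have hqΔ' : ¬ (q : ℤ) ∣ W.Δ := fun h =>
        hqy (((hy₀Δ q hq hq2 hq3 h).mul_left e₃).mul_left e₂)
      have key := fiveRes_identity a b x y
      rw [← W.c_relation] at key
      have hd : (q : ℤ) ∣ 2 ^ 26 * 3 ^ 12 * 5 ^ 5 * (1728 * W.Δ) ^ 6 * y ^ 31 :=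
        key ▸ (((hq'.dvd_of_dvd_pow
          ((hq'.dvd_or_dvd hqΔ).resolve_left hqΔ')).trans hdvdD).mul_left _).add
          ((hqc.trans hdvdA).mul_left _)
      have n2 : ¬ (q : ℤ) ∣ 2 := fun h =>
        hq2 ((Nat.prime_dvd_prime_iff_eq hq Nat.prime_two).1 (by exact_mod_cast h))
      have n3 : ¬ (q : ℤ) ∣ 3 := fun h =>
        hq3 ((Nat.prime_dvd_prime_iff_eq hq Nat.prime_three).1 (by exact_mod_cast h))
      have n5 : ¬ (q : ℤ) ∣ 5 := fun h => hqy (h.trans hy5)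
      have n1728 : ¬ (q : ℤ) ∣ 2 ^ 6 * 3 ^ 3 := fun h => (hq'.dvd_or_dvd h).elim
        (fun h => n2 (hq'.dvd_of_dvd_pow h)) fun h => n3 (hq'.dvd_of_dvd_pow h)
      rcases hq'.dvd_or_dvd hd with hd | hd
      · rcases hq'.dvd_or_dvd hd with hd | hd
        · rcases hq'.dvd_or_dvd hd with hd | hd
          · exact (hq'.dvd_or_dvd hd).elim (fun h => n2 (hq'.dvd_of_dvd_pow h))
              fun h => n3 (hq'.dvd_of_dvd_pow h)
          · exact n5 (hq'.dvd_of_dvd_pow hd)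
        · exact (hq'.dvd_or_dvd (hq'.dvd_of_dvd_pow hd)).elim n1728 hqΔ'
      · exact hqy (hq'.dvd_of_dvd_pow hd)
  · exact hVΔ ▸ h2.mul_right _
  · rw [hVΔ, padicValInt_mul_pow_five hΔ hD'0, ← padicValInt_eq_of_eq_mul (p := 2) hDD ?_ hD'0]
    · exact hv2
    · exact fun h => absurd (Int.prime_two.dvd_of_dvd_pow (a := (3 : ℤ)) (n := l)
        (Int.prime_two.dvd_of_dvd_pow (n := 12) (by exact_mod_cast h))) (by norm_num)
  · have : Fact (Nat.Prime 3) := ⟨Nat.prime_three⟩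
    have h3Δ : (3 : ℤ) ∣ W.Δ := by
      by_contra hn
      rw [hVΔ] at h
      exact (Int.prime_three.dvd_or_dvd h).elim hn
        fun h => hnD3 hn (Int.prime_three.dvd_of_dvd_pow h)
    rw [hVΔ, padicValInt_mul_pow_five hΔ hD'0, ← padicValInt_eq_of_eq_mul (p := 3) hD3D ?_ hD'0]
    · exact (hv3 h3Δ).2
    · exact fun h => absurd (Int.prime_three.dvd_of_dvd_pow (a := (2 : ℤ)) (n := k)
        (Int.prime_three.dvd_of_dvd_pow (n := 12) (by exact_mod_cast h))) (by norm_num)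
  · show ¬ ((3 : ℕ) : ℤ) ∣ V.Δ
    rw [hVΔ]
    intro h
    exact (Int.prime_three.dvd_or_dvd h).elim hg
      fun h => hnD3 hg (Int.prime_three.dvd_of_dvd_pow h)
  · show ¬ ((5 : ℕ) : ℤ) ∣ V.Δ
    rw [hVΔ]
    intro h
    have h5 : Prime ((5 : ℕ) : ℤ) := Nat.prime_iff_prime_int.1 Nat.prime_five
    exact (h5.dvd_or_dvd h).elim hg fun h => hgood 5 Nat.prime_five hy₀5 (h5.dvd_of_dvd_pow h)
  · set f := Int.castRingHom ℚ
    have hx0 : x ≠ 0 := by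
      rintro rfl
      have h : (5 : ℤ) ∣ 0 - 1 := hy₀5.trans hx1
      norm_num at h
    have hwQ : (w : ℚ) ≠ 0 := Int.cast_ne_zero.mpr hw0
    obtain ⟨φ, hφ⟩ := exists_torsionFive_equiv (W.map f) (V.map f)
      (by rw [WeierstrassCurve.map_Δ]; exact (map_ne_zero_iff f f.injective_int).mpr hΔ)
      (by rw [WeierstrassCurve.map_Δ]; exact (map_ne_zero_iff f f.injective_int).mpr hVΔ0)
      ((x : ℚ) / w) ((y : ℚ) / w) (div_ne_zero (Int.cast_ne_zero.mpr hx0) hwQ)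
      (by
        rw [WeierstrassCurve.map_c₆]
        exact (map_ne_zero_iff f f.injective_int).mpr (c₆_ne_zero_of_isSemistableModel W hW))
      (by
        rw [WeierstrassCurve.map_c₄, WeierstrassCurve.map_c₄, WeierstrassCurve.map_c₆, hV4]
        refine mul_left_cancel₀ (pow_ne_zero 20 hwQ) ?_
        rw [← fiveC4_homog, mul_div_cancel₀ _ hwQ, mul_div_cancel₀ _ hwQ]
        have h := congrArg f hFA
        rw [map_fiveC4, map_mul f (w ^ _) A', map_pow] at h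
        exact h.symm)
      (by
        rw [WeierstrassCurve.map_c₄, WeierstrassCurve.map_c₆, WeierstrassCurve.map_c₆, hV6]
        refine mul_left_cancel₀ (pow_ne_zero 30 hwQ) ?_
        rw [← fiveC6_homog, mul_div_cancel₀ _ hwQ, mul_div_cancel₀ _ hwQ]
        have h := congrArg f hFB
        rw [map_fiveC6, map_mul f (w ^ _) B', map_pow] at h
        exact h.symm)
    exact_mod_cast dvd_apOfModel_sub_of_torsion_equiv (traceIsAp Nat.prime_five) W V φ hφ hℓ hℓ5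
      hg hg'

/-- The 3-5 switch to a curve liftable at `3`. -/
theorem adjustedSwitch : Lifting.AdjustedSwitch := by
  intro W hΔ hW h2 _
  obtain ⟨V, hVΔ, hV, ⟨hV2, hVlift⟩, -, hg3, hg5, hcong⟩ := exists_adjusted_model W hΔ hW h2
  by_cases hroot : ∀ Y : ℚ, qf (V.c₄ : ℚ) (V.c₆ : ℚ) Y ≠ 0
  · exact ⟨V, hVΔ, hV, ⟨hV2, hVlift⟩, modRepIsIrreducible_three_of_forall V hVΔ hroot, hg3, hg5,
      hcong⟩
  push Not at hroot
  obtain ⟨y₁, hy₁⟩ := hroot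
  set M : ℤ := 10368 * 5 * V.Δ with hM
  have h10368 : (10368 : ℤ) ∣ M := ⟨5 * V.Δ, by rw [hM]; ring⟩
  have h5 : (5 : ℤ) ∣ M := ⟨10368 * V.Δ, by rw [hM]; ring⟩
  obtain ⟨x, hxM, hxy, hirr⟩ := exists_fiveModel_irreducible_three V hVΔ hy₁ (M := M)
    (mul_ne_zero (by norm_num) hVΔ) h10368
  have hx : (10368 : ℤ) ∣ x - 1 := h10368.trans hxM
  have hD : ∀ p : ℕ, p.Prime → (p : ℤ) ∣ M → ¬ (p : ℤ) ∣ fiveD V.c₄ V.c₆ x M := fun p hp hpM h =>
    (Nat.prime_iff_prime_int.1 hp).not_isUnit (isUnit_of_dvd_one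
      ((dvd_sub_right h).1 (dvd_fiveD_sub_one V.c₄ V.c₆ (hpM.trans hxM) hpM)))
  have h2M : ((2 : ℕ) : ℤ) ∣ M := (show ((2 : ℕ) : ℤ) ∣ 10368 by norm_num).trans h10368
  have h3M : ((3 : ℕ) : ℤ) ∣ M := (show ((3 : ℕ) : ℤ) ∣ 10368 by norm_num).trans h10368
  have hkeep : ∀ p : ℕ, p.Prime → (p : ℤ) ∣ M →
      padicValInt p (fiveModel V x M).Δ = padicValInt p V.Δ := fun p hp hpM => by
    have : Fact p.Prime := ⟨hp⟩
    rw [fiveModel_Δ V hx h10368, padicValInt_mul_pow_five hVΔ (fiveD_ne_zero V hx h10368),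
      padicValInt.eq_zero_of_not_dvd (hD p hp hpM), mul_zero, add_zero]
  have hgood : ∀ p : ℕ, p.Prime → (p : ℤ) ∣ M → V.IsGoodPrimeFor p →
      (fiveModel V x M).IsGoodPrimeFor p := fun p hp hpM hg =>
    (fiveModel_isGoodPrimeFor_iff V hp hx h10368).mpr ⟨hg, hD p hp hpM⟩
  refine ⟨fiveModel V x M, fiveModel_Δ_ne_zero V hVΔ hx h10368,
    fiveModel_isSemistableModel V hV hx h10368 h5 (dvd_mul_left _ _) hxy,
    ⟨Or.inl ?_, fun h3 => ⟨?_, fun h => ?_⟩⟩, hirr,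
    fun hg => hgood 3 Nat.prime_three h3M (hg3 hg),
    fun hg => hgood 5 Nat.prime_five (by exact_mod_cast h5) (hg5 hg),
    fun ℓ hℓ hg hg' hℓ5 => ?_⟩
  · rw [fiveModel_Δ V hx h10368]
    exact (Lifting.IsLiftableAt.two_dvd ⟨hV2, hVlift⟩ rfl).mul_right _
  · rw [hkeep 2 Nat.prime_two h2M]
    exact (hVlift h3).1
  · rw [hkeep 3 Nat.prime_three h3M]
    refine (hVlift h3).2 (by_contra fun hn => ?_)
    exact hgood 3 Nat.prime_three h3M (by exact_mod_cast hn) (by exact_mod_cast h)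
  · have hgV : V.IsGoodPrimeFor ℓ := ((fiveModel_isGoodPrimeFor_iff V hℓ hx h10368).mp hg').1
    simpa using (fiveModel_dvd_apOfModel_sub V hVΔ hV hx h10368 hℓ hℓ5 hgV hg').add
      (hcong ℓ hℓ hg hgV hℓ5)

end Fermat.Agent.Switch
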