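import Fermat.Agent.Switch.Quartic

/-!
The quartic attached to the family has no root in `K[t]`: on such a root the discriminant
would be a cube times a factor of small degree, but it is a fifth power of a squarefree
polynomial of large degree.
-/

namespace Fermat.Agent.Switch

open Polynomial

variable {K : Type*} [Field K] [CharZero K]

omit [CharZero K] in
theorem natDegree_le_of_qf_eq_zero {k : ℕ} {a b p : K[X]} (ha : a.natDegree ≤ 2 * k)
    (hb : b.natDegree ≤ 3 * k) (h : qf a b p = 0) : p.natDegree ≤ k := by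
  by_contra hk
  push Not at hk
  have hp : p ^ 4 = 6 * a * p ^ 2 + 8 * b * p + 3 * a ^ 2 := by
    simp only [qf] at h; linear_combination h
  have h4 : (p ^ 4).natDegree = 4 * p.natDegree := by simp [natDegree_pow]
  have hle : (6 * a * p ^ 2 + 8 * b * p + 3 * a ^ 2).natDegree ≤ 4 * p.natDegree - 1 := by
    compute_degree <;> omega
  rw [← hp, h4] at hle
  omega

theorem qf_ne_zero_of_pow_five {k : ℕ} {a b D p : K[X]} {e : K} (ha : a.natDegree ≤ 2 * k)
    (hb : b.natDegree ≤ 3 * k) (hD : a ^ 3 - b ^ 2 = C e * D ^ 5) (he : e ≠ 0)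
    (hcop : IsCoprime a D) (hsq : Squarefree D) (hdeg : 2 * k < 5 * D.natDegree) :
    qf a b p ≠ 0 := by
  intro h
  have hid := cube_mul_eq_of_qf_eq_zero h
  rw [hD] at hid
  have hDne : D ≠ 0 := hsq.ne_zero
  have hv : IsCoprime (p ^ 2 - a) D := by
    apply isCoprime_of_prime_dvd (fun hh => hDne hh.2)
    intro π hπ hπv hπD
    have hna : ¬ π ∣ a := fun hh => hπ.not_isUnit (hcop.isUnit_of_dvd' hh hπD)
    have hnp : ¬ π ∣ p := by
      intro hh
      apply hna
      have := dvd_sub (dvd_pow hh two_ne_zero) hπv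
      simpa using this
    have hnw : ¬ π ∣ p ^ 2 - 9 * a := by
      intro hh
      apply hna
      have h8 : π ∣ C (8 : K) * a := by
        have := dvd_sub hπv hh
        rw [map_ofNat]
        convert this using 1
        ring
      exact ((isUnit_C.2 (Ne.isUnit (by norm_num))).dvd_mul_left).1 h8
    have hu : IsUnit (C e) := isUnit_C.2 he.isUnit
    have h64 : IsUnit (-64 : K[X]) := by
      rw [show (-64 : K[X]) = C (-64 : K) by rw [map_neg, map_ofNat]]
      exact isUnit_C.2 (Ne.isUnit (by norm_num))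
    obtain ⟨D', hD'⟩ := hπD
    have hnD' : ¬ π ∣ D' := by
      rintro ⟨u, rfl⟩
      exact hπ.not_isUnit (hsq π ⟨u, by rw [hD']; ring⟩)
    obtain ⟨v', hv'⟩ := hπv
    rw [hD', hv'] at hid
    have hπ3 : π ^ 3 ≠ 0 := pow_ne_zero _ hπ.ne_zero
    have hid2 : v' ^ 3 * (p ^ 2 - 9 * a) = -64 * p ^ 2 * C e * π ^ 2 * D' ^ 5 := by
      apply mul_left_cancel₀ hπ3
      linear_combination hid
    have hπv' : π ∣ v' := by
      have h' : π ∣ v' ^ 3 * (p ^ 2 - 9 * a) := by
        rw [hid2]
        exact Dvd.dvd.mul_right (Dvd.dvd.mul_left (dvd_pow_self π two_ne_zero) _) _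
      exact hπ.dvd_of_dvd_pow ((hπ.dvd_or_dvd h').resolve_right hnw)
    obtain ⟨v'', rfl⟩ := hπv'
    have hπ2 : π ^ 2 ≠ 0 := pow_ne_zero _ hπ.ne_zero
    have hid3 : π * (v'' ^ 3 * (p ^ 2 - 9 * a)) = -64 * C e * (p ^ 2 * D' ^ 5) := by
      apply mul_left_cancel₀ hπ2
      linear_combination hid2
    have hd : π ∣ p ^ 2 * D' ^ 5 := by
      refine ((h64.mul hu).dvd_mul_left).1 ?_
      exact ⟨_, hid3.symm⟩
    rcases hπ.dvd_or_dvd hd with hh | hh
    · exact hnp (hπ.dvd_of_dvd_pow hh)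
    · exact hnD' (hπ.dvd_of_dvd_pow hh)
  have hw : D ^ 5 ∣ p ^ 2 - 9 * a := by
    refine (IsCoprime.pow hv.symm (m := 5) (n := 3)).dvd_of_dvd_mul_left ?_
    exact ⟨-64 * p ^ 2 * C e, by rw [hid]; ring⟩
  have hp := natDegree_le_of_qf_eq_zero ha hb h
  have hwdeg : (p ^ 2 - 9 * a).natDegree ≤ 2 * k := by compute_degree <;> omega
  have hw0 : p ^ 2 - 9 * a = 0 := by
    by_contra hne
    have := natDegree_le_of_dvd hw hne
    rw [natDegree_pow] at this
    omega
  rw [hw0, mul_zero] at hid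
  have hp0 : p = 0 := by
    by_contra hne
    simp [hne, he, hDne] at hid
  subst hp0
  have ha0 : a = 0 := by simpa using hw0
  subst ha0
  have := isCoprime_zero_left.1 hcop
  rw [natDegree_eq_zero_of_isUnit this] at hdeg
  omega

end Fermat.Agent.Switch
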